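/-
helper19 — S27 / (GEN): the ABSTRACT FRAME of the generic-tuple argument (interface file).

`FΩ/Ω` is a function field of one variable (`IsFF1 Ω FΩ x`) over an algebraically closed field
`Ω ⊇ K`; the group `Aut(Ω/K)` acts on `FΩ` by semilinear automorphisms through `rho`
(so on places, divisors and classes), fixing the coordinate function `x`.  For an intermediate
field `M` of `Ω/K` the group `Γ_M` is `M.fixingSubgroup`, and `f : FΩ` is `M`-rational
(`IsRat rho M f`) when it is fixed by `Γ_M`.

`Frame x rho` collects what the generic-tuple argument of MW/DivC uses of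
`(ℂ, ℂ·F_N, Aut(ℂ/ℚ), j)`; the constant-field-extension layer (BC) of S27 instantiates it.
Everything is universe-polymorphic.
-/
import Mathlib
import Fermat.Agent.Lib.FF.Setting
import Fermat.Prelude.Def_AlgebraicCurve_BaseChangeGalois

set_option autoImplicit false

open AlgebraicCurve

noncomputable section

namespace Fermat.Agent.S27P.Gen

open Fermat.Agent.Lib.FF

variable {K : Type*} {Ω : Type*} {FΩ : Type*} [Field K] [Field Ω] [Algebra K Ω] [Field FΩ]
  [Algebra Ω FΩ]

/-- `f` is fixed by the automorphisms of `Ω` over `M` ("`f` is `M`-rational"). -/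
def IsRat (rho : (Ω ≃ₐ[K] Ω) →* SemilinearAut Ω FΩ) (M : IntermediateField K Ω) (f : FΩ) :
    Prop :=
  ∀ σ ∈ M.fixingSubgroup, rho σ • f = f

/-- **The frame of the generic-tuple argument.** -/
structure Frame (x : FΩ) (rho : (Ω ≃ₐ[K] Ω) →* SemilinearAut Ω FΩ) : Prop where
  /-- `FΩ/Ω` is a function field of one variable with coordinate `x`. -/
  ff : IsFF1 Ω FΩ x
  /-- `rho σ` is `σ`-semilinear. -/
  smul_algebraMap : ∀ (σ : Ω ≃ₐ[K] Ω) (c : Ω),
    rho σ • algebraMap Ω FΩ c = algebraMap Ω FΩ (σ c)
  /-- the coordinate function is rational over `K`. -/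
  smul_x : ∀ σ : Ω ≃ₐ[K] Ω, rho σ • x = x
  /-- **rational spanning** (semilinear descent): for an algebraically closed intermediate field
  `M`, the Riemann–Roch space of a `Γ_M`-fixed divisor is spanned by `M`-rational functions. -/
  span_isRat : ∀ (M : IntermediateField K Ω) [IsAlgClosed M] (D : Divisor Ω FΩ),
    (∀ σ ∈ M.fixingSubgroup, rho σ • D = D) →
    riemannRochSpace D ≤ Submodule.span Ω {f | f ∈ riemannRochSpace D ∧ IsRat rho M f}
  /-- a place fixed by all automorphisms (a `K`-rational place). -/
  exists_fixed_place : ∃ P₀ : Place Ω FΩ, ∀ σ : Ω ≃ₐ[K] Ω, rho σ • P₀ = P₀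
  /-- `Ω` has finite transcendence degree over `K`. -/
  trdeg_lt : Algebra.trdeg K Ω < Cardinal.aleph0

/-- `f` takes the value `c` at the place `P` (`f - c` lies in the maximal ideal of `P`). -/
def Val (P : Place Ω FΩ) (f : FΩ) (c : Ω) : Prop :=
  P.adicValuation (f - algebraMap Ω FΩ c) < 1

variable (K) in
/-- The algebraic closure in `Ω` of the field generated over `K` by a set `T`. -/
def algCl (T : Set Ω) : IntermediateField K Ω :=
  (algebraicClosure (IntermediateField.adjoin K T) Ω).restrictScalars K

theorem mem_algCl_iff {T : Set Ω} {y : Ω} :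
    y ∈ algCl K T ↔ IsAlgebraic (IntermediateField.adjoin K T) y := by
  unfold algCl
  rw [IntermediateField.mem_restrictScalars, mem_algebraicClosure_iff]

/-- The sum of a tuple of places, as a divisor. -/
def tsum {g : ℕ} (P : Fin g → Place Ω FΩ) : Divisor Ω FΩ :=
  ∑ i, Finsupp.single (P i) (1 : ℤ)

/-- Linear equivalence of divisors of `FΩ`. -/
def LinEq (D E : Divisor Ω FΩ) : Prop :=
  D - E ∈ Divisor.principal (K := Ω) (F := FΩ)

variable (K) in
/-- A **generic tuple**: places whose `x`-values are algebraically independent over `K`. -/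
def IsGeneric (x : FΩ) {g : ℕ} (P : Fin g → Place Ω FΩ) (t : Fin g → Ω) : Prop :=
  AlgebraicIndependent K t ∧ ∀ i, Val (P i) x (t i)

end Fermat.Agent.S27P.Gen
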