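/-
helper19 — S27 / (GEN), brick G-Field (port of MW/DivC/Field to a general pair `K ⊆ Ω`, plus the
finite-transcendence-degree form of the conjugacy of embeddings).

* `isAlgClosed_algCl`, `subset_algCl`, `bot_le_algCl`;
* `not_mem_algCl_of_algebraicIndependent` : `t i` is transcendental over the earlier `t k`;
* `exchange` : an algebraically independent `g`-tuple algebraic over `K(T)`, `#T ≤ g`, forces `T`
  to be `g` algebraically independent elements;
* `mem_of_finite_orbit'` : finite orbit under `Γ_M`, `M` algebraically closed, implies membership;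
* `exists_algEquiv_comp_eq` : two `M`-embeddings of a field `L` into an algebraically closed field
  `C` of FINITE transcendence degree over `M` are conjugate under `Aut(C/M)`;
* `trdeg_intermediate_lt` : finite transcendence degree passes to intermediate fields.
-/
import Mathlib
import Fermat.Agent.S27P.Gen.Defs
import Fermat.Agent.MW.Div.AutField

set_option autoImplicit false

noncomputable section

namespace Fermat.Agent.S27P.Gen.Field

open Fermat.Agent.S27P.Gen Cardinal

universe uM uL uC

variable {K : Type*} {Ω : Type*} [Field K] [Field Ω] [Algebra K Ω]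

/-! ### `algCl T` is algebraically closed and contains `T` -/

instance isAlgClosed_algCl [IsAlgClosed Ω] (T : Set Ω) : IsAlgClosed (algCl K T) :=
  (algebraicClosure.isAlgClosure (IntermediateField.adjoin K T) Ω).isAlgClosed

theorem subset_algCl (T : Set Ω) : T ⊆ algCl K T := by
  intro x hx
  rw [SetLike.mem_coe, mem_algCl_iff]
  exact isAlgebraic_algebraMap
    (⟨x, IntermediateField.subset_adjoin K T hx⟩ : IntermediateField.adjoin K T)

theorem bot_le_algCl (T : Set Ω) : (⊥ : IntermediateField K Ω) ≤ algCl K T := bot_le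

/-- Transport of algebraic closedness along a ring isomorphism (universe-heterogeneous form of
Mathlib's `IsAlgClosed.of_ringEquiv`). -/
theorem isAlgClosed_of_ringEquiv {k : Type*} {k' : Type*} [Field k] [Field k'] (e : k ≃+* k')
    [IsAlgClosed k] : IsAlgClosed k' := by
  apply IsAlgClosed.of_exists_root
  intro p _ hp
  have hpe : (p.map e.symm.toRingHom).degree ≠ 0 := by
    rw [Polynomial.degree_map]
    exact ne_of_gt (Polynomial.degree_pos_of_irreducible hp)
  rcases IsAlgClosed.exists_root (k := k) (p.map e.symm.toRingHom) hpe with ⟨x, hx⟩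
  refine ⟨e x, ?_⟩
  rw [Polynomial.IsRoot, Polynomial.eval_map] at hx
  have h := Polynomial.hom_eval₂ p e.symm.toRingHom e.toRingHom x
  rw [hx, map_zero] at h
  have hid : e.toRingHom.comp e.symm.toRingHom = RingHom.id k' := by
    ext y
    simp
  rw [hid] at h
  simpa [Polynomial.eval₂_id] using h.symm

/-- The bottom intermediate field of `Ω/K` is algebraically closed when `K` is. -/
instance isAlgClosed_bot [IsAlgClosed K] : IsAlgClosed (⊥ : IntermediateField K Ω) :=
  isAlgClosed_of_ringEquiv (IntermediateField.botEquiv K Ω).symm.toRingEquiv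

/-! ### Algebraic independence -/

theorem not_mem_algCl_of_algebraicIndependent {g : ℕ} {t : Fin g → Ω}
    (ht : AlgebraicIndependent K t) (i : Fin g) : t i ∉ algCl K (t '' {k | k < i}) := by
  rw [mem_algCl_iff, IntermediateField.isAlgebraic_adjoin_iff]
  exact ht.transcendental_adjoin (by simp)

theorem exchange {g : ℕ} {t : Fin g → Ω} (ht : AlgebraicIndependent K t) (T : Finset Ω)
    (hT : T.card ≤ g) (h : ∀ i, t i ∈ algCl K (T : Set Ω)) :
    ∃ e : Fin g ≃ T, AlgebraicIndependent K (fun i => (e i : Ω)) := by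
  classical
  have hI : (AlgebraicIndependent.matroid K Ω).Indep (Set.range t) :=
    AlgebraicIndependent.matroid_indep_iff.2 ht.to_subtype_range
  have hsub : Set.range t ⊆ (AlgebraicIndependent.matroid K Ω).closure (T : Set Ω) := by
    rintro _ ⟨i, rfl⟩
    rw [AlgebraicIndependent.matroid_closure_eq]
    have := h i
    rw [mem_algCl_iff, IntermediateField.isAlgebraic_adjoin_iff] at this
    exact this
  have h1 : (Set.range t).encard = g := by
    rw [← Set.image_univ, ht.injective.encard_image]
    simp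
  have h2 : (AlgebraicIndependent.matroid K Ω).eRk (Set.range t) ≤
      (AlgebraicIndependent.matroid K Ω).eRk (T : Set Ω) := by
    rw [← (AlgebraicIndependent.matroid K Ω).eRk_closure_eq (T : Set Ω)]
    exact (AlgebraicIndependent.matroid K Ω).eRk_mono hsub
  have h3 := (AlgebraicIndependent.matroid K Ω).eRk_le_encard (T : Set Ω)
  have h4 : (T : Set Ω).encard = T.card := Set.encard_coe_eq_coe_finsetCard T
  have h5 : (g : ℕ∞) ≤ (T.card : ℕ∞) := by
    rw [← h1, ← hI.eRk_eq_encard, ← h4]
    exact h2.trans h3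
  have hTg : T.card = g := le_antisymm hT (by exact_mod_cast h5)
  have hTind : (AlgebraicIndependent.matroid K Ω).Indep (T : Set Ω) := by
    rw [Matroid.indep_iff_eRk_eq_encard_of_finite T.finite_toSet]
    refine le_antisymm h3 ?_
    rw [h4, hTg, ← h1, ← hI.eRk_eq_encard]
    exact h2
  have hTind' : AlgebraicIndependent K (fun x : T => (x : Ω)) :=
    AlgebraicIndependent.matroid_indep_iff.1 hTind
  have hcard : Fintype.card (Fin g) = Fintype.card T := by
    rw [Fintype.card_fin, Fintype.card_coe, hTg]
  let e : Fin g ≃ T := Fintype.equivOfCardEq hcard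
  exact ⟨e, hTind'.comp e e.injective⟩

/-! ### Finite orbits -/

theorem mem_of_finite_orbit' [IsAlgClosed Ω] (M : IntermediateField K Ω) [IsAlgClosed M] (x : Ω)
    (h : {y | ∃ σ ∈ M.fixingSubgroup, σ x = y}.Finite) : x ∈ M := by
  apply Fermat.Agent.MW.Div.AutField.mem_of_finite_orbit M x
  refine h.subset ?_
  rintro y ⟨σ, hσ, rfl⟩
  exact ⟨σ, (IntermediateField.mem_fixingSubgroup_iff M σ).2 hσ, rfl⟩

/-! ### Conjugacy of embeddings, finite transcendence degree -/

/-- Two `M`-embeddings of a field `L` into an algebraically closed field `C` of finite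
transcendence degree over `M` are conjugate under `Aut(C/M)`. -/
theorem exists_algEquiv_comp_eq {M : Type uM} {L : Type uL} {C : Type uC} [Field M] [Field L]
    [Field C] [Algebra M L]
    [Algebra M C] [IsAlgClosed C] (hfin : Algebra.trdeg M C < ℵ₀) (φ φ' : L →ₐ[M] C) :
    ∃ σ : C ≃ₐ[M] C, ∀ y, σ (φ y) = φ' y := by
  let a1 : Algebra L C := φ.toRingHom.toAlgebra
  let a2 : Algebra L C := φ'.toRingHom.toAlgebra
  have f1 : @FaithfulSMul L C a1.toSMul :=
    (@faithfulSMul_iff_algebraMap_injective L C _ _ a1).mpr φ.toRingHom.injective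
  have f2 : @FaithfulSMul L C a2.toSMul :=
    (@faithfulSMul_iff_algebraMap_injective L C _ _ a2).mpr φ'.toRingHom.injective
  have s1 : @IsScalarTower M L C _ a1.toSMul _ :=
    @IsScalarTower.of_algebraMap_eq M L C _ _ _ _ a1 _ (fun m => (φ.commutes m).symm)
  have s2 : @IsScalarTower M L C _ a2.toSMul _ :=
    @IsScalarTower.of_algebraMap_eq M L C _ _ _ _ a2 _ (fun m => (φ'.commutes m).symm)
  obtain ⟨ι, v, hv⟩ := @exists_isTranscendenceBasis' L C _ _ a1 f1
  obtain ⟨κ, w, hw⟩ := @exists_isTranscendenceBasis' L C _ _ a2 f2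
  have c1 : #ι = @Algebra.trdeg L C _ _ a1 :=
    @IsTranscendenceBasis.cardinalMk_eq_trdeg L C _ _ a1 _ _ ι v hv
  have c2 : #κ = @Algebra.trdeg L C _ _ a2 :=
    @IsTranscendenceBasis.cardinalMk_eq_trdeg L C _ _ a2 _ _ κ w hw
  have e1 := @lift_trdeg_add_eq M L C _ _ _ _ _ a1 s1 _ _ _ f1
  have e2 := @lift_trdeg_add_eq M L C _ _ _ _ _ a2 s2 _ _ _ f2
  have hlt : Cardinal.lift.{uC} (Algebra.trdeg M L) < ℵ₀ := by
    have h0 : Cardinal.lift.{uC} (Algebra.trdeg M L) ≤ Cardinal.lift.{uL} (Algebra.trdeg M C) := by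
      rw [← e1]
      exact le_self_add
    exact lt_of_le_of_lt h0 (Cardinal.lift_lt_aleph0.mpr hfin)
  have hcard : #ι = #κ := by
    rw [c1, c2]
    have h3 := Cardinal.eq_of_add_eq_add_left (e1.trans e2.symm) hlt
    exact Cardinal.lift_injective h3
  obtain ⟨e⟩ := Cardinal.eq.1 hcard
  obtain ⟨σ, -⟩ := @Fermat.Agent.MW.Div.AutField.exists_algEquiv_of_isTranscendenceBasis L C C _ _ _
    a1 a2 _ _ ι κ v w e hv hw
  have hσ : ∀ y, σ (φ y) = φ' y := fun y => @AlgEquiv.commutes L C C _ _ _ a1 a2 σ y
  refine ⟨AlgEquiv.ofRingEquiv (f := (@AlgEquiv.toRingEquiv L C C _ _ _ a1 a2 σ)) (fun k => ?_),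
    hσ⟩
  have h1 : algebraMap M C k = φ (algebraMap M L k) := (φ.commutes k).symm
  have h2 : algebraMap M C k = φ' (algebraMap M L k) := (φ'.commutes k).symm
  show σ (algebraMap M C k) = algebraMap M C k
  rw [h1, hσ, ← h2, h1]

/-- Finite transcendence degree passes to an intermediate field. -/
theorem trdeg_intermediate_lt (h : Algebra.trdeg K Ω < ℵ₀) (M : IntermediateField K Ω) :
    Algebra.trdeg M Ω < ℵ₀ := by
  have e := trdeg_add_eq K M (A := Ω)
  exact lt_of_le_of_lt (by rw [← e]; exact le_add_self) h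

end Fermat.Agent.S27P.Gen.Field
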