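/-
helper19 — S27 / (GEN), brick G-Values (port of MW/DivC/Values to the abstract frame): values of
functions at places of `FΩ`, Galois equivariance, finite fibres of `x`, tuple sums and linear
equivalence.
-/
import Mathlib
import Fermat.Agent.S27P.Gen.Defs
import Fermat.Agent.Lib.FF.GenPos
import Fermat.Agent.S24.PlaceBasic

set_option autoImplicit false
set_option linter.unusedSectionVars false

open AlgebraicCurve WithZero

noncomputable section

namespace Fermat.Agent.S27P.Gen.Values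

open Fermat.Agent.S27P.Gen Fermat.Agent.Lib.FF

variable {K : Type*} {Ω : Type*} {FΩ : Type*} [Field K] [Field Ω] [Algebra K Ω] [Field FΩ]
  [Algebra Ω FΩ]

/-! ### The value calculus -/

theorem val_iff {P : Place Ω FΩ} {f : FΩ} {c : Ω} :
    Val P f c ↔ f - algebraMap Ω FΩ c = 0 ∨ 0 < P.ord (f - algebraMap Ω FΩ c) := by
  unfold Val
  rcases eq_or_ne (f - algebraMap Ω FΩ c) 0 with h | h
  · simp [h]
  · rw [P.adicValuation_eq_exp_neg_ord h, or_iff_right h, ← exp_zero, exp_lt_exp]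
    omega

theorem val_algebraMap (P : Place Ω FΩ) (c : Ω) : Val P (algebraMap Ω FΩ c) c := by
  unfold Val
  simp

theorem val_zero (P : Place Ω FΩ) : Val P (0 : FΩ) 0 := by
  simpa using val_algebraMap P 0

theorem val_one (P : Place Ω FΩ) : Val P (1 : FΩ) 1 := by
  simpa using val_algebraMap P 1

theorem val_add {P : Place Ω FΩ} {f g : FΩ} {a b : Ω} (hf : Val P f a)
    (hg : Val P g b) : Val P (f + g) (a + b) := by
  unfold Val at *
  have e : f + g - algebraMap Ω FΩ (a + b)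
      = (f - algebraMap Ω FΩ a) + (g - algebraMap Ω FΩ b) := by
    rw [map_add]; ring
  rw [e]
  exact lt_of_le_of_lt (P.adicValuation.map_add _ _) (max_lt hf hg)

theorem val_neg {P : Place Ω FΩ} {f : FΩ} {a : Ω} (hf : Val P f a) :
    Val P (-f) (-a) := by
  unfold Val at *
  have e : -f - algebraMap Ω FΩ (-a) = -(f - algebraMap Ω FΩ a) := by
    rw [map_neg]; ring
  rw [e, Valuation.map_neg]
  exact hf

theorem val_sub {P : Place Ω FΩ} {f g : FΩ} {a b : Ω} (hf : Val P f a)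
    (hg : Val P g b) : Val P (f - g) (a - b) := by
  rw [sub_eq_add_neg, sub_eq_add_neg]
  exact val_add hf (val_neg hg)

theorem val_mul {P : Place Ω FΩ} {f g : FΩ} {a b : Ω} (hf : Val P f a)
    (hg : Val P g b) : Val P (f * g) (a * b) := by
  unfold Val at *
  have e : f * g - algebraMap Ω FΩ (a * b)
      = (f - algebraMap Ω FΩ a) * (g - algebraMap Ω FΩ b)
        + (algebraMap Ω FΩ a * (g - algebraMap Ω FΩ b)
          + algebraMap Ω FΩ b * (f - algebraMap Ω FΩ a)) := by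
    rw [map_mul]; ring
  rw [e]
  refine lt_of_le_of_lt (P.adicValuation.map_add _ _) (max_lt ?_ ?_)
  · rw [map_mul]
    exact mul_lt_one_of_nonneg_of_lt_one_left zero_le hf hg.le
  · refine lt_of_le_of_lt (P.adicValuation.map_add _ _) (max_lt ?_ ?_)
    · rw [map_mul]
      exact mul_lt_one_of_nonneg_of_lt_one_right (P.adicValuation_algebraMap_le_one a) zero_le hg
    · rw [map_mul]
      exact mul_lt_one_of_nonneg_of_lt_one_right (P.adicValuation_algebraMap_le_one b) zero_le hf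

theorem adicValuation_algebraMap_eq_one (P : Place Ω FΩ) {c : Ω} (hc : c ≠ 0) :
    P.adicValuation (algebraMap Ω FΩ c) = 1 := by
  have h0 : algebraMap Ω FΩ c ≠ 0 := by simpa using hc
  rw [P.adicValuation_eq_exp_neg_ord h0, Fermat.Agent.S24.ord_algebraMap P c]
  simp

theorem val_unique {P : Place Ω FΩ} {f : FΩ} {c c' : Ω} (h : Val P f c)
    (h' : Val P f c') : c = c' := by
  by_contra hne
  have h1 := val_sub h h'
  rw [sub_self] at h1
  unfold Val at h1
  rw [zero_sub, Valuation.map_neg, adicValuation_algebraMap_eq_one P (sub_ne_zero.mpr hne)] at h1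
  exact lt_irrefl _ h1

theorem ord_nonneg_of_val {P : Place Ω FΩ} {f : FΩ} {c : Ω} (h : Val P f c) :
    0 ≤ P.ord f := by
  have h1 : P.adicValuation f ≤ 1 := by
    have e : f = (f - algebraMap Ω FΩ c) + algebraMap Ω FΩ c := by ring
    rw [e]
    exact le_trans (P.adicValuation.map_add _ _)
      (max_le (le_of_lt h) (P.adicValuation_algebraMap_le_one c))
  rcases P.adicValuation_le_one_iff.mp h1 with h0 | h0
  · rw [h0]; simp
  · exact h0

theorem val_zero_iff {P : Place Ω FΩ} {f : FΩ} :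
    Val P f 0 ↔ f = 0 ∨ 0 < P.ord f := by
  rw [val_iff]
  simp

theorem ord_eq_zero_of_val {P : Place Ω FΩ} {f : FΩ} {c : Ω} (h : Val P f c)
    (hc : c ≠ 0) : P.ord f = 0 := by
  have h0 := ord_nonneg_of_val h
  by_contra hne
  have hpos : 0 < P.ord f := lt_of_le_of_ne h0 (Ne.symm hne)
  have h2 : Val P f 0 := val_zero_iff.mpr (Or.inr hpos)
  exact hc (val_unique h h2)

theorem exists_val_of_ord_nonneg {x : FΩ} (hFF : IsFF1 Ω FΩ x) (P : Place Ω FΩ) {f : FΩ}
    (hf : 0 ≤ P.ord f) : ∃ c, Val P f c := by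
  have hmem : f ∈ P.toValuationSubring := Fermat.Agent.S24.mem_of_ord_nonneg P hf
  obtain ⟨c, hc⟩ := hFF.resK P ⟨f, hmem⟩
  refine ⟨c, ?_⟩
  unfold Val
  have h1 := RR.val_le_exp_neg_one_of_mem_maximalIdeal P _ hc
  refine lt_of_le_of_lt h1 ?_
  rw [← exp_zero, exp_lt_exp]
  norm_num

theorem exists_val_or_pole {x : FΩ} (hFF : IsFF1 Ω FΩ x) (P : Place Ω FΩ) (f : FΩ) :
    (∃ c, Val P f c) ∨ P.ord f < 0 := by
  by_cases h : 0 ≤ P.ord f
  · exact Or.inl (exists_val_of_ord_nonneg hFF P h)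
  · exact Or.inr (not_le.mp h)

/-! ### Galois equivariance -/

variable {x : FΩ} {rho : (Ω ≃ₐ[K] Ω) →* SemilinearAut Ω FΩ}

theorem rho_smul_algebraMap (hF : Frame x rho) (σ : Ω ≃ₐ[K] Ω) (c : Ω) :
    rho σ • algebraMap Ω FΩ c = algebraMap Ω FΩ (σ c) :=
  hF.smul_algebraMap σ c

theorem val_smul (hF : Frame x rho) (σ : Ω ≃ₐ[K] Ω) {P : Place Ω FΩ} {f : FΩ} {c : Ω} :
    Val (rho σ • P) (rho σ • f) (σ c) ↔ Val P f c := by
  rw [val_iff, val_iff, ← rho_smul_algebraMap hF, ← smul_sub, SemilinearAut.ord_smul,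
    smul_eq_zero_iff_eq]

theorem val_smul_of_val (hF : Frame x rho) (σ : Ω ≃ₐ[K] Ω) {P : Place Ω FΩ} {f : FΩ} {c : Ω}
    (h : Val P f c) : Val (rho σ • P) (rho σ • f) (σ c) :=
  (val_smul hF σ).mpr h

theorem rho_smul_of_isRat {M : IntermediateField K Ω} {f : FΩ} (hf : IsRat rho M f)
    {σ : Ω ≃ₐ[K] Ω} (hσ : σ ∈ M.fixingSubgroup) : rho σ • f = f :=
  hf σ hσ

theorem isRat_mono {M M' : IntermediateField K Ω} (h : M ≤ M') {f : FΩ} (hf : IsRat rho M f) :
    IsRat rho M' f := fun σ hσ => hf σ (by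
  rw [IntermediateField.mem_fixingSubgroup_iff] at hσ ⊢
  exact fun y hy => hσ y (h hy))

theorem isRat_x (hF : Frame x rho) (M : IntermediateField K Ω) : IsRat rho M x :=
  fun σ _ => hF.smul_x σ

theorem isRat_algebraMap (hF : Frame x rho) {M : IntermediateField K Ω} {c : Ω} (hc : c ∈ M) :
    IsRat rho M (algebraMap Ω FΩ c) := fun σ hσ => by
  rw [rho_smul_algebraMap hF, (IntermediateField.mem_fixingSubgroup_iff M σ).mp hσ c hc]

theorem rho_smul_x (hF : Frame x rho) (σ : Ω ≃ₐ[K] Ω) : rho σ • x = x :=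
  hF.smul_x σ

theorem val_x_smul (hF : Frame x rho) (σ : Ω ≃ₐ[K] Ω) {P : Place Ω FΩ} {t : Ω}
    (h : Val P x t) : Val (rho σ • P) x (σ t) := by
  have := val_smul_of_val hF σ h
  rwa [rho_smul_x hF] at this

theorem ord_x_smul (hF : Frame x rho) (σ : Ω ≃ₐ[K] Ω) (P : Place Ω FΩ) :
    (rho σ • P).ord x = P.ord x := by
  have := SemilinearAut.ord_smul (rho σ) P x
  rwa [rho_smul_x hF] at this

/-! ### Finite fibres -/

theorem finite_ord_ne_zero (hFF : IsFF1 Ω FΩ x) {f : FΩ} (hf : f ≠ 0) :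
    {P : Place Ω FΩ | P.ord f ≠ 0}.Finite := by
  have := hFF.hasPrincipalDivisors
  obtain ⟨D, hD, -⟩ := HasPrincipalDivisors.exists_divisor (K := Ω) f hf
  refine D.support.finite_toSet.subset ?_
  intro P hP
  rw [Finset.mem_coe, Finsupp.mem_support_iff, hD P]
  exact hP

theorem x_sub_ne_zero (hFF : IsFF1 Ω FΩ x) (t : Ω) : x - algebraMap Ω FΩ t ≠ 0 := by
  intro h0
  exact hFF.transcendental (sub_eq_zero.mp h0 ▸ isAlgebraic_algebraMap t)

theorem finite_val_x (hFF : IsFF1 Ω FΩ x) (t : Ω) : {P : Place Ω FΩ | Val P x t}.Finite := by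
  refine (finite_ord_ne_zero hFF (x_sub_ne_zero hFF t)).subset ?_
  intro P hP
  rw [Set.mem_setOf_eq, val_iff] at hP
  rcases hP with h | h
  · exact absurd h (x_sub_ne_zero hFF t)
  · exact ne_of_gt h

theorem finite_pole_x (hFF : IsFF1 Ω FΩ x) : {P : Place Ω FΩ | P.ord x < 0}.Finite := by
  have hj : x ≠ 0 := by simpa using x_sub_ne_zero hFF 0
  refine (finite_ord_ne_zero hFF hj).subset ?_
  intro P hP
  exact ne_of_lt hP

theorem exists_place_val (hFF : IsFF1 Ω FΩ x) (t : Ω) : ∃ P : Place Ω FΩ, Val P x t := by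
  obtain ⟨P, hP⟩ := hFF.exists_zero_sub t
  exact ⟨P, val_iff.mpr (Or.inr hP)⟩

/-! ### Divisors: tuple sums and linear equivalence -/

theorem smul_tsum (γ : SemilinearAut Ω FΩ) {g : ℕ} (P : Fin g → Place Ω FΩ) :
    γ • tsum P = tsum (fun i => γ • P i) := by
  unfold tsum
  rw [Finset.smul_sum]
  exact Finset.sum_congr rfl fun i _ => SemilinearAut.smul_single γ (P i) 1

theorem rho_smul_tsum (σ : Ω ≃ₐ[K] Ω) {g : ℕ} (P : Fin g → Place Ω FΩ) :
    rho σ • tsum P = tsum (fun i => rho σ • P i) :=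
  smul_tsum (rho σ) P

theorem linEq_refl (D : Divisor Ω FΩ) : LinEq D D := by
  unfold LinEq
  rw [sub_self]
  exact zero_mem _

theorem linEq_symm {D E : Divisor Ω FΩ} (h : LinEq D E) : LinEq E D := by
  unfold LinEq at *
  rw [← neg_sub]
  exact neg_mem h

theorem linEq_trans {D E G : Divisor Ω FΩ} (h : LinEq D E) (h' : LinEq E G) :
    LinEq D G := by
  unfold LinEq at *
  rw [← sub_add_sub_cancel D E G]
  exact add_mem h h'

theorem linEq_add {D E D' E' : Divisor Ω FΩ} (h : LinEq D E) (h' : LinEq D' E') :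
    LinEq (D + D') (E + E') := by
  unfold LinEq at *
  rw [add_sub_add_comm]
  exact add_mem h h'

theorem linEq_neg {D E : Divisor Ω FΩ} (h : LinEq D E) : LinEq (-D) (-E) := by
  unfold LinEq at *
  rw [← neg_sub', ]
  exact neg_mem h

theorem linEq_sub {D E D' E' : Divisor Ω FΩ} (h : LinEq D E) (h' : LinEq D' E') :
    LinEq (D - D') (E - E') := by
  rw [sub_eq_add_neg, sub_eq_add_neg]
  exact linEq_add h (linEq_neg h')

theorem linEq_nsmul {D E : Divisor Ω FΩ} (h : LinEq D E) (m : ℕ) :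
    LinEq (m • D) (m • E) := by
  unfold LinEq at *
  rw [← smul_sub]
  exact nsmul_mem h m

theorem linEq_smul {D E : Divisor Ω FΩ} (h : LinEq D E) (γ : SemilinearAut Ω FΩ) :
    LinEq (γ • D) (γ • E) := by
  unfold LinEq at *
  rw [← smul_sub]
  exact SemilinearAut.smul_mem_principal γ h

theorem linEq_iff {D E : Divisor Ω FΩ} :
    LinEq D E ↔ ∃ f : FΩ, f ≠ 0 ∧ ∀ v : Place Ω FΩ, D v = E v + v.ord f := by
  unfold LinEq
  rw [Divisor.mem_principal]
  constructor
  · rintro ⟨f, hf, h⟩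
    refine ⟨f, hf, fun v => ?_⟩
    have := h v
    rw [Finsupp.sub_apply] at this
    omega
  · rintro ⟨f, hf, h⟩
    refine ⟨f, hf, fun v => ?_⟩

    rw [Finsupp.sub_apply, h v]
    ring

end Fermat.Agent.S27P.Gen.Values
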