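/-
helper19 — S27 / (GEN), brick G-Sep (port of MW/DivC/Sep to the abstract frame): `K`-rational
functions separate the places of `FΩ`, and the automorphisms of `Ω` fixing an algebraically closed
intermediate field `M` fix every place whose `x`-value lies in `M` (or which is a pole of `x`).
-/
import Mathlib
import Fermat.Agent.S27P.Gen.Values
import Fermat.Agent.S27P.Gen.Field
import Fermat.Agent.Lib.FF.BasePoint

set_option autoImplicit false
set_option linter.unusedSectionVars false

open AlgebraicCurve WithZero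

noncomputable section

namespace Fermat.Agent.S27P.Gen.Sep

open Fermat.Agent.S27P.Gen Fermat.Agent.Lib.FF Fermat.Agent.S27P.Gen.Values

variable {K : Type*} {Ω : Type*} {FΩ : Type*} [Field K] [Field Ω] [Algebra K Ω] [Field FΩ]
  [Algebra Ω FΩ]

/-- A semilinear automorphism maps `L(D)` into `L(g • D)`. -/
theorem smul_mem_L (g : SemilinearAut Ω FΩ) {D : Divisor Ω FΩ} {f : FΩ}
    (hf : f ∈ riemannRochSpace D) : g • f ∈ riemannRochSpace (g • D) := by
  rw [mem_riemannRochSpace_iff] at hf ⊢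
  intro v
  rcases hf (g⁻¹ • v) with h | h
  · left; rw [h, smul_zero]
  · right
    have h1 := SemilinearAut.ord_smul g (g⁻¹ • v) f
    rw [smul_inv_smul] at h1
    rw [SemilinearAut.divisor_smul_apply, h1]
    exact h

theorem ord_inv_smul (g : SemilinearAut Ω FΩ) (v : Place Ω FΩ) (f : FΩ) :
    (g⁻¹ • v).ord f = v.ord (g • f) := by
  have h1 := SemilinearAut.ord_smul g (g⁻¹ • v) f
  rw [smul_inv_smul] at h1
  exact h1.symm

/-! ### Separation of places by rational functions -/

theorem exists_algebraMap_not_val [Infinite K] (P P' : Place Ω FΩ) (f : FΩ) :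
    ∃ a : K, ¬ Val P f (algebraMap K Ω a) ∧ ¬ Val P' f (algebraMap K Ω a) := by
  classical
  by_contra hcon
  push Not at hcon
  have hinj : Function.Injective (algebraMap K Ω) := (algebraMap K Ω).injective
  obtain ⟨a0, -⟩ := Infinite.exists_notMem_finset (∅ : Finset K)
  obtain ⟨a1, h1⟩ := Infinite.exists_notMem_finset ({a0} : Finset K)
  obtain ⟨a2, h2⟩ := Infinite.exists_notMem_finset ({a0, a1} : Finset K)
  have h01 : algebraMap K Ω a0 ≠ algebraMap K Ω a1 := fun h => h1 (by simp [hinj h])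
  have h02 : algebraMap K Ω a0 ≠ algebraMap K Ω a2 := fun h => h2 (by simp [hinj h])
  have h12 : algebraMap K Ω a1 ≠ algebraMap K Ω a2 := fun h => h2 (by simp [hinj h])
  by_cases h0 : Val P f (algebraMap K Ω a0)
  · have h1' : ¬ Val P f (algebraMap K Ω a1) := fun h => h01 (val_unique h0 h)
    have h2' : ¬ Val P f (algebraMap K Ω a2) := fun h => h02 (val_unique h0 h)
    exact h12 (val_unique (hcon a1 h1') (hcon a2 h2'))
  · have h0' := hcon a0 h0
    by_cases h1' : Val P f (algebraMap K Ω a1)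
    · have h2' : ¬ Val P f (algebraMap K Ω a2) := fun h => h12 (val_unique h1' h)
      exact h02 (val_unique h0' (hcon a2 h2'))
    · exact h01 (val_unique h0' (hcon a1 h1'))

variable {x : FΩ} {rho : (Ω ≃ₐ[K] Ω) →* SemilinearAut Ω FΩ}

/-- The zero divisor of `x - a`. -/
theorem exists_zeroDiv (hFF : IsFF1 Ω FΩ x) (a : Ω) : ∃ Z : Divisor Ω FΩ,
    ∀ v, Z v = max (v.ord (x - algebraMap Ω FΩ a)) 0 := by
  have := hFF.hasPrincipalDivisors
  obtain ⟨D, hD, -⟩ := HasPrincipalDivisors.exists_divisor (K := Ω) _ (x_sub_ne_zero hFF a)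
  refine ⟨D.mapRange (fun n => max n 0) (by simp), fun v => ?_⟩
  rw [Finsupp.mapRange_apply, hD v]

/-- **Separation.** Two distinct places of `FΩ` are separated by a `K`-rational function which is
regular at both. -/
theorem exists_isRat_separating [IsAlgClosed K] (hF : Frame x rho)
    {P P' : Place Ω FΩ} (hne : P ≠ P') :
    ∃ f : FΩ, IsRat rho ⊥ f ∧ ∃ c c' : Ω, Val P f c ∧ Val P' f c' ∧ c ≠ c' := by
  by_contra hcon
  push Not at hcon
  have hFF := hF.ff
  obtain ⟨a', haP, haP'⟩ := exists_algebraMap_not_val (K := K) P P' x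
  set a : Ω := algebraMap K Ω a' with ha
  obtain ⟨Z, hZ⟩ := exists_zeroDiv hFF a
  have hZ0 : ∀ Q : Place Ω FΩ, ¬ Val Q x a → Z Q = 0 := by
    intro Q hQ
    rw [hZ Q]
    rw [val_iff, not_or] at hQ
    exact max_eq_right (not_lt.mp hQ.2)
  have hZP : Z P = 0 := hZ0 P haP
  have hZP' : Z P' = 0 := hZ0 P' haP'
  have hZfix : ∀ σ : Ω ≃ₐ[K] Ω, rho σ • Z = Z := by
    intro σ
    ext v
    rw [SemilinearAut.divisor_smul_apply, hZ, hZ, ord_inv_smul, smul_sub, rho_smul_x hF,
      rho_smul_algebraMap hF, ha, σ.commutes]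
  have hZdeg : 1 ≤ Divisor.degree Z := by
    obtain ⟨v₀, hv₀⟩ := hFF.exists_zero_sub a
    have hnn : ∀ v, 0 ≤ (Z - Finsupp.single v₀ (1 : ℤ)) v := by
      intro v
      rw [Finsupp.sub_apply, hZ v]
      by_cases hv : v = v₀
      · subst hv
        rw [Finsupp.single_eq_same]
        have := le_max_left (v.ord (x - algebraMap Ω FΩ a)) 0
        omega
      · rw [Finsupp.single_eq_of_ne hv]
        have := le_max_right (v.ord (x - algebraMap Ω FΩ a)) 0
        omega
    have := GenPos.degree_nonneg hFF hnn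
    rw [BasePoint.degree_sub_single hFF] at this
    omega
  obtain ⟨c₀, hc₀⟩ := BasePoint.exists_NS hFF
  set m : ℕ := (c₀ + 2).toNat with hm
  set D : Divisor Ω FΩ := m • Z with hDdef
  have hDdeg : c₀ + 2 ≤ Divisor.degree D := by
    rw [hDdef, map_nsmul, nsmul_eq_mul]
    have h1 := Int.self_le_toNat (c₀ + 2)
    have h2 : (0 : ℤ) ≤ (m : ℤ) := Int.natCast_nonneg _
    nlinarith
  set D' : Divisor Ω FΩ := D - Finsupp.single P (1 : ℤ) with hD'def
  have hD'deg : c₀ + 1 ≤ Divisor.degree D' := by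
    rw [hD'def, BasePoint.degree_sub_single hFF]
    linarith
  obtain ⟨h, hh, hhP'⟩ := BasePoint.bpf_of_degree hFF hc₀ hD'deg P'
  have hD'P' : D' P' = 0 := by
    rw [hD'def, Finsupp.sub_apply, hDdef, Finsupp.smul_apply, hZP',
      Finsupp.single_eq_of_ne (Ne.symm hne)]
    simp
  have hD'P : D' P = -1 := by
    rw [hD'def, Finsupp.sub_apply, hDdef, Finsupp.smul_apply, hZP, Finsupp.single_eq_same]
    simp
  have hvalP : Val P h 0 := by
    unfold Val
    rw [map_zero, sub_zero]
    refine lt_of_le_of_lt (hh P) ?_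
    rw [hD'P, ← exp_zero, exp_lt_exp]
    norm_num
  have hnvalP' : ¬ Val P' h 0 := by
    unfold Val
    rw [map_zero, sub_zero, hhP', hD'P', exp_zero]
    exact lt_irrefl _
  have hD'le : D' ≤ D := by
    rw [hD'def]
    intro v
    rw [Finsupp.sub_apply]
    by_cases hv : v = P
    · subst hv; rw [Finsupp.single_eq_same]; omega
    · rw [Finsupp.single_eq_of_ne hv]; omega
  have hhD : h ∈ riemannRochSpace D := RR.L_mono hD'le hh
  have hDfix : ∀ σ ∈ (⊥ : IntermediateField K Ω).fixingSubgroup, rho σ • D = D := fun σ _ => by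
    rw [hDdef, smul_comm, hZfix]
  have hspan := hF.span_isRat ⊥ D hDfix hhD
  have hDP : D P = 0 := by rw [hDdef, Finsupp.smul_apply, hZP]; simp
  have hDP' : D P' = 0 := by rw [hDdef, Finsupp.smul_apply, hZP']; simp
  have hp : ∃ c, Val P h c ∧ Val P' h c := by
    refine Submodule.span_induction (p := fun y _ => ∃ c, Val P y c ∧ Val P' y c)
      ?_ ?_ ?_ ?_ hspan
    · rintro f ⟨hfD, hfR⟩
      have h1 : 0 ≤ P.ord f := by
        have := hfD P
        rw [hDP, exp_zero] at this
        rcases P.adicValuation_le_one_iff.mp this with h0 | h0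
        · rw [h0]; simp
        · exact h0
      have h2 : 0 ≤ P'.ord f := by
        have := hfD P'
        rw [hDP', exp_zero] at this
        rcases P'.adicValuation_le_one_iff.mp this with h0 | h0
        · rw [h0]; simp
        · exact h0
      obtain ⟨c, hc⟩ := exists_val_of_ord_nonneg hFF P h1
      obtain ⟨c', hc'⟩ := exists_val_of_ord_nonneg hFF P' h2
      have hcc := hcon f hfR c c' hc hc'
      exact ⟨c, hc, hcc ▸ hc'⟩
    · exact ⟨0, val_zero P, val_zero P'⟩
    · rintro y z _ _ ⟨c, h1, h2⟩ ⟨c', h3, h4⟩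
      exact ⟨c + c', val_add h1 h3, val_add h2 h4⟩
    · rintro r y _ ⟨c, h1, h2⟩
      refine ⟨r * c, ?_, ?_⟩
      · rw [Algebra.smul_def]
        exact val_mul (val_algebraMap P r) h1
      · rw [Algebra.smul_def]
        exact val_mul (val_algebraMap P' r) h2
  obtain ⟨c, hc1, hc2⟩ := hp
  have hc0 : c = 0 := val_unique hc1 hvalP
  exact hnvalP' (hc0 ▸ hc2)

/-! ### The automorphisms over `M` fix the `M`-rational places -/

/-- The value of an `M`-rational function at a place whose `Γ_M`-orbit is finite lies in `M`. -/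
theorem val_mem_of_orbit_subset [IsAlgClosed Ω] (hF : Frame x rho) (M : IntermediateField K Ω)
    [IsAlgClosed M] {P : Place Ω FΩ} {f : FΩ} (hf : IsRat rho M f) {c : Ω} (hc : Val P f c)
    (S : Set (Place Ω FΩ)) (hS : S.Finite)
    (hPS : ∀ σ ∈ M.fixingSubgroup, rho σ • P ∈ S) : c ∈ M := by
  apply Field.mem_of_finite_orbit' M c
  have hfin : {y : Ω | ∃ Q ∈ S, Val Q f y}.Finite := by
    have : {y : Ω | ∃ Q ∈ S, Val Q f y} = ⋃ Q ∈ S, {y | Val Q f y} := by
      ext y; simp
    rw [this]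
    exact hS.biUnion fun Q _ => Set.Subsingleton.finite (fun y hy y' hy' => val_unique hy hy')
  refine hfin.subset ?_
  rintro y ⟨σ, hσ, rfl⟩
  refine ⟨rho σ • P, hPS σ hσ, ?_⟩
  have := val_smul_of_val hF σ hc
  rwa [rho_smul_of_isRat hf hσ] at this

/-- A place whose `Γ_M`-orbit is finite is fixed by `Γ_M`. -/
theorem smul_eq_of_orbit_subset [IsAlgClosed Ω] [IsAlgClosed K] (hF : Frame x rho)
    (M : IntermediateField K Ω) [IsAlgClosed M]
    {P : Place Ω FΩ} (S : Set (Place Ω FΩ)) (hS : S.Finite)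
    (hPS : ∀ σ ∈ M.fixingSubgroup, rho σ • P ∈ S) {σ : Ω ≃ₐ[K] Ω}
    (hσ : σ ∈ M.fixingSubgroup) : rho σ • P = P := by
  by_contra hne
  obtain ⟨f, hfR, c, c', hc, hc', hcc⟩ := exists_isRat_separating hF (Ne.symm hne)
  have hfM : IsRat rho M f := isRat_mono bot_le hfR
  have hcM : c ∈ M := val_mem_of_orbit_subset hF M hfM hc S hS hPS
  have h1 := val_smul_of_val hF σ hc
  rw [rho_smul_of_isRat hfM hσ, (IntermediateField.mem_fixingSubgroup_iff M σ).mp hσ c hcM] at h1
  exact hcc (val_unique h1 hc')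

/-- **(P3)** The automorphisms of `Ω` over the algebraically closed field `M` fix every place
whose `x`-value lies in `M`. -/
theorem smul_eq_of_val [IsAlgClosed Ω] [IsAlgClosed K] (hF : Frame x rho)
    (M : IntermediateField K Ω) [IsAlgClosed M] {P : Place Ω FΩ}
    {t : Ω} (ht : t ∈ M) (hP : Val P x t) {σ : Ω ≃ₐ[K] Ω}
    (hσ : σ ∈ M.fixingSubgroup) : rho σ • P = P := by
  refine smul_eq_of_orbit_subset hF M {Q | Val Q x t} (finite_val_x hF.ff t)
    (fun τ hτ => ?_) hσ
  have := val_x_smul hF τ hP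
  rwa [(IntermediateField.mem_fixingSubgroup_iff M τ).mp hτ t ht] at this

/-- **(P3)**, poles: the automorphisms of `Ω` over an algebraically closed `M` fix every pole
of `x`. -/
theorem smul_eq_of_pole [IsAlgClosed Ω] [IsAlgClosed K] (hF : Frame x rho)
    (M : IntermediateField K Ω) [IsAlgClosed M] {P : Place Ω FΩ} (hP : P.ord x < 0)
    {σ : Ω ≃ₐ[K] Ω} (hσ : σ ∈ M.fixingSubgroup) : rho σ • P = P := by
  refine smul_eq_of_orbit_subset hF M {Q | Q.ord x < 0} (finite_pole_x hF.ff)
    (fun τ _ => ?_) hσ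
  show (rho τ • P).ord x < 0
  rw [ord_x_smul hF]
  exact hP

end Fermat.Agent.S27P.Gen.Sep
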