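/-
helper50 — S27 / (GEN), brick (G4) (port of MW/DivC/RRC to the abstract frame): effectivity in
degree `g` and "Lemma C" for a generic tuple of at most `g` places of `FΩ`.

* `exists_effective` / `exists_effective_of_degree_ge` : a divisor of degree `g` (resp. `≥ g`) is
  linearly equivalent to an effective one (Riemann's inequality; needs `IsFF1 Ω FΩ x` only);
* `SepHyp x rho` : the statement of `Sep.smul_eq_of_val` (the automorphisms of `Ω` over an
  algebraically closed intermediate field `M` fix the places whose `x`-value lies in `M`) as a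
  named hypothesis; `sepHyp` proves it (any characteristic);
* `infinite_orbit` : a place whose `x`-value is not in the algebraically closed field `M` has an
  infinite `Γ_M`-orbit;
* `L_tsum_eq_of_sep`, `eq_tsum_of_linEq_of_sep` : **Lemma C** modulo `SepHyp` (any
  characteristic): for a generic tuple of `g ≤ genus` places, `L(P_1 + … + P_g)` is the constants,
  and the only effective divisor linearly equivalent to `P_1 + … + P_g` is that sum;
* `L_tsum_eq`, `eq_tsum_of_linEq`, `tsum_eq_of_linEq` : the same with `Sep.smul_eq_of_val`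
  plugged in (the literal consumed by Lemma 1 / Lemma 2 / Homog and, on the reduced side
  `k ⊆ k2` in characteristic `p`, by (LIFT)).  No characteristic hypothesis anywhere.

Everything is an instance of the abstract `MW/DivC/RRCCore` (no new Riemann–Roch).
-/
import Mathlib
import Fermat.Agent.S27P.Gen.Sep
import Fermat.Agent.MW.DivC.RRCCore

set_option autoImplicit false
set_option linter.unusedSectionVars false

open AlgebraicCurve

noncomputable section

namespace Fermat.Agent.S27P.Gen.RRC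

open Fermat.Agent.S27P.Gen Fermat.Agent.Lib.FF Fermat.Agent.S27P.Gen.Values
open Fermat.Agent.MW.DivC

variable {K : Type*} {Ω : Type*} {FΩ : Type*} [Field K] [Field Ω] [Algebra K Ω] [Field FΩ]
  [Algebra Ω FΩ]

variable {x : FΩ} {rho : (Ω ≃ₐ[K] Ω) →* SemilinearAut Ω FΩ}

/-! ### Effectivity (Riemann's inequality) -/

/-- A divisor of degree `≥ g` is linearly equivalent to an effective one. -/
theorem exists_effective_of_degree_ge (hFF : IsFF1 Ω FΩ x) (D : Divisor Ω FΩ)
    (hdeg : (genusFF Ω FΩ : ℤ) ≤ Divisor.degree D) :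
    ∃ E : Divisor Ω FΩ, 0 ≤ E ∧ LinEq E D :=
  RRCCore.exists_effective_of_degree_ge hFF D hdeg

/-- **Effectivity in degree `g`**: a divisor of degree `g` is linearly equivalent to an effective
divisor. -/
theorem exists_effective (hFF : IsFF1 Ω FΩ x) (D : Divisor Ω FΩ)
    (hdeg : Divisor.degree D = (genusFF Ω FΩ : ℤ)) :
    ∃ E : Divisor Ω FΩ, 0 ≤ E ∧ LinEq E D :=
  exists_effective_of_degree_ge hFF D hdeg.ge

/-! ### The separation hypothesis -/

/-- The statement of `Sep.smul_eq_of_val`: `Γ_M` fixes the places whose `x`-value lies in the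
algebraically closed intermediate field `M` (a named hypothesis). -/
def SepHyp (x : FΩ) (rho : (Ω ≃ₐ[K] Ω) →* SemilinearAut Ω FΩ) : Prop :=
  ∀ (M : IntermediateField K Ω) [IsAlgClosed M] {P : Place Ω FΩ} {t : Ω},
    t ∈ M → Val P x t → ∀ {σ : Ω ≃ₐ[K] Ω}, σ ∈ M.fixingSubgroup → rho σ • P = P

/-- `Sep.smul_eq_of_val` in the packaged form `SepHyp`. -/
theorem sepHyp [IsAlgClosed Ω] [IsAlgClosed K] (hF : Frame x rho) :
    SepHyp x rho :=
  fun M _ _ _ ht hP _ hσ => Sep.smul_eq_of_val hF M ht hP hσ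

/-! ### Infinite orbits -/

/-- A place whose `x`-value is not in the algebraically closed field `M` has an infinite
`Γ_M`-orbit. -/
theorem infinite_orbit [IsAlgClosed Ω] (hF : Frame x rho) (M : IntermediateField K Ω)
    [IsAlgClosed M] {P : Place Ω FΩ} {t : Ω} (hP : Val P x t) (ht : t ∉ M) :
    {Q | ∃ γ ∈ (rho '' (M.fixingSubgroup : Set (Ω ≃ₐ[K] Ω))), γ • P = Q}.Infinite := by
  classical
  intro hfin
  apply ht
  apply Field.mem_of_finite_orbit' M t
  let valOf : Place Ω FΩ → Ω := fun Q =>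
    if h : ∃ c, Val Q x c then h.choose else 0
  refine (hfin.image valOf).subset ?_
  rintro y ⟨σ, hσ, rfl⟩
  have hv : Val (rho σ • P) x (σ t) := val_x_smul hF σ hP
  refine ⟨rho σ • P, ⟨rho σ, ⟨σ, hσ, rfl⟩, rfl⟩, ?_⟩
  have hex : ∃ c, Val (rho σ • P) x c := ⟨_, hv⟩
  show (if h : ∃ c, Val (rho σ • P) x c then h.choose else 0) = σ t
  rw [dif_pos hex]
  exact val_unique hex.choose_spec hv

/-- The genericity hypothesis of `RRCCore` for a generic tuple: the `i`-th place has an infinite
orbit under the automorphisms fixing the earlier places. -/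
theorem exists_orbit_set [IsAlgClosed Ω] (hF : Frame x rho) (hsep : SepHyp x rho) {g : ℕ}
    {P : Fin g → Place Ω FΩ} {t : Fin g → Ω} (hP : IsGeneric K x P t) (i : Fin g) :
    ∃ Γ : Set (SemilinearAut Ω FΩ),
      (∀ γ ∈ Γ, ∀ k : Fin g, k < i → γ • P k = P k) ∧ {Q | ∃ γ ∈ Γ, γ • P i = Q}.Infinite := by
  refine ⟨rho '' ((algCl K (t '' {k | k < i})).fixingSubgroup : Set (Ω ≃ₐ[K] Ω)), ?_, ?_⟩
  · rintro _ ⟨σ, hσ, rfl⟩ k hk
    exact hsep (algCl K (t '' {k | k < i})) (Field.subset_algCl _ ⟨k, hk, rfl⟩) (hP.2 k) hσ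
  · exact infinite_orbit hF (algCl K (t '' {k | k < i})) (hP.2 i)
      (Field.not_mem_algCl_of_algebraicIndependent hP.1 i)

/-! ### Lemma C, modulo `SepHyp` (any characteristic) -/

/-- **Lemma C (`h⁰ = 1`)**, modulo `SepHyp`: for a generic tuple of at most `g` places,
`L(P_1 + … + P_g)` consists of the constants. -/
theorem L_tsum_eq_of_sep [IsAlgClosed Ω] (hF : Frame x rho) (hsep : SepHyp x rho) {g : ℕ}
    (hg : g ≤ genusFF Ω FΩ) {P : Fin g → Place Ω FΩ} {t : Fin g → Ω} (hP : IsGeneric K x P t) :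
    riemannRochSpace (tsum P) = riemannRochSpace (0 : Divisor Ω FΩ) :=
  RRCCore.L_sum_eq hF.ff hg P (exists_orbit_set hF hsep hP)

/-- **Lemma C**, modulo `SepHyp`: the only effective divisor linearly equivalent to the sum of a
generic tuple of at most `g` places is that sum. -/
theorem eq_tsum_of_linEq_of_sep [IsAlgClosed Ω] (hF : Frame x rho) (hsep : SepHyp x rho) {g : ℕ}
    (hg : g ≤ genusFF Ω FΩ) {P : Fin g → Place Ω FΩ} {t : Fin g → Ω} (hP : IsGeneric K x P t)
    {E : Divisor Ω FΩ} (hE : 0 ≤ E) (hlin : LinEq E (tsum P)) : E = tsum P :=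
  RRCCore.eq_sum_of_effective hF.ff hg P (exists_orbit_set hF hsep hP) hE hlin

/-! ### Lemma C -/

/-- **Lemma C (`h⁰ = 1`)**: for a generic tuple of at most `g` places, `L(P_1 + … + P_g)`
consists of the constants. -/
theorem L_tsum_eq [IsAlgClosed Ω] [IsAlgClosed K] (hF : Frame x rho) {g : ℕ}
    (hg : g ≤ genusFF Ω FΩ) {P : Fin g → Place Ω FΩ} {t : Fin g → Ω} (hP : IsGeneric K x P t) :
    riemannRochSpace (tsum P) = riemannRochSpace (0 : Divisor Ω FΩ) :=
  L_tsum_eq_of_sep hF (sepHyp hF) hg hP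

/-- **Lemma C**: the only effective divisor linearly equivalent to the sum of a generic tuple of
at most `g` places is that sum (`h⁰ = 1`). -/
theorem eq_tsum_of_linEq [IsAlgClosed Ω] [IsAlgClosed K] (hF : Frame x rho) {g : ℕ}
    (hg : g ≤ genusFF Ω FΩ) {P : Fin g → Place Ω FΩ} {t : Fin g → Ω} (hP : IsGeneric K x P t)
    {E : Divisor Ω FΩ} (hE : 0 ≤ E) (hlin : LinEq E (tsum P)) : E = tsum P :=
  eq_tsum_of_linEq_of_sep hF (sepHyp hF) hg hP hE hlin

/-- The sum of a tuple of places is an effective divisor. -/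
theorem zero_le_tsum {g : ℕ} (P : Fin g → Place Ω FΩ) : 0 ≤ tsum P := by
  unfold tsum
  refine Finset.sum_nonneg fun i _ => ?_
  refine Finsupp.le_def.mpr fun v => ?_
  rw [Finsupp.zero_apply]
  by_cases hv : v = P i
  · subst hv; rw [Finsupp.single_eq_same]; exact zero_le_one
  · rw [Finsupp.single_eq_of_ne hv]

/-- The degree of the sum of a `g`-tuple of places is `g`. -/
theorem degree_tsum (hFF : IsFF1 Ω FΩ x) {g : ℕ} (P : Fin g → Place Ω FΩ) :
    Divisor.degree (tsum P) = (g : ℤ) := by
  unfold tsum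
  rw [map_sum]
  have h1 : ∀ i : Fin g, Divisor.degree (Finsupp.single (P i) (1 : ℤ)) = 1 := fun i => by
    have := BasePoint.degree_sub_single hFF (0 : Divisor Ω FΩ) (P i)
    rw [zero_sub, map_neg, map_zero] at this
    omega
  rw [Finset.sum_congr rfl fun i _ => h1 i]
  simp

/-- **Lemma C, tuple form**: two generic tuples with linearly equivalent sums have equal sums —
stated for an arbitrary second tuple. -/
theorem tsum_eq_of_linEq [IsAlgClosed Ω] [IsAlgClosed K] (hF : Frame x rho) {g : ℕ}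
    (hg : g ≤ genusFF Ω FΩ) {P : Fin g → Place Ω FΩ} {t : Fin g → Ω} (hP : IsGeneric K x P t)
    {g' : ℕ} (Q : Fin g' → Place Ω FΩ) (hlin : LinEq (tsum Q) (tsum P)) : tsum Q = tsum P :=
  eq_tsum_of_linEq hF hg hP (zero_le_tsum Q) hlin

end Fermat.Agent.S27P.Gen.RRC
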