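/-
helper50 — S27 / (GEN), brick G-SepP: the CHARACTERISTIC-FREE form of `Gen/Sep.lean` and of
Lemma C (`Gen/RRC.lean`).  `Sep.smul_eq_of_val` carries `[CharZero Ω]` (it separates by an integer
translate of `x`); here the translate is taken in the infinite field `K`, so the statements hold
for any algebraically closed `K ⊆ Ω` — in particular for the residue fields `k ⊆ k2` of
characteristic `p` met in (LIFT), where Lemma C is applied to the reduced generic tuple.

* `exists_not_val` : some `a : K` is the value of `f` at neither of two given places;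
* `exists_isRat_separating` : two distinct places are separated by a `K`-rational function;
* `smul_eq_of_orbit_subset`, `smul_eq_of_val`, `smul_eq_of_pole` : `Γ_M` fixes the places with
  finite `Γ_M`-orbit, the places whose `x`-value lies in `M`, and the poles of `x`;
* `sepHyp` : `RRC.SepHyp x rho` without `CharZero`;
* `L_tsum_eq`, `eq_tsum_of_linEq`, `tsum_eq_of_linEq` : **Lemma C in any characteristic**.
-/
import Mathlib
import Fermat.Agent.S27P.Gen.RRC

set_option autoImplicit false
set_option linter.unusedSectionVars false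

open AlgebraicCurve WithZero

noncomputable section

namespace Fermat.Agent.S27P.Gen.SepP

open Fermat.Agent.S27P.Gen Fermat.Agent.Lib.FF Fermat.Agent.S27P.Gen.Values

variable {K : Type*} {Ω : Type*} {FΩ : Type*} [Field K] [Field Ω] [Algebra K Ω] [Field FΩ]
  [Algebra Ω FΩ]

/-- In an infinite field `K ⊆ Ω` some element is the value of `f` at neither `P` nor `P'`. -/
theorem exists_not_val [Infinite K] (P P' : Place Ω FΩ) (f : FΩ) :
    ∃ a : K, ¬ Val P f (algebraMap K Ω a) ∧ ¬ Val P' f (algebraMap K Ω a) := by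
  have hinj : Function.Injective (algebraMap K Ω) := (algebraMap K Ω).injective
  have h1 : {a : K | Val P f (algebraMap K Ω a)}.Subsingleton :=
    fun a ha b hb => hinj (val_unique ha hb)
  have h2 : {a : K | Val P' f (algebraMap K Ω a)}.Subsingleton :=
    fun a ha b hb => hinj (val_unique ha hb)
  obtain ⟨a, ha⟩ := (h1.finite.union h2.finite).exists_notMem
  exact ⟨a, fun h => ha (Or.inl h), fun h => ha (Or.inr h)⟩

variable {x : FΩ} {rho : (Ω ≃ₐ[K] Ω) →* SemilinearAut Ω FΩ}

/-- **Separation, any characteristic.** Two distinct places of `FΩ` are separated by a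
`K`-rational function which is regular at both. -/
theorem exists_isRat_separating [IsAlgClosed K] (hF : Frame x rho)
    {P P' : Place Ω FΩ} (hne : P ≠ P') :
    ∃ f : FΩ, IsRat rho ⊥ f ∧ ∃ c c' : Ω, Val P f c ∧ Val P' f c' ∧ c ≠ c' := by
  by_contra hcon
  push Not at hcon
  have hFF := hF.ff
  obtain ⟨a, haP, haP'⟩ := exists_not_val (K := K) P P' x
  obtain ⟨Z, hZ⟩ := Sep.exists_zeroDiv hFF (algebraMap K Ω a)
  have hZ0 : ∀ Q : Place Ω FΩ, ¬ Val Q x (algebraMap K Ω a) → Z Q = 0 := by
    intro Q hQ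
    rw [hZ Q]
    rw [val_iff, not_or] at hQ
    exact max_eq_right (not_lt.mp hQ.2)
  have hZP : Z P = 0 := hZ0 P haP
  have hZP' : Z P' = 0 := hZ0 P' haP'
  have hZfix : ∀ σ : Ω ≃ₐ[K] Ω, rho σ • Z = Z := by
    intro σ
    ext v
    rw [SemilinearAut.divisor_smul_apply, hZ, hZ, Sep.ord_inv_smul, smul_sub, rho_smul_x hF,
      rho_smul_algebraMap hF, σ.commutes]
  have hZdeg : 1 ≤ Divisor.degree Z := by
    obtain ⟨v₀, hv₀⟩ := hFF.exists_zero_sub (algebraMap K Ω a)
    have hnn : ∀ v, 0 ≤ (Z - Finsupp.single v₀ (1 : ℤ)) v := by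
      intro v
      rw [Finsupp.sub_apply, hZ v]
      by_cases hv : v = v₀
      · subst hv
        rw [Finsupp.single_eq_same]
        have := le_max_left (v.ord (x - algebraMap Ω FΩ (algebraMap K Ω a))) 0
        omega
      · rw [Finsupp.single_eq_of_ne hv]
        have := le_max_right (v.ord (x - algebraMap Ω FΩ (algebraMap K Ω a))) 0
        omega
    have := GenPos.degree_nonneg hFF hnn
    rw [BasePoint.degree_sub_single hFF] at this
    omega
  obtain ⟨c₀, hc₀⟩ := BasePoint.exists_NS hFF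
  set m : ℕ := (c₀ + 2).toNat with hm
  set D : Divisor Ω FΩ := m • Z with hDdef
  have hDdeg : c₀ + 2 ≤ Divisor.degree D := by
    rw [hDdef, map_nsmul, nsmul_eq_mul]
    have h1 := Int.self_le_toNat (c₀ + 2)
    have h2 : (0 : ℤ) ≤ (m : ℤ) := Int.natCast_nonneg _
    nlinarith
  set D' : Divisor Ω FΩ := D - Finsupp.single P (1 : ℤ) with hD'def
  have hD'deg : c₀ + 1 ≤ Divisor.degree D' := by
    rw [hD'def, BasePoint.degree_sub_single hFF]
    linarith
  obtain ⟨h, hh, hhP'⟩ := BasePoint.bpf_of_degree hFF hc₀ hD'deg P'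
  have hD'P' : D' P' = 0 := by
    rw [hD'def, Finsupp.sub_apply, hDdef, Finsupp.smul_apply, hZP',
      Finsupp.single_eq_of_ne (Ne.symm hne)]
    simp
  have hD'P : D' P = -1 := by
    rw [hD'def, Finsupp.sub_apply, hDdef, Finsupp.smul_apply, hZP, Finsupp.single_eq_same]
    simp
  have hvalP : Val P h 0 := by
    unfold Val
    rw [map_zero, sub_zero]
    refine lt_of_le_of_lt (hh P) ?_
    rw [hD'P, ← exp_zero, exp_lt_exp]
    norm_num
  have hnvalP' : ¬ Val P' h 0 := by
    unfold Val
    rw [map_zero, sub_zero, hhP', hD'P', exp_zero]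
    exact lt_irrefl _
  have hD'le : D' ≤ D := by
    rw [hD'def]
    intro v
    rw [Finsupp.sub_apply]
    by_cases hv : v = P
    · subst hv; rw [Finsupp.single_eq_same]; omega
    · rw [Finsupp.single_eq_of_ne hv]; omega
  have hhD : h ∈ riemannRochSpace D := RR.L_mono hD'le hh
  have hDfix : ∀ σ ∈ (⊥ : IntermediateField K Ω).fixingSubgroup, rho σ • D = D := fun σ _ => by
    rw [hDdef, smul_comm, hZfix]
  have hspan := hF.span_isRat ⊥ D hDfix hhD
  have hDP : D P = 0 := by rw [hDdef, Finsupp.smul_apply, hZP]; simp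
  have hDP' : D P' = 0 := by rw [hDdef, Finsupp.smul_apply, hZP']; simp
  have hp : ∃ c, Val P h c ∧ Val P' h c := by
    refine Submodule.span_induction (p := fun y _ => ∃ c, Val P y c ∧ Val P' y c)
      ?_ ?_ ?_ ?_ hspan
    · rintro f ⟨hfD, hfR⟩
      have h1 : 0 ≤ P.ord f := by
        have := hfD P
        rw [hDP, exp_zero] at this
        rcases P.adicValuation_le_one_iff.mp this with h0 | h0
        · rw [h0]; simp
        · exact h0
      have h2 : 0 ≤ P'.ord f := by
        have := hfD P'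
        rw [hDP', exp_zero] at this
        rcases P'.adicValuation_le_one_iff.mp this with h0 | h0
        · rw [h0]; simp
        · exact h0
      obtain ⟨c, hc⟩ := exists_val_of_ord_nonneg hFF P h1
      obtain ⟨c', hc'⟩ := exists_val_of_ord_nonneg hFF P' h2
      have hcc := hcon f hfR c c' hc hc'
      exact ⟨c, hc, hcc ▸ hc'⟩
    · exact ⟨0, val_zero P, val_zero P'⟩
    · rintro y z _ _ ⟨c, h1, h2⟩ ⟨c', h3, h4⟩
      exact ⟨c + c', val_add h1 h3, val_add h2 h4⟩
    · rintro r y _ ⟨c, h1, h2⟩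
      refine ⟨r * c, ?_, ?_⟩
      · rw [Algebra.smul_def]
        exact val_mul (val_algebraMap P r) h1
      · rw [Algebra.smul_def]
        exact val_mul (val_algebraMap P' r) h2
  obtain ⟨c, hc1, hc2⟩ := hp
  have hc0 : c = 0 := val_unique hc1 hvalP
  exact hnvalP' (hc0 ▸ hc2)

/-! ### The automorphisms over `M` fix the `M`-rational places (any characteristic) -/

/-- A place whose `Γ_M`-orbit is finite is fixed by `Γ_M`. -/
theorem smul_eq_of_orbit_subset [IsAlgClosed Ω] [IsAlgClosed K] (hF : Frame x rho)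
    (M : IntermediateField K Ω) [IsAlgClosed M]
    {P : Place Ω FΩ} (S : Set (Place Ω FΩ)) (hS : S.Finite)
    (hPS : ∀ σ ∈ M.fixingSubgroup, rho σ • P ∈ S) {σ : Ω ≃ₐ[K] Ω}
    (hσ : σ ∈ M.fixingSubgroup) : rho σ • P = P := by
  by_contra hne
  obtain ⟨f, hfR, c, c', hc, hc', hcc⟩ := exists_isRat_separating hF (Ne.symm hne)
  have hfM : IsRat rho M f := isRat_mono bot_le hfR
  have hcM : c ∈ M := Sep.val_mem_of_orbit_subset hF M hfM hc S hS hPS
  have h1 := val_smul_of_val hF σ hc
  rw [rho_smul_of_isRat hfM hσ, (IntermediateField.mem_fixingSubgroup_iff M σ).mp hσ c hcM] at h1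
  exact hcc (val_unique h1 hc')

/-- **(P3), any characteristic.** The automorphisms of `Ω` over the algebraically closed field
`M` fix every place whose `x`-value lies in `M`. -/
theorem smul_eq_of_val [IsAlgClosed Ω] [IsAlgClosed K] (hF : Frame x rho)
    (M : IntermediateField K Ω) [IsAlgClosed M] {P : Place Ω FΩ}
    {t : Ω} (ht : t ∈ M) (hP : Val P x t) {σ : Ω ≃ₐ[K] Ω}
    (hσ : σ ∈ M.fixingSubgroup) : rho σ • P = P := by
  refine smul_eq_of_orbit_subset hF M {Q | Val Q x t} (finite_val_x hF.ff t)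
    (fun τ hτ => ?_) hσ
  have := val_x_smul hF τ hP
  rwa [(IntermediateField.mem_fixingSubgroup_iff M τ).mp hτ t ht] at this

/-- **(P3), poles, any characteristic.** The automorphisms of `Ω` over an algebraically closed
`M` fix every pole of `x`. -/
theorem smul_eq_of_pole [IsAlgClosed Ω] [IsAlgClosed K] (hF : Frame x rho)
    (M : IntermediateField K Ω) [IsAlgClosed M] {P : Place Ω FΩ} (hP : P.ord x < 0)
    {σ : Ω ≃ₐ[K] Ω} (hσ : σ ∈ M.fixingSubgroup) : rho σ • P = P := by
  refine smul_eq_of_orbit_subset hF M {Q | Q.ord x < 0} (finite_pole_x hF.ff)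
    (fun τ _ => ?_) hσ
  show (rho τ • P).ord x < 0
  rw [ord_x_smul hF]
  exact hP

/-! ### Lemma C in any characteristic -/

/-- `RRC.SepHyp` without `CharZero`. -/
theorem sepHyp [IsAlgClosed Ω] [IsAlgClosed K] (hF : Frame x rho) : RRC.SepHyp x rho :=
  fun M _ _ _ ht hP _ hσ => smul_eq_of_val hF M ht hP hσ

/-- **Lemma C (`h⁰ = 1`), any characteristic**: for a generic tuple of at most `g` places,
`L(P_1 + … + P_g)` consists of the constants. -/
theorem L_tsum_eq [IsAlgClosed Ω] [IsAlgClosed K] (hF : Frame x rho) {g : ℕ}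
    (hg : g ≤ genusFF Ω FΩ) {P : Fin g → Place Ω FΩ} {t : Fin g → Ω} (hP : IsGeneric K x P t) :
    riemannRochSpace (tsum P) = riemannRochSpace (0 : Divisor Ω FΩ) :=
  RRC.L_tsum_eq_of_sep hF (sepHyp hF) hg hP

/-- **Lemma C, any characteristic**: the only effective divisor linearly equivalent to the sum of
a generic tuple of at most `g` places is that sum. -/
theorem eq_tsum_of_linEq [IsAlgClosed Ω] [IsAlgClosed K] (hF : Frame x rho) {g : ℕ}
    (hg : g ≤ genusFF Ω FΩ) {P : Fin g → Place Ω FΩ} {t : Fin g → Ω} (hP : IsGeneric K x P t)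
    {E : Divisor Ω FΩ} (hE : 0 ≤ E) (hlin : LinEq E (tsum P)) : E = tsum P :=
  RRC.eq_tsum_of_linEq_of_sep hF (sepHyp hF) hg hP hE hlin

/-- **Lemma C, tuple form, any characteristic.** -/
theorem tsum_eq_of_linEq [IsAlgClosed Ω] [IsAlgClosed K] (hF : Frame x rho) {g : ℕ}
    (hg : g ≤ genusFF Ω FΩ) {P : Fin g → Place Ω FΩ} {t : Fin g → Ω} (hP : IsGeneric K x P t)
    {g' : ℕ} (Q : Fin g' → Place Ω FΩ) (hlin : LinEq (tsum Q) (tsum P)) : tsum Q = tsum P :=
  eq_tsum_of_linEq hF hg hP (RRC.zero_le_tsum Q) hlin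

end Fermat.Agent.S27P.Gen.SepP
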