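/-
S27 / (GEN), row (G3) CONJ (helper60; port of `MW/DivC/ConjS.lean` to the abstract frame of
`S27P/Gen/Defs.lean`).  CHARACTERISTIC-FREE (on top of `Gen/SepP.lean`): serves `Ω/K` in
characteristic `0` and `k2/k` in characteristic `p`.

For an algebraically closed intermediate field `M` of `Ω/K`:

* `ord_eq_zero_of_isRat` : **(P5)** a nonzero `M`-rational function is a unit at every place
  whose `x`-value is not in `M`;
* `ratField rho M` : the subfield of the `M`-rational functions, an `M`-algebra; `psi` : the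
  evaluation `F_M →ₐ[M] Ω` at an `M`-generic place;
* `exists_smul_eq_of_not_mem` : **(P6)** any two places whose `x`-values are not in `M` are
  conjugate under the automorphisms of `Ω` over `M` (conjugacy of the two evaluations, `Ω/M` of
  finite transcendence degree, then separation by `K`-rational functions).
-/
import Mathlib
import Fermat.Agent.S27P.Gen.SepP

set_option autoImplicit false
set_option linter.unusedSectionVars false
set_option linter.style.haveILetI false

open AlgebraicCurve WithZero

noncomputable section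

namespace Fermat.Agent.S27P.Gen.Conj60

open Fermat.Agent.S27P.Gen Fermat.Agent.Lib.FF Fermat.Agent.S27P.Gen.Values

variable {K : Type*} {Ω : Type*} {FΩ : Type*} [Field K] [Field Ω] [Algebra K Ω] [Field FΩ]
  [Algebra Ω FΩ] {x : FΩ} {rho : (Ω ≃ₐ[K] Ω) →* SemilinearAut Ω FΩ}

/-- **(P5)** A nonzero `M`-rational function is a unit at every place whose `x`-value is not in
the algebraically closed field `M`. -/
theorem ord_eq_zero_of_isRat [IsAlgClosed Ω] [IsAlgClosed K] (hF : Frame x rho)
    (M : IntermediateField K Ω) [IsAlgClosed M] {P : Place Ω FΩ} {t : Ω} (hP : Val P x t)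
    (ht : t ∉ M) {f : FΩ} (hf : IsRat rho M f) (hf0 : f ≠ 0) : P.ord f = 0 := by
  by_contra hne
  apply ht
  have hPS : ∀ σ ∈ M.fixingSubgroup, rho σ • P ∈ {Q : Place Ω FΩ | Q.ord f ≠ 0} := by
    intro σ hσ
    show (rho σ • P).ord f ≠ 0
    have h1 := SemilinearAut.ord_smul (rho σ) P f
    rw [rho_smul_of_isRat hf hσ] at h1
    rw [h1]
    exact hne
  apply Field.mem_of_finite_orbit' M t
  refine (Set.finite_singleton t).subset ?_
  rintro y ⟨σ, hσ, rfl⟩
  have hfix := SepP.smul_eq_of_orbit_subset hF M _ (finite_ord_ne_zero hF.ff hf0) hPS hσ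
  have h2 := val_x_smul hF σ hP
  rw [hfix] at h2
  exact val_unique h2 hP

/-! ### The field `F_M` of `M`-rational functions -/

/-- The subfield of the `M`-rational functions. -/
def ratField (rho : (Ω ≃ₐ[K] Ω) →* SemilinearAut Ω FΩ) (M : IntermediateField K Ω) :
    Subfield FΩ where
  carrier := {f | IsRat rho M f}
  mul_mem' := fun {a b} ha hb σ hσ => by rw [smul_mul', ha σ hσ, hb σ hσ]
  one_mem' := fun σ _ => smul_one _
  add_mem' := fun {a b} ha hb σ hσ => by rw [smul_add, ha σ hσ, hb σ hσ]
  zero_mem' := fun σ _ => smul_zero _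
  neg_mem' := fun {a} ha σ hσ => by rw [smul_neg, ha σ hσ]
  inv_mem' := fun a ha σ hσ => by rw [smul_inv'', ha σ hσ]

theorem mem_ratField {M : IntermediateField K Ω} {f : FΩ} :
    f ∈ ratField rho M ↔ IsRat rho M f := Iff.rfl

/-- `M → F_M`. -/
def ratMap (hF : Frame x rho) (M : IntermediateField K Ω) : M →+* ratField rho M where
  toFun m := ⟨algebraMap Ω FΩ (m : Ω), isRat_algebraMap hF m.2⟩
  map_one' := Subtype.ext (by simp)
  map_mul' a b := Subtype.ext (by simp)
  map_zero' := Subtype.ext (by simp)
  map_add' a b := Subtype.ext (by simp)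

theorem coe_ratMap (hF : Frame x rho) (M : IntermediateField K Ω) (m : M) :
    ((ratMap hF M m : ratField rho M) : FΩ) = algebraMap Ω FΩ (m : Ω) := rfl

section Psi

variable [IsAlgClosed Ω] [IsAlgClosed K] (hF : Frame x rho)
  (M : IntermediateField K Ω) [IsAlgClosed M]

include hF in
theorem ord_ratField_nonneg {P : Place Ω FΩ} {t : Ω} (hP : Val P x t) (ht : t ∉ M)
    (f : ratField rho M) : 0 ≤ P.ord (f : FΩ) := by
  rcases eq_or_ne (f : FΩ) 0 with h0 | h0
  · rw [h0]; simp
  · rw [ord_eq_zero_of_isRat hF M hP ht f.2 h0]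

/-- The value of `f ∈ F_M` at the `M`-generic place `P`. -/
def psiFun {P : Place Ω FΩ} {t : Ω} (hP : Val P x t) (ht : t ∉ M) (f : ratField rho M) : Ω :=
  Classical.choose (exists_val_of_ord_nonneg hF.ff P (ord_ratField_nonneg hF M hP ht f))

theorem val_psiFun {P : Place Ω FΩ} {t : Ω} (hP : Val P x t) (ht : t ∉ M)
    (f : ratField rho M) : Val P (f : FΩ) (psiFun hF M hP ht f) :=
  Classical.choose_spec (exists_val_of_ord_nonneg hF.ff P (ord_ratField_nonneg hF M hP ht f))

/-- Evaluation at an `M`-generic place, as a ring homomorphism `F_M → Ω`. -/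
def psi {P : Place Ω FΩ} {t : Ω} (hP : Val P x t) (ht : t ∉ M) : ratField rho M →+* Ω where
  toFun := psiFun hF M hP ht
  map_one' := by
    have h := val_psiFun hF M hP ht 1
    exact val_unique h (val_one P)
  map_mul' a b := by
    have h := val_psiFun hF M hP ht (a * b)
    exact val_unique h (val_mul (val_psiFun hF M hP ht a) (val_psiFun hF M hP ht b))
  map_zero' := by
    have h := val_psiFun hF M hP ht 0
    exact val_unique h (val_zero P)
  map_add' a b := by
    have h := val_psiFun hF M hP ht (a + b)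
    exact val_unique h (val_add (val_psiFun hF M hP ht a) (val_psiFun hF M hP ht b))

theorem val_psi {P : Place Ω FΩ} {t : Ω} (hP : Val P x t) (ht : t ∉ M) (f : ratField rho M) :
    Val P (f : FΩ) (psi hF M hP ht f) :=
  val_psiFun hF M hP ht f

theorem psi_ratMap {P : Place Ω FΩ} {t : Ω} (hP : Val P x t) (ht : t ∉ M) (m : M) :
    psi hF M hP ht (ratMap hF M m) = (m : Ω) := by
  have h := val_psi hF M hP ht (ratMap hF M m)
  rw [coe_ratMap] at h
  exact val_unique h (val_algebraMap P _)

include hF in
/-- **(P6)** Any two places whose `x`-values are not in the algebraically closed field `M` are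
conjugate under the automorphisms of `Ω` over `M`. -/
theorem exists_smul_eq_of_not_mem {P P' : Place Ω FΩ} {t t' : Ω}
    (hP : Val P x t) (ht : t ∉ M) (hP' : Val P' x t') (ht' : t' ∉ M) :
    ∃ σ ∈ M.fixingSubgroup, rho σ • P = P' := by
  letI : Algebra M (ratField rho M) := (ratMap hF M).toAlgebra
  have hfin : Algebra.trdeg M Ω < Cardinal.aleph0 := Field.trdeg_intermediate_lt hF.trdeg_lt M
  let φ : ratField rho M →ₐ[M] Ω :=
    { psi hF M hP ht with
      commutes' := fun m => psi_ratMap hF M hP ht m }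
  let φ' : ratField rho M →ₐ[M] Ω :=
    { psi hF M hP' ht' with
      commutes' := fun m => psi_ratMap hF M hP' ht' m }
  obtain ⟨σ, hσ⟩ := Field.exists_algEquiv_comp_eq hfin φ φ'
  have hσM : σ.restrictScalars K ∈ M.fixingSubgroup := by
    rw [IntermediateField.mem_fixingSubgroup_iff]
    intro y hy
    exact σ.commutes ⟨y, hy⟩
  refine ⟨σ.restrictScalars K, hσM, ?_⟩
  by_contra hne
  obtain ⟨f, hfR, c, c', hc, hc', hcc⟩ := SepP.exists_isRat_separating hF hne
  have hfM : IsRat rho M f := isRat_mono bot_le hfR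
  have h1 := val_smul_of_val hF (σ.restrictScalars K) (val_psi hF M hP ht ⟨f, hfM⟩)
  rw [rho_smul_of_isRat hfM hσM] at h1
  have h2 : (σ.restrictScalars K) (psi hF M hP ht ⟨f, hfM⟩) = psi hF M hP' ht' ⟨f, hfM⟩ :=
    hσ ⟨f, hfM⟩
  rw [h2] at h1
  exact hcc ((val_unique hc h1).trans (val_unique (val_psi hF M hP' ht' ⟨f, hfM⟩) hc'))

end Psi

end Fermat.Agent.S27P.Gen.Conj60
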