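/-
helper86 — S27 / (GEN), row (G7) "DIV_Ω" (port of MW/DivC/Main to the abstract frame of
`Gen/Defs.lean`).

`FΩ/Ω` is a function field of one variable over an algebraically closed field `Ω ⊇ K`, and
`Aut(Ω/K)` acts through `rho` (a `Frame x rho`).  Let `(P, t)` be a generic `g`-tuple (`g` the
genus), `T = ΣP_i`, `P₀` a place fixed by `Aut(Ω/K)` and `A = T − g·P₀`.

* `exists_smul_linEq_nsmul` : there is `σ₁` with `σ₁ A ~ n·A`;
* `exists_div_core` : there is a divisor `b` of degree `0` with `A ~ n·b` such that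
  **for every** `σ₂` and every `D` with `σ₂ T ~ T + D` one has `D ~ n·(σ₂ b − b)`
  (this is the form consumed by (LIFT): `σ₂` is chosen there with trivial reduction);
* `exists_smul_tsum_linEq` : for `D` of degree `0` fixed by `Aut(Ω/K)` such a `σ₂` exists;
* `exists_fun_of_fixed`, `exists_nsmul_eq_mk` : (DIV_Ω) — an `Aut(Ω/K)`-fixed divisor of degree
  `0` is `n` times a divisor up to a principal divisor; its class is divisible by `n` in
  `Pic0 Ω FΩ`.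

The two inputs which are separate rows of (GEN) — Lemma 2 (G5) and homogeneity (G6) — enter as the
named hypotheses `Lemma2Hyp` and `HomogHyp`; effectivity in degree `g` is Riemann's inequality
(`MW/DivC/RRCCore`, already abstract).  Everything is universe-polymorphic.
-/
import Mathlib
import Fermat.Agent.S27P.Gen.Values
import Fermat.Agent.S27P.Gen.Field
import Fermat.Agent.MW.DivC.RRCCore

set_option autoImplicit false
set_option linter.unusedSectionVars false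

open AlgebraicCurve

noncomputable section

namespace Fermat.Agent.S27P.Gen.DivMain

open Fermat.Agent.S27P.Gen Fermat.Agent.Lib.FF Fermat.Agent.S27P.Gen.Values

variable {K : Type*} {Ω : Type*} {FΩ : Type*} [Field K] [Field Ω] [Algebra K Ω] [Field FΩ]
  [Algebra Ω FΩ]

/-! ### The two named inputs -/

/-- **Lemma 2 (row G5), as a named hypothesis**: an effective divisor of degree `g` (the genus)
linearly equivalent to `m • ΣP_i + W`, with `(P, t)` a generic `g`-tuple and `W` fixed by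
`Aut(Ω/K)`, is again the sum of a generic `g`-tuple. -/
def Lemma2Hyp (x : FΩ) (rho : (Ω ≃ₐ[K] Ω) →* SemilinearAut Ω FΩ) (m : ℕ) : Prop :=
  ∀ {g : ℕ}, g = genusFF Ω FΩ → ∀ {P : Fin g → Place Ω FΩ} {t : Fin g → Ω},
    IsGeneric K x P t → ∀ W E : Divisor Ω FΩ, (∀ σ : Ω ≃ₐ[K] Ω, rho σ • W = W) → 0 ≤ E →
    Divisor.degree E = (g : ℤ) → LinEq E (m • tsum P + W) →
    ∃ (P' : Fin g → Place Ω FΩ) (t' : Fin g → Ω), IsGeneric K x P' t' ∧ E = tsum P'

/-- **Homogeneity (row G6), as a named hypothesis**: any two generic `g`-tuples are conjugate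
under `Aut(Ω/K)`. -/
def HomogHyp (x : FΩ) (rho : (Ω ≃ₐ[K] Ω) →* SemilinearAut Ω FΩ) : Prop :=
  ∀ {g : ℕ} {P P' : Fin g → Place Ω FΩ} {t t' : Fin g → Ω},
    IsGeneric K x P t → IsGeneric K x P' t' → ∃ σ : Ω ≃ₐ[K] Ω, ∀ i, rho σ • P i = P' i

/-! ### Degrees -/

variable {x : FΩ} {rho : (Ω ≃ₐ[K] Ω) →* SemilinearAut Ω FΩ}

/-- Linearly equivalent divisors have the same degree. -/
theorem degree_eq_of_linEq (hFF : IsFF1 Ω FΩ x) {D E : Divisor Ω FΩ} (h : LinEq D E) :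
    Divisor.degree D = Divisor.degree E := by
  obtain ⟨f, hf, hv⟩ := linEq_iff.mp h
  have := hFF.hasPrincipalDivisors
  obtain ⟨D', hD', hdeg⟩ := HasPrincipalDivisors.exists_divisor (K := Ω) f hf
  have hDE : D = E + D' := by
    ext v
    rw [Finsupp.add_apply, hv v, hD' v]
  rw [hDE, map_add, hdeg, add_zero]

theorem degree_tsum (hFF : IsFF1 Ω FΩ x) {g : ℕ} (P : Fin g → Place Ω FΩ) :
    Divisor.degree (tsum P) = (g : ℤ) := by
  unfold tsum
  rw [map_sum]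
  simp [Divisor.degree_single, hFF.deg_eq_one]

theorem degree_single_one (hFF : IsFF1 Ω FΩ x) (P₀ : Place Ω FΩ) :
    Divisor.degree (Finsupp.single P₀ (1 : ℤ)) = 1 := by
  rw [Divisor.degree_single, hFF.deg_eq_one]
  simp

theorem rho_inv_smul_smul (σ : Ω ≃ₐ[K] Ω) (D : Divisor Ω FΩ) :
    rho σ⁻¹ • rho σ • D = D := by
  rw [map_inv, inv_smul_smul]

/-- **Effectivity in degree `g`** (Riemann's inequality). -/
theorem exists_effective (hFF : IsFF1 Ω FΩ x) (D : Divisor Ω FΩ)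
    (hdeg : Divisor.degree D = (genusFF Ω FΩ : ℤ)) :
    ∃ E : Divisor Ω FΩ, 0 ≤ E ∧ LinEq E D :=
  Fermat.Agent.MW.DivC.RRCCore.exists_effective_of_degree_ge hFF D hdeg.ge

/-- The divisor `ΣP_i − g·P₀` attached to a tuple and a base place. -/
def baseDiv {g : ℕ} (P : Fin g → Place Ω FΩ) (P₀ : Place Ω FΩ) : Divisor Ω FΩ :=
  tsum P - g • Finsupp.single P₀ (1 : ℤ)

theorem degree_baseDiv (hFF : IsFF1 Ω FΩ x) {g : ℕ} (P : Fin g → Place Ω FΩ)
    (P₀ : Place Ω FΩ) : Divisor.degree (baseDiv P P₀) = 0 := by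
  unfold baseDiv
  rw [map_sub, map_nsmul, degree_tsum hFF, degree_single_one hFF]
  simp

theorem rho_smul_baseDiv {g : ℕ} (P : Fin g → Place Ω FΩ) {P₀ : Place Ω FΩ}
    (hP₀ : ∀ σ : Ω ≃ₐ[K] Ω, rho σ • P₀ = P₀) (σ : Ω ≃ₐ[K] Ω) :
    rho σ • baseDiv P P₀ = rho σ • tsum P - g • Finsupp.single P₀ (1 : ℤ) := by
  unfold baseDiv
  rw [smul_sub, smul_comm, SemilinearAut.smul_single, hP₀]

/-! ### `[ΣP_i − g·P₀]` is divisible by `n` -/

/-- **(G7a).** For a generic `g`-tuple (`g` the genus) and a place `P₀` fixed by `Aut(Ω/K)`,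
some automorphism `σ₁` multiplies the class of `A = ΣP_i − g·P₀` by `n`. -/
theorem exists_smul_linEq_nsmul (hF : Frame x rho) {n : ℕ} (hL2 : Lemma2Hyp x rho n)
    (hH : HomogHyp x rho) {g : ℕ} (hg : g = genusFF Ω FΩ) {P : Fin g → Place Ω FΩ}
    {t : Fin g → Ω} (hP : IsGeneric K x P t) {P₀ : Place Ω FΩ}
    (hP₀ : ∀ σ : Ω ≃ₐ[K] Ω, rho σ • P₀ = P₀) :
    ∃ σ₁ : Ω ≃ₐ[K] Ω, LinEq (rho σ₁ • baseDiv P P₀) (n • baseDiv P P₀) := by
  have hFF := hF.ff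
  set T : Divisor Ω FΩ := tsum P with hT
  set B₀ : Divisor Ω FΩ := Finsupp.single P₀ (1 : ℤ) with hB₀
  have hB₀fix : ∀ σ : Ω ≃ₐ[K] Ω, rho σ • B₀ = B₀ := fun σ => by
    rw [hB₀, SemilinearAut.smul_single, hP₀]
  have hdegT : Divisor.degree T = (g : ℤ) := degree_tsum hFF P
  have hdegB₀ : Divisor.degree B₀ = 1 := degree_single_one hFF P₀
  -- `W = g·P₀ − n g·P₀`, written so that no subtraction of naturals occurs
  set W : Divisor Ω FΩ := g • B₀ - (n * g) • B₀ with hW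
  have hWfix : ∀ σ : Ω ≃ₐ[K] Ω, rho σ • W = W := fun σ => by
    rw [hW, smul_sub, smul_comm, hB₀fix, smul_comm, hB₀fix]
  have hdeg₁ : Divisor.degree (n • T + W) = (genusFF Ω FΩ : ℤ) := by
    rw [map_add, map_nsmul, hW, map_sub, map_nsmul, map_nsmul, hdegT, hdegB₀, ← hg]
    simp only [nsmul_eq_mul, Nat.cast_mul, mul_one]
    ring
  obtain ⟨E₁, hE₁, hlin₁⟩ := exists_effective hFF _ hdeg₁
  obtain ⟨P₁, t₁, hP₁, hE₁P⟩ := hL2 hg hP W E₁ hWfix hE₁
    (((degree_eq_of_linEq hFF hlin₁).trans hdeg₁).trans (by rw [hg])) hlin₁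
  obtain ⟨σ₁, hσ₁⟩ := hH hP hP₁
  have hσ₁T : rho σ₁ • T = E₁ := by
    rw [hT, rho_smul_tsum, hE₁P]
    exact congrArg tsum (funext hσ₁)
  refine ⟨σ₁, ?_⟩
  have h1 : rho σ₁ • baseDiv P P₀ = E₁ - g • B₀ := by
    rw [rho_smul_baseDiv P hP₀, hσ₁T]
  have h2 : n • baseDiv P P₀ = (n • T + W) - g • B₀ := by
    unfold baseDiv
    rw [hW, smul_sub, smul_smul]
    abel
  rw [h1, h2]
  exact linEq_sub hlin₁ (linEq_refl _)

/-- Pure algebra: if `A ~ n·b` and `σ₂ A ~ A + D`, then `D ~ n·(σ₂ b − b)`. -/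
theorem linEq_nsmul_smul_sub {n : ℕ} {A b D : Divisor Ω FΩ} {σ₂ : Ω ≃ₐ[K] Ω}
    (hA : LinEq A (n • b)) (h2 : LinEq (rho σ₂ • A) (A + D)) :
    LinEq D (n • (rho σ₂ • b - b)) := by
  have hd : LinEq (rho σ₂ • A) (n • (rho σ₂ • b)) := by
    have := linEq_smul hA (rho σ₂)
    rwa [smul_comm] at this
  have he : LinEq (A + D) (n • (rho σ₂ • b)) := linEq_trans (linEq_symm h2) hd
  have := linEq_sub he hA
  rwa [add_sub_cancel_left, ← smul_sub] at this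

/-- **(G7-core), the form consumed by (LIFT).** For a generic `g`-tuple `(P, t)` (`g` the genus)
and a place `P₀` fixed by `Aut(Ω/K)` there is a divisor `b` of degree `0` with
`ΣP_i − g·P₀ ~ n·b` such that, for EVERY automorphism `σ₂` and every divisor `D` with
`σ₂(ΣP_i) ~ ΣP_i + D`, one has `D ~ n·(σ₂ b − b)`. -/
theorem exists_div_core (hF : Frame x rho) {n : ℕ} (hL2 : Lemma2Hyp x rho n)
    (hH : HomogHyp x rho) {g : ℕ} (hg : g = genusFF Ω FΩ) {P : Fin g → Place Ω FΩ}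
    {t : Fin g → Ω} (hP : IsGeneric K x P t) {P₀ : Place Ω FΩ}
    (hP₀ : ∀ σ : Ω ≃ₐ[K] Ω, rho σ • P₀ = P₀) :
    ∃ b : Divisor Ω FΩ, Divisor.degree b = 0 ∧ LinEq (baseDiv P P₀) (n • b) ∧
      ∀ (σ₂ : Ω ≃ₐ[K] Ω) (D : Divisor Ω FΩ), LinEq (rho σ₂ • tsum P) (tsum P + D) →
        LinEq D (n • (rho σ₂ • b - b)) := by
  have hFF := hF.ff
  obtain ⟨σ₁, ha⟩ := exists_smul_linEq_nsmul hF hL2 hH hg hP hP₀
  -- `A ~ n σ₁⁻¹ A`
  have hc : LinEq (baseDiv P P₀) (n • (rho σ₁⁻¹ • baseDiv P P₀)) := by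
    have := linEq_smul ha (rho σ₁⁻¹)
    rwa [rho_inv_smul_smul, smul_comm] at this
  refine ⟨rho σ₁⁻¹ • baseDiv P P₀, ?_, hc, fun σ₂ D hσ₂ => ?_⟩
  · rw [SemilinearAut.degree_smul, degree_baseDiv hFF]
  · refine linEq_nsmul_smul_sub hc ?_
    have h1 : rho σ₂ • baseDiv P P₀ = rho σ₂ • tsum P - g • Finsupp.single P₀ (1 : ℤ) :=
      rho_smul_baseDiv P hP₀ σ₂
    have h2 : baseDiv P P₀ + D = (tsum P + D) - g • Finsupp.single P₀ (1 : ℤ) := by
      unfold baseDiv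
      abel
    rw [h1, h2]
    exact linEq_sub hσ₂ (linEq_refl _)

/-! ### Moving `ΣP_i` to `ΣP_i + D` -/

/-- **(G7b).** For a divisor `D` of degree `0` fixed by `Aut(Ω/K)` there is an automorphism `σ₂`
with `σ₂(ΣP_i) ~ ΣP_i + D`; more precisely `σ₂(ΣP_i)` is THE effective divisor in that class
produced by Riemann's inequality. -/
theorem exists_smul_tsum_linEq (hF : Frame x rho) (hL2 : Lemma2Hyp x rho 1)
    (hH : HomogHyp x rho) {g : ℕ} (hg : g = genusFF Ω FΩ) {P : Fin g → Place Ω FΩ}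
    {t : Fin g → Ω} (hP : IsGeneric K x P t) (D : Divisor Ω FΩ)
    (hdeg : Divisor.degree D = 0) (hfix : ∀ σ : Ω ≃ₐ[K] Ω, rho σ • D = D) :
    ∃ σ₂ : Ω ≃ₐ[K] Ω, LinEq (rho σ₂ • tsum P) (tsum P + D) := by
  have hFF := hF.ff
  have hdeg₂ : Divisor.degree (1 • tsum P + D) = (genusFF Ω FΩ : ℤ) := by
    rw [map_add, one_nsmul, degree_tsum hFF, hdeg, add_zero, hg]
  obtain ⟨E₂, hE₂, hlin₂⟩ := exists_effective hFF _ hdeg₂
  obtain ⟨P₂, t₂, hP₂, hE₂P⟩ := hL2 hg hP D E₂ hfix hE₂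
    (((degree_eq_of_linEq hFF hlin₂).trans hdeg₂).trans (by rw [hg])) hlin₂
  obtain ⟨σ₂, hσ₂⟩ := hH hP hP₂
  refine ⟨σ₂, ?_⟩
  have hσ₂T : rho σ₂ • tsum P = E₂ := by
    rw [rho_smul_tsum, hE₂P]
    exact congrArg tsum (funext hσ₂)
  rw [hσ₂T]
  rwa [one_nsmul] at hlin₂

/-! ### (DIV_Ω) -/

/-- **(DIV_Ω), divisor form.** Given one generic `g`-tuple (`g` the genus), a divisor of degree
`0` fixed by `Aut(Ω/K)` is linearly equivalent to `n` times a divisor of degree `0`. -/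
theorem exists_linEq_nsmul_of_fixed (hF : Frame x rho) {n : ℕ} (hL2n : Lemma2Hyp x rho n)
    (hL21 : Lemma2Hyp x rho 1) (hH : HomogHyp x rho)
    (htr : ∃ t : Fin (genusFF Ω FΩ) → Ω, AlgebraicIndependent K t) (D : Divisor Ω FΩ)
    (hdeg : Divisor.degree D = 0) (hfix : ∀ σ : Ω ≃ₐ[K] Ω, rho σ • D = D) :
    ∃ b : Divisor Ω FΩ, Divisor.degree b = 0 ∧ LinEq D (n • b) := by
  have hFF := hF.ff
  obtain ⟨t, ht⟩ := htr
  choose P hPt using fun i => exists_place_val hFF (t i)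
  have hP : IsGeneric K x P t := ⟨ht, hPt⟩
  obtain ⟨P₀, hP₀⟩ := hF.exists_fixed_place
  obtain ⟨b, hb0, -, hb⟩ := exists_div_core hF hL2n hH rfl hP hP₀
  obtain ⟨σ₂, hσ₂⟩ := exists_smul_tsum_linEq hF hL21 hH rfl hP D hdeg hfix
  refine ⟨rho σ₂ • b - b, ?_, hb σ₂ D hσ₂⟩
  rw [map_sub, SemilinearAut.degree_smul, sub_self]

/-- **(DIV_Ω), function form** (the literal of MW/DivC `exists_fun_of_fixed`). -/
theorem exists_fun_of_fixed (hF : Frame x rho) {n : ℕ} (hL2n : Lemma2Hyp x rho n)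
    (hL21 : Lemma2Hyp x rho 1) (hH : HomogHyp x rho)
    (htr : ∃ t : Fin (genusFF Ω FΩ) → Ω, AlgebraicIndependent K t) (D : Divisor Ω FΩ)
    (hdeg : Divisor.degree D = 0) (hfix : ∀ σ : Ω ≃ₐ[K] Ω, rho σ • D = D) :
    ∃ G : FΩ, G ≠ 0 ∧ ∀ w : Place Ω FΩ, (n : ℤ) ∣ D w - w.ord G := by
  obtain ⟨b, -, hb⟩ := exists_linEq_nsmul_of_fixed hF hL2n hL21 hH htr D hdeg hfix
  obtain ⟨G, hG, hGv⟩ := linEq_iff.mp hb
  refine ⟨G, hG, fun w => ?_⟩
  rw [hGv w, add_sub_cancel_right, Finsupp.smul_apply, nsmul_eq_mul]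
  exact dvd_mul_right _ _

/-- The class of `n • b` is `n` times the class of `b`. -/
theorem mk_eq_nsmul_mk_of_linEq {n : ℕ} (D b : Divisor.degZero (K := Ω) (F := FΩ))
    (h : LinEq (D : Divisor Ω FΩ) (n • (b : Divisor Ω FΩ))) :
    (Pic0.mk D : Pic0 Ω FΩ) = n • Pic0.mk b := by
  show (QuotientAddGroup.mk D : Pic0 Ω FΩ) = n • (QuotientAddGroup.mk b : Pic0 Ω FΩ)
  rw [← QuotientAddGroup.mk_nsmul, QuotientAddGroup.eq, AddSubgroup.mem_addSubgroupOf]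
  have : ((-D + n • b : Divisor.degZero (K := Ω) (F := FΩ)) : Divisor Ω FΩ)
      = -((D : Divisor Ω FΩ) - n • (b : Divisor Ω FΩ)) := by
    push_cast
    abel
  rw [this]
  exact neg_mem h

/-- **(DIV_Ω), class form.** The class of an `Aut(Ω/K)`-fixed divisor of degree `0` is divisible
by `n` in `Pic0 Ω FΩ`. -/
theorem exists_nsmul_eq_mk (hF : Frame x rho) {n : ℕ} (hL2n : Lemma2Hyp x rho n)
    (hL21 : Lemma2Hyp x rho 1) (hH : HomogHyp x rho)
    (htr : ∃ t : Fin (genusFF Ω FΩ) → Ω, AlgebraicIndependent K t)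
    (D : Divisor.degZero (K := Ω) (F := FΩ))
    (hfix : ∀ σ : Ω ≃ₐ[K] Ω, rho σ • (D : Divisor Ω FΩ) = D) :
    ∃ a : Pic0 Ω FΩ, n • a = Pic0.mk D := by
  obtain ⟨b, hb0, hb⟩ := exists_linEq_nsmul_of_fixed hF hL2n hL21 hH htr (D : Divisor Ω FΩ)
    (Divisor.mem_degZero.mp D.2) hfix
  exact ⟨Pic0.mk ⟨b, Divisor.mem_degZero.mpr hb0⟩,
    (mk_eq_nsmul_mk_of_linEq D ⟨b, Divisor.mem_degZero.mpr hb0⟩ hb).symm⟩

end Fermat.Agent.S27P.Gen.DivMain
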