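/-
S27 / (GEN), row (G6) HOMOG (helper60; port of `MW/DivC/Homog.lean`, DIVC-7, to the abstract frame
of `S27P/Gen/Defs.lean`): any two generic tuples of places of `FΩ` are conjugate under
`Aut(Ω/K)`.  CHARACTERISTIC-FREE (serves `Ω/K` in characteristic `0` and `k2/k` in
characteristic `p`).

Induction on the number of matched places: if `σ P_k = P'_k` for `k < i`, replace `(P, t)` by
`(σ P, σ t)` (generic again), put `M := algCl {t'_k | k < i}` (algebraically closed); `σ t_i`,
`t'_i ∉ M`, so some `τ ∈ Γ_M` maps `σ P_i` to `P'_i` (`Conj60`), and `τ` fixes the `M`-rational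
places `P'_k`, `k < i` (`Sep`).
-/
import Mathlib
import Fermat.Agent.S27P.Gen.Conj60
import Fermat.Agent.S27P.Gen.DivMain

set_option autoImplicit false
set_option linter.unusedSectionVars false

open AlgebraicCurve

noncomputable section

namespace Fermat.Agent.S27P.Gen.Homog

open Fermat.Agent.S27P.Gen Fermat.Agent.Lib.FF Fermat.Agent.S27P.Gen.Values

variable {K : Type*} {Ω : Type*} {FΩ : Type*} [Field K] [Field Ω] [Algebra K Ω] [Field FΩ]
  [Algebra Ω FΩ] {x : FΩ} {rho : (Ω ≃ₐ[K] Ω) →* SemilinearAut Ω FΩ}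

/-- A generic tuple stays generic under the action of `Aut(Ω/K)`. -/
theorem isGeneric_smul (hF : Frame x rho) {g : ℕ} {P : Fin g → Place Ω FΩ} {t : Fin g → Ω}
    (hP : IsGeneric K x P t) (σ : Ω ≃ₐ[K] Ω) :
    IsGeneric K x (fun k => rho σ • P k) (fun k => σ (t k)) :=
  ⟨hP.1.map' (f := (σ : Ω →ₐ[K] Ω)) σ.injective, fun i => val_x_smul hF σ (hP.2 i)⟩

/-- The inductive statement: the first `i` places can be matched by an element of `Aut(Ω/K)`. -/
theorem exists_smul_eq_of_isGeneric_aux [IsAlgClosed Ω] [IsAlgClosed K]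
    (hF : Frame x rho) {g : ℕ} {P P' : Fin g → Place Ω FΩ} {t t' : Fin g → Ω}
    (hP : IsGeneric K x P t) (hP' : IsGeneric K x P' t') :
    ∀ i : ℕ, i ≤ g → ∃ σ : Ω ≃ₐ[K] Ω, ∀ k : Fin g, (k : ℕ) < i → rho σ • P k = P' k := by
  intro i
  induction i with
  | zero =>
    intro _
    exact ⟨1, fun k hk => absurd hk (Nat.not_lt_zero _)⟩
  | succ i ih =>
    intro hi
    obtain ⟨σ, hσP⟩ := ih (Nat.le_of_succ_le hi)
    -- the translated tuple
    have hQ := isGeneric_smul hF hP σ
    let i' : Fin g := ⟨i, hi⟩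
    have hs : ∀ k : Fin g, k < i' → σ (t k) = t' k := by
      intro k hk
      have h1 : Val (P' k) x (σ (t k)) := by
        have h0 : Val (rho σ • P k) x (σ (t k)) := hQ.2 k
        rwa [hσP k hk] at h0
      exact val_unique h1 (hP'.2 k)
    have himg : (fun k => σ (t k)) '' {k | k < i'} = t' '' {k | k < i'} := by
      ext y
      constructor
      · rintro ⟨k, hk, rfl⟩
        exact ⟨k, hk, (hs k hk).symm⟩
      · rintro ⟨k, hk, rfl⟩
        exact ⟨k, hk, hs k hk⟩
    have hsi : σ (t i') ∉ algCl K (t' '' {k | k < i'}) := by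
      rw [← himg]
      exact Field.not_mem_algCl_of_algebraicIndependent hQ.1 i'
    have hti : t' i' ∉ algCl K (t' '' {k | k < i'}) :=
      Field.not_mem_algCl_of_algebraicIndependent hP'.1 i'
    have hQi : Val (rho σ • P i') x (σ (t i')) := hQ.2 i'
    obtain ⟨τ, hτ, hτQ⟩ := Conj60.exists_smul_eq_of_not_mem hF (algCl K (t' '' {k | k < i'}))
      hQi hsi (hP'.2 i') hti
    refine ⟨τ * σ, ?_⟩
    intro k hk
    rw [map_mul, mul_smul]
    rcases Nat.lt_succ_iff_lt_or_eq.mp hk with hlt | heq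
    · have hk' : k < i' := hlt
      rw [hσP k hlt]
      exact SepP.smul_eq_of_val hF (algCl K (t' '' {k | k < i'}))
        (Field.subset_algCl _ ⟨k, hk', rfl⟩) (hP'.2 k) hτ
    · have hki : k = i' := Fin.ext heq
      subst hki
      exact hτQ

/-- **(G6) Homogeneity.** Any two generic tuples are conjugate under `Aut(Ω/K)`. -/
theorem exists_smul_eq_of_isGeneric [IsAlgClosed Ω] [IsAlgClosed K]
    (hF : Frame x rho) {g : ℕ} {P P' : Fin g → Place Ω FΩ} {t t' : Fin g → Ω}
    (hP : IsGeneric K x P t) (hP' : IsGeneric K x P' t') :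
    ∃ σ : Ω ≃ₐ[K] Ω, ∀ i, rho σ • P i = P' i := by
  obtain ⟨σ, h⟩ := exists_smul_eq_of_isGeneric_aux hF hP hP' g le_rfl
  exact ⟨σ, fun i => h i i.2⟩

/-- Homogeneity in the shape consumed by `Gen/DivMain.lean` (`DivMain.HomogHyp`). -/
theorem homogHyp [IsAlgClosed Ω] [IsAlgClosed K] (hF : Frame x rho) : DivMain.HomogHyp x rho :=
  fun hP hP' => exists_smul_eq_of_isGeneric hF hP hP'

end Fermat.Agent.S27P.Gen.Homog
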