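/-
S27 / (GEN), row (G5) (helper77): **Lemma 1 and Lemma 2** of the generic-tuple argument in the
abstract frame `Frame x rho` (port of MW/DivC/Lemma12S).

Characteristic-free core in `_of` form, with the inputs of the neighbouring rows as named
hypotheses:

* `RRC.SepHyp x rho` (helper50's name): a place whose `x`-value lies in an algebraically closed
  intermediate field `M` is fixed by `Γ_M` (`Sep.smul_eq_of_val`);
* `SepPole x rho` : a pole of `x` is fixed by `Γ_M` (`Sep.smul_eq_of_pole`);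
* `LemmaC K Ω x g` : the only effective divisor linearly equivalent to the sum of a generic
  `g`-tuple is that sum (`RRC.eq_tsum_of_linEq_of_sep`).

Results:

* `val_mem_of_finite_classes_of`, `val_mem_of_finite_classes` (**Lemma 1**): if the translates of
  the sum of a generic tuple under `Γ_M` lie in finitely many classes, the `x`-values of the
  tuple lie in `M`;
* `isGeneric_of_linEq_of`, `isGeneric_of_linEq` (**Lemma 2**): if the `m`-torsion of `Pic⁰` is
  finite, every effective divisor of degree `g` linearly equivalent to `m • ΣP_i + W`, `W` fixed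
  by `Aut(Ω/K)`, is again the sum of a generic `g`-tuple.

The closed forms only need `[IsAlgClosed Ω] [IsAlgClosed K]` and `g ≤ genusFF Ω FΩ` (no
hypothesis on the characteristic).
-/
import Mathlib
import Fermat.Agent.S27P.Gen.Values
import Fermat.Agent.S27P.Gen.Field
import Fermat.Agent.S27P.Gen.Sep
import Fermat.Agent.S27P.Gen.RRC

set_option autoImplicit false
set_option linter.unusedSectionVars false

open AlgebraicCurve WithZero

noncomputable section

namespace Fermat.Agent.S27P.Gen.Lemma12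

open Fermat.Agent.S27P.Gen Fermat.Agent.Lib.FF Fermat.Agent.S27P.Gen.Values

variable {K : Type*} {Ω : Type*} {FΩ : Type*} [Field K] [Field Ω] [Algebra K Ω] [Field FΩ]
  [Algebra Ω FΩ] {x : FΩ} {rho : (Ω ≃ₐ[K] Ω) →* SemilinearAut Ω FΩ}

/-! ### The inputs -/

/-- (Sep, poles) A pole of `x` is fixed by `Γ_M`, `M` algebraically closed. -/
def SepPole (x : FΩ) (rho : (Ω ≃ₐ[K] Ω) →* SemilinearAut Ω FΩ) : Prop :=
  ∀ (M : IntermediateField K Ω) [IsAlgClosed M] {P : Place Ω FΩ}, P.ord x < 0 →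
    ∀ {σ : Ω ≃ₐ[K] Ω}, σ ∈ M.fixingSubgroup → rho σ • P = P

variable (K Ω) in
/-- (Lemma C) The only effective divisor linearly equivalent to the sum of a generic `g`-tuple
is that sum. -/
def LemmaC (x : FΩ) (g : ℕ) : Prop :=
  ∀ {P : Fin g → Place Ω FΩ} {t : Fin g → Ω}, IsGeneric K x P t → ∀ {E : Divisor Ω FΩ},
    0 ≤ E → LinEq E (tsum P) → E = tsum P

/-! ### Generic tuples and their sums -/

theorem isGeneric_smul (hF : Frame x rho) {g : ℕ} {P : Fin g → Place Ω FΩ} {t : Fin g → Ω}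
    (hP : IsGeneric K x P t) (σ : Ω ≃ₐ[K] Ω) :
    IsGeneric K x (fun k => rho σ • P k) (fun k => σ (t k)) :=
  ⟨hP.1.map' (f := (σ : Ω →ₐ[K] Ω)) σ.injective, fun i => val_x_smul hF σ (hP.2 i)⟩

theorem tsum_nonneg {g : ℕ} (Q : Fin g → Place Ω FΩ) : 0 ≤ tsum Q := by
  classical
  unfold tsum
  refine Finset.sum_nonneg fun i _ => Finsupp.le_def.mpr fun v => ?_
  rw [Finsupp.single_apply]
  split_ifs <;> simp

theorem tsum_apply_pos {g : ℕ} (Q : Fin g → Place Ω FΩ) (i : Fin g) : 0 < tsum Q (Q i) := by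
  classical
  unfold tsum
  rw [Finsupp.finsetSum_apply]
  have h1 : ∀ k ∈ Finset.univ, 0 ≤ (Finsupp.single (Q k) (1 : ℤ)) (Q i) := fun k _ => by
    rw [Finsupp.single_apply]
    split_ifs <;> simp
  have h2 := Finset.single_le_sum h1 (Finset.mem_univ i)
  rw [Finsupp.single_eq_same] at h2
  omega

theorem tsum_apply_of_injective {g : ℕ} {Q : Fin g → Place Ω FΩ}
    (hQ : Function.Injective Q) (i : Fin g) : tsum Q (Q i) = 1 := by
  classical
  unfold tsum
  rw [Finsupp.finsetSum_apply, Finset.sum_eq_single i]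
  · rw [Finsupp.single_eq_same]
  · intro k _ hk
    rw [Finsupp.single_apply, if_neg (fun h => hk (hQ h))]
  · intro h
    exact absurd (Finset.mem_univ i) h

theorem tsum_apply_of_notMem {g : ℕ} {Q : Fin g → Place Ω FΩ} {v : Place Ω FΩ}
    (hv : ¬ ∃ i, Q i = v) : tsum Q v = 0 := by
  classical
  unfold tsum
  rw [Finsupp.finsetSum_apply]
  refine Finset.sum_eq_zero fun k _ => ?_
  rw [Finsupp.single_apply, if_neg (fun h => hv ⟨k, h⟩)]

theorem degree_tsum (hFF : IsFF1 Ω FΩ x) {g : ℕ} (Q : Fin g → Place Ω FΩ) :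
    Divisor.degree (tsum Q) = (g : ℤ) := by
  unfold tsum
  rw [map_sum]
  simp only [Divisor.degree_single, hFF.deg_eq_one]
  simp

theorem eq_zero_of_nonneg_of_degree (hFF : IsFF1 Ω FΩ x) {D : Divisor Ω FΩ} (h0 : 0 ≤ D)
    (hd : Divisor.degree D = 0) : D = 0 := by
  rw [hFF.degree_eq_sum] at hd
  have h := (Finset.sum_eq_zero_iff_of_nonneg (fun v _ => Finsupp.le_def.mp h0 v)).1 hd
  ext v
  by_cases hv : v ∈ D.support
  · exact h v hv
  · simpa using hv

/-! ### Lemma 1 -/

/-- **Lemma 1.** If the translates of the sum of a generic tuple under the automorphisms of `Ω`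
over the algebraically closed intermediate field `M` lie in finitely many classes, then the
`x`-values of the tuple lie in `M`. -/
theorem val_mem_of_finite_classes_of [IsAlgClosed Ω] (hF : Frame x rho) {g : ℕ}
    (hC : LemmaC K Ω x g) (M : IntermediateField K Ω) [IsAlgClosed M]
    {P : Fin g → Place Ω FΩ} {t : Fin g → Ω} (hP : IsGeneric K x P t)
    (S : Finset (Divisor Ω FΩ))
    (hS : ∀ σ ∈ M.fixingSubgroup, ∃ B ∈ S, LinEq (rho σ • tsum P) B) : ∀ i, t i ∈ M := by
  intro i
  apply Field.mem_of_finite_orbit' M (t i)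
  set 𝒯 : Set (Divisor Ω FΩ) :=
    {D | ∃ σ ∈ M.fixingSubgroup, D = rho σ • tsum P} with h𝒯
  have h𝒯fin : 𝒯.Finite := by
    have hsub : 𝒯 ⊆ ⋃ B ∈ (S : Set (Divisor Ω FΩ)), {D | D ∈ 𝒯 ∧ LinEq D B} := by
      rintro D ⟨σ, hσ, rfl⟩
      obtain ⟨B, hB, hlin⟩ := hS σ hσ
      exact Set.mem_biUnion hB ⟨⟨σ, hσ, rfl⟩, hlin⟩
    refine (S.finite_toSet.biUnion fun B _ => Set.Subsingleton.finite ?_).subset hsub
    rintro D₁ ⟨⟨σ₁, hσ₁, rfl⟩, h1⟩ D₂ ⟨⟨σ₂, hσ₂, rfl⟩, h2⟩
    have hlin : LinEq (rho σ₁ • tsum P) (rho σ₂ • tsum P) := linEq_trans h1 (linEq_symm h2)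
    rw [rho_smul_tsum, rho_smul_tsum] at hlin ⊢
    exact hC (isGeneric_smul hF hP σ₂) (tsum_nonneg _) hlin
  have hfin : (⋃ D ∈ 𝒯, {y : Ω | ∃ Q ∈ D.support, Val Q x y}).Finite := by
    refine h𝒯fin.biUnion fun D _ => ?_
    have : {y : Ω | ∃ Q ∈ D.support, Val Q x y}
        = ⋃ Q ∈ (D.support : Set (Place Ω FΩ)), {y | Val Q x y} := by
      ext y; simp
    rw [this]
    exact D.support.finite_toSet.biUnion fun Q _ =>
      Set.Subsingleton.finite fun y hy y' hy' => val_unique hy hy'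
  refine hfin.subset ?_
  rintro y ⟨σ, hσ, rfl⟩
  refine Set.mem_biUnion ⟨σ, hσ, rfl⟩ ⟨rho σ • P i, ?_, val_x_smul hF σ (hP.2 i)⟩
  rw [rho_smul_tsum, Finsupp.mem_support_iff]
  exact (tsum_apply_pos (fun k => rho σ • P k) i).ne'

/-! ### Lemma 2 -/

/-- The finite set of (finite) `x`-values of the places in the support of an effective
divisor. -/
theorem exists_valSet (hFF : IsFF1 Ω FΩ x) (E : Divisor Ω FΩ) (hE : 0 ≤ E) :
    ∃ T : Finset Ω, (∀ y, y ∈ T ↔ ∃ Q ∈ E.support, Val Q x y) ∧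
      (T.card : ℤ) ≤ Divisor.degree E := by
  classical
  let jv : Place Ω FΩ → Ω := fun Q => if h : ∃ y, Val Q x y then h.choose else 0
  refine ⟨(E.support.filter (fun Q => ∃ y, Val Q x y)).image jv, fun y => ?_, ?_⟩
  · rw [Finset.mem_image]
    constructor
    · rintro ⟨Q, hQ, rfl⟩
      rw [Finset.mem_filter] at hQ
      refine ⟨Q, hQ.1, ?_⟩
      show Val Q x (if h : ∃ y, Val Q x y then h.choose else 0)
      rw [dif_pos hQ.2]
      exact hQ.2.choose_spec
    · rintro ⟨Q, hQ, hy⟩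
      refine ⟨Q, Finset.mem_filter.mpr ⟨hQ, ⟨y, hy⟩⟩, ?_⟩
      show (if h : ∃ y, Val Q x y then h.choose else 0) = y
      rw [dif_pos ⟨y, hy⟩]
      exact val_unique (Exists.choose_spec (⟨y, hy⟩ : ∃ y, Val Q x y)) hy
  · have h1 : ((E.support.filter (fun Q => ∃ y, Val Q x y)).image jv).card ≤ E.support.card :=
      Finset.card_image_le.trans (Finset.card_filter_le _ _)
    have h2 : (E.support.card : ℤ) ≤ Divisor.degree E := by
      rw [hFF.degree_eq_sum]
      have : (E.support.card : ℤ) = ∑ v ∈ E.support, (1 : ℤ) := by simp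
      rw [this]
      refine Finset.sum_le_sum fun v hv => ?_
      have h3 := Finsupp.le_def.mp hE v
      have h4 := Finsupp.mem_support_iff.mp hv
      rw [Finsupp.coe_zero, Pi.zero_apply] at h3
      omega
    exact_mod_cast (Int.ofNat_le.mpr h1).trans h2

/-- **Lemma 2.** Let `(P, t)` be a generic `g`-tuple and assume the `m`-torsion of `Pic⁰` finite.
Every effective divisor `E` of degree `g` linearly equivalent to `m • ΣP_i + W`, `W` fixed by the
automorphisms of `Ω` over `K`, is again the sum of a generic `g`-tuple. -/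
theorem isGeneric_of_linEq_of [IsAlgClosed Ω] (hF : Frame x rho) {g : ℕ}
    (hsv : RRC.SepHyp x rho) (hsp : SepPole x rho) (hC : LemmaC K Ω x g)
    {P : Fin g → Place Ω FΩ} {t : Fin g → Ω} (hP : IsGeneric K x P t) {m : ℕ}
    (htor : {y : Pic0 Ω FΩ | m • y = 0}.Finite)
    (W E : Divisor Ω FΩ) (hW : ∀ σ : Ω ≃ₐ[K] Ω, rho σ • W = W) (hE : 0 ≤ E)
    (hdeg : Divisor.degree E = (g : ℤ)) (hlin : LinEq E (m • tsum P + W)) :
    ∃ (P' : Fin g → Place Ω FΩ) (t' : Fin g → Ω), IsGeneric K x P' t' ∧ E = tsum P' := by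
  classical
  have hFF := hF.ff
  obtain ⟨T, hT, hTcard⟩ := exists_valSet hFF E hE
  have hTg : T.card ≤ g := by
    have := hTcard.trans hdeg.le
    exact_mod_cast this
  set M' : IntermediateField K Ω := algCl K (T : Set Ω) with hM'
  have hfixQ : ∀ σ ∈ M'.fixingSubgroup, ∀ Q ∈ E.support, rho σ • Q = Q := by
    intro σ hσ Q hQ
    rcases exists_val_or_pole hFF Q x with ⟨y, hy⟩ | hpole
    · exact hsv M' (Field.subset_algCl _ (Finset.mem_coe.mpr ((hT y).mpr ⟨Q, hQ, hy⟩))) hy hσ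
    · exact hsp M' hpole hσ
  have hfixE : ∀ σ ∈ M'.fixingSubgroup, rho σ • E = E := by
    intro σ hσ
    have hsum : E = ∑ Q ∈ E.support, Finsupp.single Q (E Q) := by
      conv_lhs => rw [← Finsupp.sum_single E]
      rfl
    rw [hsum, Finset.smul_sum]
    refine Finset.sum_congr rfl fun Q hQ => ?_
    rw [SemilinearAut.smul_single, hfixQ σ hσ Q (by rw [hsum] at hQ; rw [hsum]; exact hQ)]
  choose R hR using fun y : Pic0 Ω FΩ => Pic0.mk_surjective y
  set S : Finset (Divisor Ω FΩ) :=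
    htor.toFinset.image (fun y => tsum P + (R y : Divisor Ω FΩ)) with hSdef
  have hS : ∀ σ ∈ M'.fixingSubgroup, ∃ B ∈ S, LinEq (rho σ • tsum P) B := by
    intro σ hσ
    have hdeg0 : rho σ • tsum P - tsum P ∈ Divisor.degZero (K := Ω) (F := FΩ) := by
      rw [Divisor.mem_degZero, map_sub, SemilinearAut.degree_smul, sub_self]
    set y : Pic0 Ω FΩ := Pic0.mk ⟨_, hdeg0⟩ with hy
    have hmy : m • y = 0 := by
      have h1 : LinEq (rho σ • E) (rho σ • (m • tsum P + W)) := linEq_smul hlin (rho σ)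
      rw [hfixE σ hσ, smul_add, hW σ, smul_comm (rho σ) m (tsum P)] at h1
      have h2 : LinEq (m • rho σ • tsum P + W) (m • tsum P + W) :=
        linEq_trans (linEq_symm h1) hlin
      have h3 : m • (rho σ • tsum P - tsum P) ∈ Divisor.principal (K := Ω) (F := FΩ) := by
        have : m • (rho σ • tsum P - tsum P)
            = (m • rho σ • tsum P + W) - (m • tsum P + W) := by
          rw [smul_sub]; abel
        rw [this]
        exact h2
      rw [hy]
      show m • (QuotientAddGroup.mk _ : Pic0 Ω FΩ) = 0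
      rw [← QuotientAddGroup.mk_nsmul, QuotientAddGroup.eq_zero_iff]
      exact h3
    refine ⟨tsum P + (R y : Divisor Ω FΩ), ?_, ?_⟩
    · rw [hSdef, Finset.mem_image]
      exact ⟨y, (Set.Finite.mem_toFinset _).mpr hmy, rfl⟩
    · have h4 : Pic0.mk (R y) = Pic0.mk ⟨_, hdeg0⟩ := hR y
      have h5 : (R y : Divisor Ω FΩ) - (rho σ • tsum P - tsum P)
          ∈ Divisor.principal (K := Ω) (F := FΩ) := by
        have h6 := QuotientAddGroup.eq.mp h4.symm
        rw [AddSubgroup.mem_addSubgroupOf] at h6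
        have : (R y : Divisor Ω FΩ) - (rho σ • tsum P - tsum P)
            = ((-(⟨_, hdeg0⟩ : Divisor.degZero (K := Ω) (F := FΩ)) + R y :
                Divisor.degZero (K := Ω) (F := FΩ)) : Divisor Ω FΩ) := by
          push_cast
          abel
        rw [this]
        exact h6
      unfold LinEq
      have : rho σ • tsum P - (tsum P + (R y : Divisor Ω FΩ))
          = -((R y : Divisor Ω FΩ) - (rho σ • tsum P - tsum P)) := by abel
      rw [this]
      exact neg_mem h5
  have htM := val_mem_of_finite_classes_of hF hC M' hP S hS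
  obtain ⟨e, he⟩ := Field.exchange hP.1 T hTg htM
  have hex : ∀ i : Fin g, ∃ Q ∈ E.support, Val Q x (e i : Ω) := fun i => (hT _).mp (e i).2
  choose P' hP'supp hP'val using hex
  refine ⟨P', fun i => (e i : Ω), ⟨he, hP'val⟩, ?_⟩
  have hinj : Function.Injective P' := by
    intro i k hik
    have h1 := hP'val k
    rw [← hik] at h1
    exact e.injective (Subtype.ext (val_unique (hP'val i) h1))
  have hE' : ∀ v, 0 ≤ E v := fun v => Finsupp.le_def.mp hE v
  have hle : tsum P' ≤ E := by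
    refine Finsupp.le_def.mpr fun v => ?_
    by_cases hv : ∃ i, P' i = v
    · obtain ⟨i, rfl⟩ := hv
      rw [tsum_apply_of_injective hinj i]
      have h1 := hE' (P' i)
      have h2 := Finsupp.mem_support_iff.mp (hP'supp i)
      omega
    · rw [tsum_apply_of_notMem hv]
      exact hE' v
  have hzero : E - tsum P' = 0 := by
    apply eq_zero_of_nonneg_of_degree hFF
    · exact sub_nonneg.mpr hle
    · rw [map_sub, hdeg, degree_tsum hFF, sub_self]
  exact sub_eq_zero.mp hzero

/-! ### Closed forms -/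

/-- `Sep.smul_eq_of_val` as `RRC.SepHyp` (no hypothesis on the characteristic). -/
theorem sepHyp [IsAlgClosed Ω] [IsAlgClosed K] (hF : Frame x rho) : RRC.SepHyp x rho :=
  fun M _ _ _ ht hP _ hσ => Sep.smul_eq_of_val hF M ht hP hσ

/-- `Sep.smul_eq_of_pole` as `SepPole`. -/
theorem sepPole [IsAlgClosed Ω] [IsAlgClosed K] (hF : Frame x rho) : SepPole x rho :=
  fun M _ _ hP _ hσ => Sep.smul_eq_of_pole hF M hP hσ

/-- Lemma C from `RRC.eq_tsum_of_linEq_of_sep`. -/
theorem lemmaC_of_sep [IsAlgClosed Ω] (hF : Frame x rho) (hsep : RRC.SepHyp x rho) {g : ℕ}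
    (hg : g ≤ genusFF Ω FΩ) : LemmaC K Ω x g :=
  fun hP _ hE hlin => RRC.eq_tsum_of_linEq_of_sep hF hsep hg hP hE hlin

/-- **Lemma 1**, closed form. -/
theorem val_mem_of_finite_classes [IsAlgClosed Ω] [IsAlgClosed K] (hF : Frame x rho) {g : ℕ}
    (hg : g ≤ genusFF Ω FΩ) (M : IntermediateField K Ω) [IsAlgClosed M]
    {P : Fin g → Place Ω FΩ} {t : Fin g → Ω} (hP : IsGeneric K x P t)
    (S : Finset (Divisor Ω FΩ))
    (hS : ∀ σ ∈ M.fixingSubgroup, ∃ B ∈ S, LinEq (rho σ • tsum P) B) : ∀ i, t i ∈ M :=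
  val_mem_of_finite_classes_of hF (lemmaC_of_sep hF (sepHyp hF) hg) M hP S hS

/-- **Lemma 2**, closed form: for a generic `g`-tuple `(P, t)`, `g ≤ genus`, and `m` with finite
`m`-torsion of `Pic⁰(FΩ)`, every effective divisor of degree `g` linearly equivalent to
`m • ΣP_i + W` (`W` fixed by `Aut(Ω/K)`) is the sum of a generic `g`-tuple. -/
theorem isGeneric_of_linEq [IsAlgClosed Ω] [IsAlgClosed K] (hF : Frame x rho) {g : ℕ}
    (hg : g ≤ genusFF Ω FΩ) {P : Fin g → Place Ω FΩ} {t : Fin g → Ω}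
    (hP : IsGeneric K x P t) {m : ℕ} (htor : {y : Pic0 Ω FΩ | m • y = 0}.Finite)
    (W E : Divisor Ω FΩ) (hW : ∀ σ : Ω ≃ₐ[K] Ω, rho σ • W = W) (hE : 0 ≤ E)
    (hdeg : Divisor.degree E = (g : ℤ)) (hlin : LinEq E (m • tsum P + W)) :
    ∃ (P' : Fin g → Place Ω FΩ) (t' : Fin g → Ω), IsGeneric K x P' t' ∧ E = tsum P' :=
  isGeneric_of_linEq_of hF (sepHyp hF) (sepPole hF) (lemmaC_of_sep hF (sepHyp hF) hg) hP htor
    W E hW hE hdeg hlin

end Fermat.Agent.S27P.Gen.Lemma12
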