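/-
S27 / (GEN), seam (G5) → (G7) (helper77): `DivMain.Lemma2Hyp` (helper86's named hypothesis) from
`Lemma12.isGeneric_of_linEq`, given the finiteness of the `m`-torsion of `Pic⁰(FΩ)`.
-/
import Mathlib
import Fermat.Agent.S27P.Gen.Lemma12
import Fermat.Agent.S27P.Gen.DivMain

set_option autoImplicit false

open AlgebraicCurve

namespace Fermat.Agent.S27P.Gen.Lemma12

open Fermat.Agent.S27P.Gen

variable {K : Type*} {Ω : Type*} {FΩ : Type*} [Field K] [Field Ω] [Algebra K Ω] [Field FΩ]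
  [Algebra Ω FΩ] {x : FΩ} {rho : (Ω ≃ₐ[K] Ω) →* SemilinearAut Ω FΩ}

/-- **Lemma 2 in the consumer shape of (G7)**: if the `m`-torsion of `Pic⁰(FΩ)` is finite, then
`DivMain.Lemma2Hyp x rho m` holds. -/
theorem lemma2Hyp [IsAlgClosed Ω] [IsAlgClosed K] (hF : Frame x rho) {m : ℕ}
    (htor : {y : Pic0 Ω FΩ | m • y = 0}.Finite) : DivMain.Lemma2Hyp x rho m :=
  fun hg _ _ hP W E hW hE hdeg hlin =>
    isGeneric_of_linEq hF hg.le hP htor W E hW hE hdeg hlin

end Fermat.Agent.S27P.Gen.Lemma12
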