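/-
helper19 — S27 / (GEN), brick (G9a): the abstract core of (LIFT_Ω).

Setting: the frame `(Ω ⊇ K, FΩ, x, rho)`, a generic tuple `(P, t)` of `g = genus` places, an
additive map `ρΩ : Pic0 Ω FΩ →+ X` (the reduction map) and a class `A` of "admissible"
automorphisms of `Ω/K` (in the application: those stabilising the valuation ring of `Ω` and
acting trivially on its residue field) under which `ρΩ` is invariant.

`lift_core_of` : if every generic tuple `Q` whose sum has the same image under `ρΩ` as `ΣP` is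
the image of `P` under an admissible automorphism (`hkey`), then every `Γ`-fixed class of degree
zero killed by `ρΩ` is `n` times a class killed by `ρΩ`.

Lemma 2 and the homogeneity of generic tuples enter as the named hypotheses `Lemma2Hyp`,
`HomogHyp` (the literals of `Gen/Lemma12.isGeneric_of_linEq` and
`Gen/Homog.exists_smul_eq_of_isGeneric`); `Gen/Lift.lean` plugs them in.
-/
import Mathlib
import Fermat.Agent.S27P.Gen.RRC

set_option autoImplicit false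
set_option linter.unusedSectionVars false

open AlgebraicCurve

noncomputable section

namespace Fermat.Agent.S27P.Gen.LiftCore

open Fermat.Agent.S27P.Gen Fermat.Agent.Lib.FF Fermat.Agent.S27P.Gen.Values

variable {K : Type*} {Ω : Type*} {FΩ : Type*} [Field K] [Field Ω] [Algebra K Ω] [Field FΩ]
  [Algebra Ω FΩ]

variable {x : FΩ} {rho : (Ω ≃ₐ[K] Ω) →* SemilinearAut Ω FΩ}

/-! ### Classes and linear equivalence -/

theorem mk_eq_mk_iff (D D' : Divisor.degZero (K := Ω) (F := FΩ)) :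
    Pic0.mk D = Pic0.mk D' ↔ LinEq (D : Divisor Ω FΩ) (D' : Divisor Ω FΩ) := by
  unfold Pic0.mk LinEq
  rw [QuotientAddGroup.eq, AddSubgroup.mem_addSubgroupOf]
  have e : ((-D + D' : Divisor.degZero (K := Ω) (F := FΩ)) : Divisor Ω FΩ)
      = -((D : Divisor Ω FΩ) - D') := by
    push_cast
    abel
  rw [e, neg_mem_iff]

theorem mk_nsmul (n : ℕ) (D : Divisor.degZero (K := Ω) (F := FΩ)) :
    n • Pic0.mk D = Pic0.mk (n • D) := rfl

theorem mk_sub (D D' : Divisor.degZero (K := Ω) (F := FΩ)) :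
    Pic0.mk D - Pic0.mk D' = Pic0.mk (D - D') := rfl

/-- Linearly equivalent divisors have the same degree. -/
theorem degree_eq_of_linEq (hFF : IsFF1 Ω FΩ x) {D E : Divisor Ω FΩ} (h : LinEq D E) :
    Divisor.degree D = Divisor.degree E := by
  have := hFF.hasPrincipalDivisors
  obtain ⟨f, hf, hDE⟩ := h
  obtain ⟨D', hD', hdeg⟩ := HasPrincipalDivisors.exists_divisor (K := Ω) f hf
  have heq : D - E = D' := by
    ext v
    rw [hDE v, hD' v]
  have h1 : Divisor.degree (D - E) = 0 := by rw [heq, hdeg]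
  rw [map_sub] at h1
  exact sub_eq_zero.mp h1

/-! ### The two named inputs -/

/-- The statement of **Lemma 2** (`Gen/Lemma12.isGeneric_of_linEq`). -/
def Lemma2Hyp (x : FΩ) (rho : (Ω ≃ₐ[K] Ω) →* SemilinearAut Ω FΩ) : Prop :=
  ∀ (g : ℕ) (P : Fin g → Place Ω FΩ) (t : Fin g → Ω), g = genusFF Ω FΩ → IsGeneric K x P t →
    ∀ (m : ℕ), 0 < m → {y : Pic0 Ω FΩ | m • y = 0}.Finite → ∀ (W E : Divisor Ω FΩ),
      (∀ σ : Ω ≃ₐ[K] Ω, rho σ • W = W) → 0 ≤ E → Divisor.degree E = (g : ℤ) →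
      LinEq E (m • tsum P + W) →
      ∃ (P' : Fin g → Place Ω FΩ) (t' : Fin g → Ω), IsGeneric K x P' t' ∧ E = tsum P'

/-- The statement of **homogeneity** (`Gen/Homog.exists_smul_eq_of_isGeneric`). -/
def HomogHyp (x : FΩ) (rho : (Ω ≃ₐ[K] Ω) →* SemilinearAut Ω FΩ) : Prop :=
  ∀ (g : ℕ) (P P' : Fin g → Place Ω FΩ) (t t' : Fin g → Ω), IsGeneric K x P t →
    IsGeneric K x P' t' → ∃ σ : Ω ≃ₐ[K] Ω, ∀ i, rho σ • P i = P' i

/-! ### The sum of a generic tuple is `n`-divisible up to a multiple of a rational place -/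

/-- For a generic `g`-tuple `P` (`g` the genus), `ΣP_i ~ n • Y - (n - 1) g • P₀` for a divisor `Y`
of degree `g`: the class of `ΣP_i - g • P₀` is `n` times the class of `Y - g • P₀`. -/
theorem exists_nsmul_eq_tsum (hF : Frame x rho) (hL2 : Lemma2Hyp x rho) (hH : HomogHyp x rho)
    {g : ℕ} (hg : g = genusFF Ω FΩ) {P : Fin g → Place Ω FΩ} {t : Fin g → Ω}
    (hP : IsGeneric K x P t) {n : ℕ} (hn : 0 < n) (htor : {y : Pic0 Ω FΩ | n • y = 0}.Finite)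
    (P₀ : Place Ω FΩ) (hP₀ : ∀ σ : Ω ≃ₐ[K] Ω, rho σ • P₀ = P₀) :
    ∃ Y : Divisor Ω FΩ, Divisor.degree Y = (g : ℤ) ∧
      LinEq (tsum P) (n • Y + Finsupp.single P₀ (-(((n : ℤ) - 1) * g))) := by
  have hFF := hF.ff
  set W₁ : Divisor Ω FΩ := Finsupp.single P₀ (-(((n : ℤ) - 1) * g)) with hW₁
  have hW₁fix : ∀ σ : Ω ≃ₐ[K] Ω, rho σ • W₁ = W₁ := fun σ => by
    rw [hW₁, SemilinearAut.smul_single, hP₀ σ]
  have hdeg₁ : Divisor.degree (n • tsum P + W₁) = (genusFF Ω FΩ : ℤ) := by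
    rw [map_add, map_nsmul, RRC.degree_tsum hFF, hW₁, Divisor.degree_single, hFF.deg_eq_one,
      ← hg]
    push_cast
    ring
  obtain ⟨E₁, hE₁, hlin₁⟩ := RRC.exists_effective hFF _ hdeg₁
  have hdegE₁ : Divisor.degree E₁ = (g : ℤ) := by
    rw [degree_eq_of_linEq hFF hlin₁, hdeg₁, hg]
  obtain ⟨Pa, ta, hPa, hE₁eq⟩ := hL2 g P t hg hP n hn htor W₁ E₁ hW₁fix hE₁ hdegE₁ hlin₁
  obtain ⟨σ₁, hσ₁P⟩ := hH g P Pa t ta hP hPa
  have hA : LinEq (rho σ₁ • tsum P) (n • tsum P + W₁) := by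
    rw [rho_smul_tsum, funext hσ₁P, ← hE₁eq]
    exact hlin₁
  refine ⟨rho σ₁⁻¹ • tsum P, ?_, ?_⟩
  · rw [SemilinearAut.degree_smul, RRC.degree_tsum hFF]
  · have h := linEq_smul hA (rho σ₁⁻¹)
    rwa [map_inv, inv_smul_smul, smul_add, ← map_inv, hW₁fix,
      smul_comm (rho σ₁⁻¹) n (tsum P)] at h

/-! ### The core of (LIFT) -/

/-- **(LIFT), abstract core.** -/
theorem lift_core_of (hF : Frame x rho) (hL2 : Lemma2Hyp x rho) (hH : HomogHyp x rho)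
    {X : Type*} [AddCommGroup X] (ρΩ : Pic0 Ω FΩ →+ X)
    {n : ℕ} (hn : 0 < n) (htor : {y : Pic0 Ω FΩ | n • y = 0}.Finite)
    {P : Fin (genusFF Ω FΩ) → Place Ω FΩ} {t : Fin (genusFF Ω FΩ) → Ω}
    (hP : IsGeneric K x P t)
    (A : (Ω ≃ₐ[K] Ω) → Prop)
    (hA : ∀ σ, A σ → ∀ a : Pic0 Ω FΩ, ρΩ (rho σ • a) = ρΩ a)
    (hkey : ∀ (Q : Fin (genusFF Ω FΩ) → Place Ω FΩ) (t' : Fin (genusFF Ω FΩ) → Ω),
      IsGeneric K x Q t' →
      (∀ D' : Divisor.degZero (K := Ω) (F := FΩ), (D' : Divisor Ω FΩ) = tsum Q - tsum P →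
        ρΩ (Pic0.mk D') = 0) →
      ∃ σ, A σ ∧ rho σ • tsum P = tsum Q)
    (D : Divisor.degZero (K := Ω) (F := FΩ))
    (hfix : ∀ σ : Ω ≃ₐ[K] Ω, rho σ • (D : Divisor Ω FΩ) = D)
    (hρ : ρΩ (Pic0.mk D) = 0) :
    ∃ a : Pic0 Ω FΩ, n • a = Pic0.mk D ∧ ρΩ a = 0 := by
  have hFF := hF.ff
  -- the effective divisor `E₂ ~ ΣP + D` is the sum of a generic tuple `Q`
  have hdeg₂ : Divisor.degree (1 • tsum P + (D : Divisor Ω FΩ)) = (genusFF Ω FΩ : ℤ) := by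
    rw [map_add, map_nsmul, RRC.degree_tsum hFF, Divisor.mem_degZero.mp D.2]
    simp
  obtain ⟨E₂, hE₂, hlin₂⟩ := RRC.exists_effective hFF _ hdeg₂
  have hdegE₂ : Divisor.degree E₂ = ((genusFF Ω FΩ : ℕ) : ℤ) := by
    rw [degree_eq_of_linEq hFF hlin₂, hdeg₂]
  have htor1 : {y : Pic0 Ω FΩ | 1 • y = 0}.Finite := by
    refine (Set.finite_singleton (0 : Pic0 Ω FΩ)).subset ?_
    intro y hy
    simpa using hy
  obtain ⟨Q, t', hQ, hE₂eq⟩ :=
    hL2 _ P t rfl hP 1 Nat.one_pos htor1 D E₂ hfix hE₂ hdegE₂ hlin₂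
  rw [one_smul] at hlin₂
  have hB : LinEq (tsum Q) (tsum P + D) := hE₂eq ▸ hlin₂
  have hQP : LinEq (tsum Q - tsum P) (D : Divisor Ω FΩ) := by
    have h := linEq_sub hB (linEq_refl (tsum P))
    rwa [add_sub_cancel_left] at h
  have hcond : ∀ D' : Divisor.degZero (K := Ω) (F := FΩ),
      (D' : Divisor Ω FΩ) = tsum Q - tsum P → ρΩ (Pic0.mk D') = 0 := by
    intro D' hD'
    have : Pic0.mk D' = Pic0.mk D := by
      rw [mk_eq_mk_iff, hD']
      exact hQP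
    rw [this, hρ]
  obtain ⟨σ, hσA, hσ⟩ := hkey Q t' hQ hcond
  obtain ⟨P₀, hP₀⟩ := hF.exists_fixed_place
  obtain ⟨Y, hYdeg, hY⟩ := exists_nsmul_eq_tsum hF hL2 hH rfl hP hn htor P₀ hP₀
  have hsingle : Divisor.degree (Finsupp.single P₀ ((genusFF Ω FΩ : ℕ) : ℤ) : Divisor Ω FΩ)
      = ((genusFF Ω FΩ : ℕ) : ℤ) := by
    rw [Divisor.degree_single, hFF.deg_eq_one]
    simp
  have hY0 : Y - Finsupp.single P₀ ((genusFF Ω FΩ : ℕ) : ℤ)
      ∈ Divisor.degZero (K := Ω) (F := FΩ) := by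
    rw [Divisor.mem_degZero, map_sub, hYdeg, hsingle, sub_self]
  have hT0 : tsum P - Finsupp.single P₀ ((genusFF Ω FΩ : ℕ) : ℤ)
      ∈ Divisor.degZero (K := Ω) (F := FΩ) := by
    rw [Divisor.mem_degZero, map_sub, RRC.degree_tsum hFF, hsingle, sub_self]
  have hQ0 : tsum Q - Finsupp.single P₀ ((genusFF Ω FΩ : ℕ) : ℤ)
      ∈ Divisor.degZero (K := Ω) (F := FΩ) := by
    rw [Divisor.mem_degZero, map_sub, RRC.degree_tsum hFF, hsingle, sub_self]
  set τ : Pic0 Ω FΩ := Pic0.mk ⟨_, hY0⟩ with hτ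
  -- `n • τ = [ΣP - g P₀]`
  have h1 : n • τ = Pic0.mk ⟨_, hT0⟩ := by
    rw [hτ, mk_nsmul, mk_eq_mk_iff]
    have h := linEq_symm
      (linEq_sub hY (linEq_refl (Finsupp.single P₀ ((genusFF Ω FΩ : ℕ) : ℤ))))
    have e : n • Y + Finsupp.single P₀ (-(((n : ℤ) - 1) * (genusFF Ω FΩ : ℕ)))
        - Finsupp.single P₀ ((genusFF Ω FΩ : ℕ) : ℤ)
        = n • (Y - Finsupp.single P₀ ((genusFF Ω FΩ : ℕ) : ℤ)) := by
      classical
      ext v
      simp only [Finsupp.add_apply, Finsupp.sub_apply, Finsupp.smul_apply, Finsupp.single_apply,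
        nsmul_eq_mul]
      split_ifs <;> push_cast <;> ring
    rw [e] at h
    exact h
  -- `σ • [ΣP - g P₀] = [ΣQ - g P₀]`
  have h2 : rho σ • (Pic0.mk ⟨_, hT0⟩ : Pic0 Ω FΩ) = Pic0.mk ⟨_, hQ0⟩ := by
    rw [SemilinearAut.pic0_smul_mk]
    refine congrArg Pic0.mk (Subtype.ext ?_)
    rw [SemilinearAut.coe_degZeroSMulHom]
    show rho σ • (tsum P - Finsupp.single P₀ ((genusFF Ω FΩ : ℕ) : ℤ))
      = tsum Q - Finsupp.single P₀ ((genusFF Ω FΩ : ℕ) : ℤ)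
    rw [smul_sub, hσ, SemilinearAut.smul_single, hP₀ σ]
  have hcomm : rho σ • (n • τ) = n • (rho σ • τ) :=
    map_nsmul (DistribMulAction.toAddMonoidHom (Pic0 Ω FΩ) (rho σ)) n τ
  refine ⟨rho σ • τ - τ, ?_, ?_⟩
  · rw [nsmul_sub, ← hcomm, h1, h2, mk_sub, mk_eq_mk_iff]
    have e : (((⟨_, hQ0⟩ : Divisor.degZero (K := Ω) (F := FΩ)) - ⟨_, hT0⟩ :
        Divisor.degZero (K := Ω) (F := FΩ)) : Divisor Ω FΩ) = tsum Q - tsum P := by
      push_cast
      abel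
    rw [e]
    exact hQP
  · rw [map_sub, hA σ hσA τ, sub_self]

end Fermat.Agent.S27P.Gen.LiftCore
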