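/-
helper19 — S27 / (GEN): the closed forms of the two final literals of the layer (ruling #2).

* `div_Omega` : (DIV_Ω) — the class of an `Aut(Ω/K)`-fixed divisor of degree zero is `n`-divisible
  in `Pic0 Ω FΩ` (given finite `n`-torsion and `g` algebraically independent elements of `Ω/K`);
* `lift_core` : (LIFT_Ω), abstract core — `LiftCore.lift_core_of` with Lemma 2 (`Gen/Lemma12`)
  and homogeneity (`Gen/Homog`) plugged in.

Characteristic-free.
-/
import Mathlib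
import Fermat.Agent.S27P.Gen.LiftCore
import Fermat.Agent.S27P.Gen.Lemma2Hyp
import Fermat.Agent.S27P.Gen.Homog

set_option autoImplicit false
set_option linter.unusedVariables false

open AlgebraicCurve

noncomputable section

namespace Fermat.Agent.S27P.Gen.Lift

open Fermat.Agent.S27P.Gen Fermat.Agent.Lib.FF

variable {K : Type*} {Ω : Type*} {FΩ : Type*} [Field K] [Field Ω] [Algebra K Ω] [Field FΩ]
  [Algebra Ω FΩ]

variable {x : FΩ} {rho : (Ω ≃ₐ[K] Ω) →* SemilinearAut Ω FΩ}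

/-- Lemma 2 in the shape consumed by `LiftCore`. -/
theorem lemma2Hyp [IsAlgClosed Ω] [IsAlgClosed K] (hF : Frame x rho) :
    LiftCore.Lemma2Hyp x rho :=
  fun _ _ _ hg hP _ _ htor W E hW hE hdeg hlin =>
    Lemma12.isGeneric_of_linEq hF hg.le hP htor W E hW hE hdeg hlin

/-- Homogeneity in the shape consumed by `LiftCore`. -/
theorem homogHyp [IsAlgClosed Ω] [IsAlgClosed K] (hF : Frame x rho) :
    LiftCore.HomogHyp x rho :=
  fun _ _ _ _ _ hP hP' => Homog.exists_smul_eq_of_isGeneric hF hP hP'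

/-- The `1`-torsion of any additive group is finite. -/
theorem finite_one_torsion : {y : Pic0 Ω FΩ | 1 • y = 0}.Finite := by
  refine (Set.finite_singleton (0 : Pic0 Ω FΩ)).subset ?_
  intro y hy
  simpa using hy

/-- **(DIV_Ω)** — final literal #1 of (GEN): the class of an `Aut(Ω/K)`-fixed divisor of degree
zero is divisible by `n` in `Pic0 Ω FΩ`. -/
theorem div_Omega [IsAlgClosed Ω] [IsAlgClosed K] (hF : Frame x rho)
    (hgen : ∃ t : Fin (genusFF Ω FΩ) → Ω, AlgebraicIndependent K t)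
    {n : ℕ} (hn : 0 < n) (htor : {y : Pic0 Ω FΩ | n • y = 0}.Finite)
    (D : Divisor.degZero (K := Ω) (F := FΩ))
    (hfix : ∀ σ : Ω ≃ₐ[K] Ω, rho σ • (D : Divisor Ω FΩ) = D) :
    ∃ a : Pic0 Ω FΩ, n • a = Pic0.mk D :=
  DivMain.exists_nsmul_eq_mk hF (Lemma12.lemma2Hyp hF htor)
    (Lemma12.lemma2Hyp hF finite_one_torsion) (Homog.homogHyp hF) hgen D hfix

/-- **(LIFT_Ω), abstract core** — first half of final literal #2 of (GEN). -/
theorem lift_core [IsAlgClosed Ω] [IsAlgClosed K] (hF : Frame x rho)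
    {X : Type*} [AddCommGroup X] (ρΩ : Pic0 Ω FΩ →+ X)
    {n : ℕ} (hn : 0 < n) (htor : {y : Pic0 Ω FΩ | n • y = 0}.Finite)
    {P : Fin (genusFF Ω FΩ) → Place Ω FΩ} {t : Fin (genusFF Ω FΩ) → Ω}
    (hP : IsGeneric K x P t)
    (A : (Ω ≃ₐ[K] Ω) → Prop)
    (hA : ∀ σ, A σ → ∀ a : Pic0 Ω FΩ, ρΩ (rho σ • a) = ρΩ a)
    (hkey : ∀ (Q : Fin (genusFF Ω FΩ) → Place Ω FΩ) (t' : Fin (genusFF Ω FΩ) → Ω),
      IsGeneric K x Q t' →
      (∀ D' : Divisor.degZero (K := Ω) (F := FΩ), (D' : Divisor Ω FΩ) = tsum Q - tsum P →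
        ρΩ (Pic0.mk D') = 0) →
      ∃ σ, A σ ∧ rho σ • tsum P = tsum Q)
    (D : Divisor.degZero (K := Ω) (F := FΩ))
    (hfix : ∀ σ : Ω ≃ₐ[K] Ω, rho σ • (D : Divisor Ω FΩ) = D)
    (hρ : ρΩ (Pic0.mk D) = 0) :
    ∃ a : Pic0 Ω FΩ, n • a = Pic0.mk D ∧ ρΩ a = 0 :=
  LiftCore.lift_core_of hF (lemma2Hyp hF) (homogHyp hF) ρΩ hn htor hP A hA hkey D hfix hρ

end Fermat.Agent.S27P.Gen.Lift
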