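/-
S27 / (GEN), row (G1) (helper77): automorphisms of an algebraically closed field `Ω` over a
subfield `K` — extension of partial isomorphisms.  Mathlib only (plus the DIV files
`MW/Div/AutField`, `MW/Div/AutGroup` for the finite-orbit facts), universe-polymorphic,
characteristic-free.

* `exists_algEquiv_extend` : an isomorphism `e : E ≃ₐ[K] E'` between intermediate fields over
  which `Ω` is algebraic extends to an automorphism of `Ω / K`;
* `exists_algEquiv_comp_eq_of_trdeg_lt` : if `L / K` has finite transcendence degree, any two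
  `K`-embeddings `φ φ' : L →ₐ[K] Ω` are conjugate under `Aut(Ω / K)` (no countability
  hypothesis: the complements of `φ L`, `φ' L` in `Ω` have the same transcendence degree);
* `exists_algEquiv_extend_of_trdeg_lt` : the intermediate-field form of the latter;
* `exists_algEquiv_of_algebraicIndependent` : two algebraically independent families
  `t t' : ι → Ω` (`ι` finite) are conjugate under `Aut(Ω / K)`;
* `algebraicIndependent_of_isAlgebraic_adjoin` : **exchange** — if `t : ι → Ω` is algebraically
  independent over `K`, `ι` finite, and every `t i` is algebraic over `K[s]` for a family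
  `s : ι → Ω`, then `s` is algebraically independent over `K`.
-/
import Mathlib
import Fermat.Agent.MW.Div.AutGroup

set_option autoImplicit false

namespace Fermat.Agent.S27P.Gen.AutExt

open Cardinal Fermat.Agent.MW.Div

/-! ### Algebraic case -/

/-- An isomorphism between two intermediate fields over which the algebraically closed field `Ω`
is algebraic extends to an automorphism of `Ω` over the base. -/
theorem exists_algEquiv_extend {K Ω : Type*} [Field K] [Field Ω] [Algebra K Ω] [IsAlgClosed Ω]
    (E E' : IntermediateField K Ω) (hE : Algebra.IsAlgebraic E Ω)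
    (hE' : Algebra.IsAlgebraic E' Ω) (e : E ≃ₐ[K] E') :
    ∃ σ : Ω ≃ₐ[K] Ω, ∀ y : E, σ (y : Ω) = (e y : Ω) := by
  have : IsAlgClosure E Ω := ⟨inferInstance, hE⟩
  have : IsAlgClosure E' Ω := ⟨inferInstance, hE'⟩
  let σ₀ : Ω ≃+* Ω := IsAlgClosure.equivOfEquiv Ω Ω e.toRingEquiv
  have hσ₀ : ∀ s : E, σ₀ (algebraMap E Ω s) = algebraMap E' Ω (e s) :=
    fun s => IsAlgClosure.equivOfEquiv_algebraMap Ω Ω e.toRingEquiv s
  refine ⟨AlgEquiv.ofRingEquiv (f := σ₀) (fun r => ?_), fun y => hσ₀ y⟩
  have h1 : algebraMap K Ω r = algebraMap E Ω (algebraMap K E r) := rfl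
  rw [h1, hσ₀, e.commutes]
  rfl

/-! ### Finite transcendence degree -/

/-- **Conjugacy of embeddings.**  If `L / K` has finite transcendence degree, any two
`K`-embeddings of `L` into an algebraically closed field `Ω` are conjugate under `Aut(Ω / K)`. -/
theorem exists_algEquiv_comp_eq_of_trdeg_lt {K L Ω : Type*} [Field K] [Field L] [Field Ω]
    [Algebra K L] [Algebra K Ω] [IsAlgClosed Ω] (hL : Algebra.trdeg K L < ℵ₀)
    (φ φ' : L →ₐ[K] Ω) : ∃ σ : Ω ≃ₐ[K] Ω, ∀ y, σ (φ y) = φ' y := by
  let a1 : Algebra L Ω := φ.toRingHom.toAlgebra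
  let a2 : Algebra L Ω := φ'.toRingHom.toAlgebra
  have f1 : @FaithfulSMul L Ω a1.toSMul :=
    (@faithfulSMul_iff_algebraMap_injective L Ω _ _ a1).mpr φ.toRingHom.injective
  have f2 : @FaithfulSMul L Ω a2.toSMul :=
    (@faithfulSMul_iff_algebraMap_injective L Ω _ _ a2).mpr φ'.toRingHom.injective
  have t1 : @IsScalarTower K L Ω _ a1.toSMul _ :=
    @IsScalarTower.of_algebraMap_eq K L Ω _ _ _ _ a1 _ (fun k => (φ.commutes k).symm)
  have t2 : @IsScalarTower K L Ω _ a2.toSMul _ :=
    @IsScalarTower.of_algebraMap_eq K L Ω _ _ _ _ a2 _ (fun k => (φ'.commutes k).symm)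
  obtain ⟨ι, v, hv⟩ := @exists_isTranscendenceBasis' L Ω _ _ a1 f1
  obtain ⟨κ, w, hw⟩ := @exists_isTranscendenceBasis' L Ω _ _ a2 f2
  have c1 := @lift_trdeg_add_eq K L Ω _ _ _ _ _ a1 t1 _ _ _ f1
  have c2 := @lift_trdeg_add_eq K L Ω _ _ _ _ _ a2 t2 _ _ _ f2
  rw [← @IsTranscendenceBasis.cardinalMk_eq_trdeg L Ω _ _ a1 _ _ ι v hv] at c1
  rw [← @IsTranscendenceBasis.cardinalMk_eq_trdeg L Ω _ _ a2 _ _ κ w hw] at c2
  have hfin : lift.{u_3} (Algebra.trdeg K L) < ℵ₀ := by
    rw [Cardinal.lift_lt_aleph0]
    exact hL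
  have hcard : #ι = #κ :=
    Cardinal.lift_injective (Cardinal.eq_of_add_eq_add_left (c1.trans c2.symm) hfin)
  obtain ⟨e⟩ := Cardinal.eq.1 hcard
  obtain ⟨σ, -⟩ :=
    @AutField.exists_algEquiv_of_isTranscendenceBasis L Ω Ω _ _ _ a1 a2 _ _ ι κ v w e hv hw
  have hσ : ∀ y, σ (φ y) = φ' y := fun y => @AlgEquiv.commutes L Ω Ω _ _ _ a1 a2 σ y
  refine ⟨AlgEquiv.ofRingEquiv (f := (@AlgEquiv.toRingEquiv L Ω Ω _ _ _ a1 a2 σ)) (fun k => ?_),
    hσ⟩
  have h1 : algebraMap K Ω k = φ (algebraMap K L k) := (φ.commutes k).symm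
  have h2 : algebraMap K Ω k = φ' (algebraMap K L k) := (φ'.commutes k).symm
  show σ (algebraMap K Ω k) = algebraMap K Ω k
  rw [h1, hσ, ← h2, h1]

/-- The intermediate-field form: an isomorphism `e : E ≃ₐ[K] E'` of intermediate fields of
`Ω / K`, with `E / K` of finite transcendence degree, extends to an automorphism of `Ω / K`. -/
theorem exists_algEquiv_extend_of_trdeg_lt {K Ω : Type*} [Field K] [Field Ω] [Algebra K Ω]
    [IsAlgClosed Ω] (E E' : IntermediateField K Ω) (hE : Algebra.trdeg K E < ℵ₀)
    (e : E ≃ₐ[K] E') : ∃ σ : Ω ≃ₐ[K] Ω, ∀ y : E, σ (y : Ω) = (e y : Ω) := by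
  obtain ⟨σ, hσ⟩ := exists_algEquiv_comp_eq_of_trdeg_lt hE E.val (E'.val.comp e.toAlgHom)
  exact ⟨σ, fun y => hσ y⟩

/-- **Conjugacy of algebraically independent tuples.**  Two algebraically independent families
indexed by the same finite type are conjugate under `Aut(Ω / K)`. -/
theorem exists_algEquiv_of_algebraicIndependent {K Ω : Type*} [Field K] [Field Ω] [Algebra K Ω]
    [IsAlgClosed Ω] {ι : Type*} [Finite ι] {t t' : ι → Ω} (ht : AlgebraicIndependent K t)
    (ht' : AlgebraicIndependent K t') : ∃ σ : Ω ≃ₐ[K] Ω, ∀ i, σ (t i) = t' i := by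
  have h1 := algebraicIndependent_iff_injective_aeval.1 ht
  have h2 := algebraicIndependent_iff_injective_aeval.1 ht'
  obtain ⟨σ, hσ⟩ := exists_algEquiv_comp_eq_of_trdeg_lt
    (trdeg_lt_aleph0 K (FractionRing (MvPolynomial ι K)))
    (IsFractionRing.liftAlgHom (K := FractionRing (MvPolynomial ι K)) h1)
    (IsFractionRing.liftAlgHom (K := FractionRing (MvPolynomial ι K)) h2)
  refine ⟨σ, fun i => ?_⟩
  have h := hσ (algebraMap (MvPolynomial ι K) _ (MvPolynomial.X i))
  rw [IsFractionRing.liftAlgHom_apply, IsFractionRing.liftAlgHom_apply] at h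
  erw [IsFractionRing.lift_algebraMap, IsFractionRing.lift_algebraMap] at h
  simpa using h

/-! ### Exchange -/

/-- **Exchange.**  If `t : ι → Ω` is algebraically independent over `K` and every `t i` is
algebraic over `K[s]` for a family `s : κ → Ω` with at most as many members, then `s` is
algebraically independent over `K`. -/
theorem algebraicIndependent_of_isAlgebraic_adjoin {K Ω : Type*} [Field K] [Field Ω]
    [Algebra K Ω] {ι κ : Type*} [Finite ι] [Finite κ] (hcard : Nat.card κ ≤ Nat.card ι)
    {t : ι → Ω} {s : κ → Ω} (ht : AlgebraicIndependent K t)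
    (halg : ∀ i, IsAlgebraic (Algebra.adjoin K (Set.range s)) (t i)) :
    AlgebraicIndependent K s := by
  classical
  set M := AlgebraicIndependent.matroid K Ω with hM
  have hI : M.Indep (Set.range t) :=
    AlgebraicIndependent.matroid_indep_iff.mpr ht.to_subtype_range
  have hsub : Set.range t ⊆ M.closure (Set.range s) := by
    rw [hM, AlgebraicIndependent.matroid_closure_eq]
    rintro _ ⟨i, rfl⟩
    exact (Subalgebra.mem_algebraicClosure _ _).mpr (halg i)
  have h1 : ENat.card ι ≤ (Set.range t).encard := ht.injective.encard_range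
  have h2 : (Set.range t).encard ≤ M.eRk (Set.range s) := by
    rw [← M.eRk_closure_eq]
    exact hI.encard_le_eRk_of_subset hsub
  have h3 : M.eRk (Set.range s) ≤ (Set.range s).encard := M.eRk_le_encard _
  have h4 : (Set.range s).encard ≤ ENat.card κ := by
    rw [← Set.image_univ]
    exact (Set.encard_image_le s _).trans (Set.encard_univ κ).le
  have h5 : ENat.card κ ≤ ENat.card ι := by
    rw [ENat.card_eq_coe_natCard, ENat.card_eq_coe_natCard]
    exact_mod_cast hcard
  have e1 : M.eRk (Set.range s) = (Set.range s).encard :=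
    le_antisymm h3 (h4.trans (h5.trans (h1.trans h2)))
  have e2 : (Set.range s).encard = ENat.card κ :=
    le_antisymm h4 (h5.trans (h1.trans (h2.trans h3)))
  have hind : M.Indep (Set.range s) :=
    (Matroid.indep_iff_eRk_eq_encard_of_finite (Set.finite_range s)).mpr e1
  have hinj : Function.Injective s := by
    have hle : Nat.card κ ≤ Nat.card (Set.range s) := by
      rw [Nat.card_coe_set_eq]
      have h : ((Set.range s).ncard : ℕ∞) = (Nat.card κ : ℕ∞) := by
        rw [(Set.finite_range s).cast_ncard_eq, e2, ENat.card_eq_coe_natCard]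
      exact_mod_cast h.ge
    have hb := (Set.rangeFactorization_surjective (f := s)).bijective_of_nat_card_le hle
    intro a b hab
    exact hb.1 (Subtype.ext hab)
  exact (algebraicIndependent_subtype_range hinj).mp
    (AlgebraicIndependent.matroid_indep_iff.mp hind)

/-! ### Finite orbits, over an arbitrary base -/

/-- An element of the algebraically closed field `Ω` with finite orbit under `Aut(Ω / M)` is
algebraic over `M` (`M` an arbitrary subfield; any characteristic). -/
theorem isAlgebraic_of_finite_orbit {M Ω : Type*} [Field M] [Field Ω] [Algebra M Ω]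
    [IsAlgClosed Ω] (x : Ω) (h : (Set.range fun σ : Ω ≃ₐ[M] Ω => σ x).Finite) :
    IsAlgebraic M x := by
  by_contra htr
  have htr' : Transcendental M x := htr
  have hinjx : Function.Injective (Polynomial.aeval x : Polynomial M →ₐ[M] Ω) :=
    transcendental_iff_injective.mp htr'
  have hinj : Function.Injective (fun n : ℕ => x ^ (n + 1)) := by
    intro n m hnm
    have h1 : Polynomial.aeval x (Polynomial.X ^ (n + 1) : Polynomial M) =
        Polynomial.aeval x (Polynomial.X ^ (m + 1) : Polynomial M) := by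
      simpa using hnm
    have h2 := hinjx h1
    have h3 := congrArg Polynomial.natDegree h2
    rw [Polynomial.natDegree_X_pow, Polynomial.natDegree_X_pow] at h3
    omega
  have hmem : ∀ n : ℕ, x ^ (n + 1) ∈ Set.range fun σ : Ω ≃ₐ[M] Ω => σ x := by
    intro n
    have ht : AlgebraicIndependent M (fun _ : Unit => x) :=
      (algebraicIndependent_unique_type_iff (ι := Unit)).mpr htr'
    have ht' : AlgebraicIndependent M (fun _ : Unit => x ^ (n + 1)) :=
      (algebraicIndependent_unique_type_iff (ι := Unit)).mpr (htr'.pow (Nat.succ_pos n))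
    obtain ⟨σ, hσ⟩ := exists_algEquiv_of_algebraicIndependent ht ht'
    exact ⟨σ, hσ ()⟩
  exact Set.infinite_of_injective_forall_mem hinj hmem h

/-- The intermediate-field form: finite orbit under the automorphisms of `Ω / K` fixing `M`
pointwise implies algebraic over `M`. -/
theorem isAlgebraic_of_finite_orbit_fixing {K Ω : Type*} [Field K] [Field Ω] [Algebra K Ω]
    [IsAlgClosed Ω] (M : IntermediateField K Ω) (x : Ω)
    (h : {y | ∃ σ : Ω ≃ₐ[K] Ω, (∀ m ∈ M, σ m = m) ∧ σ x = y}.Finite) : IsAlgebraic M x := by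
  refine isAlgebraic_of_finite_orbit x (h.subset ?_)
  rintro _ ⟨τ, rfl⟩
  exact ⟨τ.restrictScalars K, fun m hm => τ.commutes ⟨m, hm⟩, rfl⟩

end Fermat.Agent.S27P.Gen.AutExt
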