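/-
S27 / (GEN), row (G1) (helper77): the conjugacy of embeddings in the literal consumed by
`Gen/Field` (helper19, ruling (GEN) #1): the ambient field `C / M` has finite transcendence
degree.  Corollary of `AutExt.exists_algEquiv_comp_eq_of_trdeg_lt`.
-/
import Mathlib
import Fermat.Agent.S27P.Gen.AutExt

set_option autoImplicit false

namespace Fermat.Agent.S27P.Gen.AutExt

open Cardinal

/-- If `C / M` has finite transcendence degree, `C` algebraically closed, any two
`M`-embeddings of a field `L` into `C` are conjugate under `Aut(C / M)`. -/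
theorem exists_algEquiv_comp_eq_of_trdeg_top_lt {M L C : Type*} [Field M] [Field L] [Field C]
    [Algebra M L] [Algebra M C] [IsAlgClosed C] (h : Algebra.trdeg M C < ℵ₀)
    (φ ψ : L →ₐ[M] C) : ∃ σ : C ≃ₐ[M] C, ∀ y, σ (φ y) = ψ y := by
  refine exists_algEquiv_comp_eq_of_trdeg_lt ?_ φ ψ
  have h1 := lift_trdeg_le_of_injective φ φ.toRingHom.injective
  have h2 : Cardinal.lift.{u_3} (Algebra.trdeg M L) < ℵ₀ :=
    lt_of_le_of_lt h1 (Cardinal.lift_lt_aleph0.mpr h)
  exact Cardinal.lift_lt_aleph0.mp h2

/-- The same for two algebraically closed fields `M ⊆ C` and the group `Aut(C / M)`; the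
transcendence degree of `C / M` may be infinite provided `L / M` has finite transcendence
degree. (Restatement of `exists_algEquiv_comp_eq_of_trdeg_lt` for reference.) -/
theorem exists_algEquiv_comp_eq_of_finTrdeg {M L C : Type*} [Field M] [Field L] [Field C]
    [Algebra M L] [Algebra M C] [IsAlgClosed C] [FinTrdeg M L]
    (φ ψ : L →ₐ[M] C) : ∃ σ : C ≃ₐ[M] C, ∀ y, σ (φ y) = ψ y :=
  exists_algEquiv_comp_eq_of_trdeg_lt (trdeg_lt_aleph0 M L) φ ψ

end Fermat.Agent.S27P.Gen.AutExt
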