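/-
S27 / (GEN), row (G10) of helper19's ruling #2 — JOINT INDEPENDENCE (helper61).

On the abstract Frame `(Ω ⊇ K, FΩ, rho, x)` (characteristic-free): if `b j` are `K`-rational
functions, linearly independent over `K`, and `P` is a generic tuple of places with
`Val (P i) (b j) (c i j)`, then the products `∏ i, c i (φ i)` (`φ : Fin g → J`) are linearly
independent over `K`.

* `ord_eq_zero_of_isRat` : (P5) a nonzero `M`-rational function is a unit at every `M`-generic
  place (`M` algebraically closed);
* `sum_eq_zero_of_isRat` / `linearIndependent_of_isRat` : `K`-independent `K`-rational functions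
  are `Ω`-independent (Galois descent with `Ω^{Aut(Ω/K)} = K`);
* `val_mem_of_val_mem` : the values of `M`-rational functions at a place with `x`-value in `M`
  lie in `M`;
* `linearIndependent_val_of_not_mem` : the values at ONE `M`-generic place of `K`-independent
  `K`-rational functions are linearly independent over `M`;
* `linearIndependent_prod_val` : the theorem (induction over the tuple, tower lemma
  `linearIndependent_smul`).
-/
import Mathlib
import Fermat.Agent.S27P.Gen.Defs
import Fermat.Agent.S27P.Gen.Values
import Fermat.Agent.S27P.Gen.Field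
import Fermat.Agent.S27P.Gen.Sep
import Fermat.Agent.S27P.BC.FixedField

set_option autoImplicit false

open AlgebraicCurve

noncomputable section

namespace Fermat.Agent.S27P.Gen.JI

open Fermat.Agent.S27P.Gen Fermat.Agent.Lib.FF Fermat.Agent.S27P.Gen.Values

variable {K : Type*} {Ω : Type*} {FΩ : Type*} [Field K] [Field Ω] [Algebra K Ω] [Field FΩ]
  [Algebra Ω FΩ]

variable {x : FΩ} {rho : (Ω ≃ₐ[K] Ω) →* SemilinearAut Ω FΩ}

/-! ### Rationality calculus -/

theorem isRat_mul {M : IntermediateField K Ω} {f f' : FΩ} (hf : IsRat rho M f)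
    (hf' : IsRat rho M f') : IsRat rho M (f * f') := fun σ hσ => by
  rw [smul_mul', hf σ hσ, hf' σ hσ]

theorem isRat_zero (M : IntermediateField K Ω) : IsRat rho M (0 : FΩ) := fun σ _ => by
  rw [smul_zero]

theorem isRat_add {M : IntermediateField K Ω} {f f' : FΩ} (hf : IsRat rho M f)
    (hf' : IsRat rho M f') : IsRat rho M (f + f') := fun σ hσ => by
  rw [smul_add, hf σ hσ, hf' σ hσ]

theorem isRat_sum {M : IntermediateField K Ω} {ι : Type*} (s : Finset ι) (f : ι → FΩ)
    (hf : ∀ i ∈ s, IsRat rho M (f i)) : IsRat rho M (∑ i ∈ s, f i) := fun σ hσ => by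
  rw [Finset.smul_sum]
  exact Finset.sum_congr rfl fun i hi => hf i hi σ hσ

/-- Every automorphism of `Ω/K` lies in the fixing subgroup of `⊥`. -/
theorem mem_fixingSubgroup_bot (σ : Ω ≃ₐ[K] Ω) :
    σ ∈ (⊥ : IntermediateField K Ω).fixingSubgroup := by
  rw [IntermediateField.mem_fixingSubgroup_iff]
  intro y hy
  rw [IntermediateField.mem_bot] at hy
  obtain ⟨a, rfl⟩ := hy
  exact σ.commutes a

theorem smul_eq_of_isRat_bot {f : FΩ} (hf : IsRat rho ⊥ f) (σ : Ω ≃ₐ[K] Ω) : rho σ • f = f :=
  hf σ (mem_fixingSubgroup_bot σ)

/-! ### The value calculus for finite sums -/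

theorem val_sum {P : Place Ω FΩ} {ι : Type*} (s : Finset ι) (f : ι → FΩ) (a : ι → Ω)
    (h : ∀ i ∈ s, Val P (f i) (a i)) : Val P (∑ i ∈ s, f i) (∑ i ∈ s, a i) := by
  classical
  induction s using Finset.induction_on with
  | empty => simpa using val_zero P
  | insert i s hi ih =>
    rw [Finset.sum_insert hi, Finset.sum_insert hi]
    exact val_add (h i (Finset.mem_insert_self i s))
      (ih fun j hj => h j (Finset.mem_insert_of_mem hj))

/-! ### (P5): rational functions are units at generic places -/

/-- **(P5)** A nonzero `M`-rational function has neither a zero nor a pole at a place whose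
`x`-value is not in the algebraically closed field `M`. -/
theorem ord_eq_zero_of_isRat [IsAlgClosed Ω] (hF : Frame x rho) (M : IntermediateField K Ω)
    [IsAlgClosed M] {f : FΩ} (hf : IsRat rho M f) (hf0 : f ≠ 0) {P : Place Ω FΩ} {t : Ω}
    (hP : Val P x t) (ht : t ∉ M) : P.ord f = 0 := by
  by_contra hne
  apply ht
  refine Sep.val_mem_of_orbit_subset hF M (isRat_x hF M) hP {Q | Q.ord f ≠ 0}
    (finite_ord_ne_zero hF.ff hf0) (fun σ hσ => ?_)
  show (rho σ • P).ord f ≠ 0
  have h1 := SemilinearAut.ord_smul (rho σ) P f
  rw [hf σ hσ] at h1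
  rw [h1]
  exact hne

/-- The value at such a place of a nonzero `M`-rational function is nonzero. -/
theorem eq_zero_of_val_zero [IsAlgClosed Ω] (hF : Frame x rho) (M : IntermediateField K Ω)
    [IsAlgClosed M] {f : FΩ} (hf : IsRat rho M f) {P : Place Ω FΩ} {t : Ω}
    (hP : Val P x t) (ht : t ∉ M) (h0 : Val P f 0) : f = 0 := by
  by_contra hf0
  have h1 := ord_eq_zero_of_isRat hF M hf hf0 hP ht
  rcases val_zero_iff.mp h0 with h | h
  · exact hf0 h
  · omega

/-! ### Rational functions independent over `K` are independent over `Ω` -/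

/-- **Descent of linear relations**: `K`-rational functions which are linearly independent over
`K` satisfy no nontrivial linear relation with coefficients in `Ω`. -/
theorem sum_eq_zero_of_isRat [IsAlgClosed Ω] [IsAlgClosed K] (hF : Frame x rho) {J : Type*}
    (b : J → FΩ) (hbrat : ∀ j, IsRat rho ⊥ (b j))
    (hbind : ∀ lam : J →₀ K,
      (lam.sum fun j a => algebraMap Ω FΩ (algebraMap K Ω a) * b j) = 0 → lam = 0)
    (s : Finset J) : ∀ ω : J → Ω, ∑ j ∈ s, algebraMap Ω FΩ (ω j) * b j = 0 →
      ∀ j ∈ s, ω j = 0 := by
  classical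
  induction s using Finset.strongInduction with
  | H s ih =>
    intro ω hsum j₀ hj₀
    by_contra hne
    -- normalise the coefficient at `j₀`
    set ω' : J → Ω := fun j => ω j / ω j₀ with hω'
    have hω'1 : ω' j₀ = 1 := by rw [hω']; exact div_self hne
    have hsum' : ∑ j ∈ s, algebraMap Ω FΩ (ω' j) * b j = 0 := by
      have h1 : ∑ j ∈ s, algebraMap Ω FΩ (ω' j) * b j =
          algebraMap Ω FΩ (ω j₀)⁻¹ * ∑ j ∈ s, algebraMap Ω FΩ (ω j) * b j := by
        rw [Finset.mul_sum]
        refine Finset.sum_congr rfl fun j _ => ?_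
        show algebraMap Ω FΩ (ω j / ω j₀) * b j = _
        rw [div_eq_mul_inv, map_mul]
        ring
      rw [h1, hsum, mul_zero]
    -- the normalised coefficients are fixed by every automorphism
    have hfix : ∀ σ : Ω ≃ₐ[K] Ω, ∀ j ∈ s, σ (ω' j) = ω' j := by
      intro σ
      have h2 : ∑ j ∈ s, algebraMap Ω FΩ (σ (ω' j)) * b j = 0 := by
        have h3 := congrArg (fun f => rho σ • f) hsum'
        simp only [smul_zero, Finset.smul_sum, smul_mul'] at h3
        rw [← h3]
        refine Finset.sum_congr rfl fun j _ => ?_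
        rw [hF.smul_algebraMap, smul_eq_of_isRat_bot (hbrat j) σ]
      have h4 : ∑ j ∈ s.erase j₀, algebraMap Ω FΩ (σ (ω' j) - ω' j) * b j = 0 := by
        have h5 : ∑ j ∈ s, algebraMap Ω FΩ (σ (ω' j) - ω' j) * b j = 0 := by
          have h6 : ∑ j ∈ s, algebraMap Ω FΩ (σ (ω' j) - ω' j) * b j =
              ∑ j ∈ s, algebraMap Ω FΩ (σ (ω' j)) * b j -
                ∑ j ∈ s, algebraMap Ω FΩ (ω' j) * b j := by
            rw [← Finset.sum_sub_distrib]
            refine Finset.sum_congr rfl fun j _ => ?_
            rw [map_sub]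
            ring
          rw [h6, h2, hsum', sub_zero]
        rw [← Finset.add_sum_erase s _ hj₀, hω'1, map_one, sub_self, map_zero, zero_mul,
          zero_add] at h5
        exact h5
      have h7 := ih (s.erase j₀) (Finset.erase_ssubset hj₀) (fun j => σ (ω' j) - ω' j) h4
      intro j hj
      rcases eq_or_ne j j₀ with rfl | hjne
      · rw [hω'1, map_one]
      · exact sub_eq_zero.mp (h7 j (Finset.mem_erase.mpr ⟨hjne, hj⟩))
    -- hence they lie in `K`
    have hK : ∀ j, ∃ κ : K, j ∈ s → algebraMap K Ω κ = ω' j := by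
      intro j
      by_cases hj : j ∈ s
      · obtain ⟨κ, hκ⟩ := Fermat.Agent.S27P.BC.FixedField.mem_range_of_fixed
          (K := K) (c := ω' j) (fun σ => hfix σ j hj)
        exact ⟨κ, fun _ => hκ⟩
      · exact ⟨0, fun h => absurd h hj⟩
    choose κ hκ using hK
    set lam : J →₀ K := Finsupp.onFinset s (fun j => if j ∈ s then κ j else 0)
      (fun j hj => by
        by_contra hjs
        exact hj (if_neg hjs)) with hlam
    have hlam_apply : ∀ j ∈ s, lam j = κ j := by
      intro j hj
      rw [hlam, Finsupp.onFinset_apply, if_pos hj]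
    have hlamsum : (lam.sum fun j a => algebraMap Ω FΩ (algebraMap K Ω a) * b j) = 0 := by
      rw [Finsupp.sum_of_support_subset lam (Finsupp.support_onFinset_subset) _
        (fun j _ => by rw [map_zero, map_zero, zero_mul])]
      rw [← hsum']
      refine Finset.sum_congr rfl fun j hj => ?_
      rw [hlam_apply j hj, hκ j hj]
    have hlam0 := hbind lam hlamsum
    have h8 : κ j₀ = 0 := by
      rw [← hlam_apply j₀ hj₀, hlam0, Finsupp.zero_apply]
    have h9 := hκ j₀ hj₀
    rw [h8, map_zero, hω'1] at h9
    exact zero_ne_one h9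

/-! ### Values at places with `x`-value in `M` -/

/-- The value of an `M`-rational function at a place whose `x`-value lies in the algebraically
closed field `M` lies in `M`. -/
theorem val_mem_of_val_mem [IsAlgClosed Ω] [IsAlgClosed K] (hF : Frame x rho)
    (M : IntermediateField K Ω) [IsAlgClosed M] {P : Place Ω FΩ} {t : Ω} (hP : Val P x t)
    (ht : t ∈ M) {f : FΩ} (hf : IsRat rho M f) {c : Ω} (hc : Val P f c) : c ∈ M := by
  refine Sep.val_mem_of_orbit_subset hF M hf hc {P} (Set.finite_singleton P) (fun σ hσ => ?_)
  rw [Sep.smul_eq_of_val hF M ht hP hσ]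
  exact Set.mem_singleton P

/-! ### One generic place -/

/-- **One place**: the values at an `M`-generic place of `K`-independent `K`-rational functions
are linearly independent over `M`. -/
theorem linearIndependent_val_of_not_mem [IsAlgClosed Ω] [IsAlgClosed K] (hF : Frame x rho)
    (M : IntermediateField K Ω) [IsAlgClosed M] {P : Place Ω FΩ} {t : Ω} (hP : Val P x t)
    (ht : t ∉ M) {J : Type*} (b : J → FΩ) (hbrat : ∀ j, IsRat rho ⊥ (b j))
    (hbind : ∀ lam : J →₀ K,
      (lam.sum fun j a => algebraMap Ω FΩ (algebraMap K Ω a) * b j) = 0 → lam = 0)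
    (w : J → Ω) (hw : ∀ j, Val P (b j) (w j)) : LinearIndependent M w := by
  rw [linearIndependent_iff']
  intro s m hsum j hj
  have hf : IsRat rho M (∑ j ∈ s, algebraMap Ω FΩ (m j : Ω) * b j) :=
    isRat_sum s _ fun j _ =>
      isRat_mul (isRat_algebraMap hF (m j).2) (isRat_mono bot_le (hbrat j))
  have hval : Val P (∑ j ∈ s, algebraMap Ω FΩ (m j : Ω) * b j) 0 := by
    have h1 := val_sum (P := P) s (fun j => algebraMap Ω FΩ (m j : Ω) * b j)
      (fun j => (m j : Ω) * w j) (fun j _ => val_mul (val_algebraMap P _) (hw j))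
    have h2 : ∑ j ∈ s, (m j : Ω) * w j = 0 := by
      rw [← hsum]
      refine Finset.sum_congr rfl fun j _ => ?_
      rw [Algebra.smul_def, IntermediateField.algebraMap_apply]
    rwa [h2] at h1
  have hzero := eq_zero_of_val_zero hF M hf hP ht hval
  have h3 := sum_eq_zero_of_isRat hF b hbrat hbind s (fun j => (m j : Ω)) hzero j hj
  exact Subtype.ext h3

/-! ### The theorem -/

/-- **(G10) Joint independence.**  Products of the values at a generic tuple of `K`-rational
functions which are linearly independent over `K` are linearly independent over `K`. -/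
theorem linearIndependent_prod_val [IsAlgClosed Ω] [IsAlgClosed K] (hF : Frame x rho)
    {g : ℕ} {P : Fin g → Place Ω FΩ} {t : Fin g → Ω} (hP : IsGeneric K x P t)
    {J : Type*} (b : J → FΩ) (hbrat : ∀ j, IsRat rho ⊥ (b j))
    (hbind : ∀ lam : J →₀ K,
      (lam.sum fun j a => algebraMap Ω FΩ (algebraMap K Ω a) * b j) = 0 → lam = 0)
    (c : Fin g → J → Ω) (hc : ∀ i j, Val (P i) (b j) (c i j)) :
    LinearIndependent K (fun φ : Fin g → J => ∏ i, c i (φ i)) := by
  induction g with
  | zero =>
    rw [linearIndependent_unique_iff]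
    simp
  | succ g ih =>
    -- the first `g` places
    have hP' : IsGeneric K x (fun i : Fin g => P i.castSucc) (fun i : Fin g => t i.castSucc) :=
      ⟨hP.1.comp Fin.castSucc (Fin.castSucc_injective g), fun i => hP.2 i.castSucc⟩
    have ih' := ih hP' (fun i => c i.castSucc) (fun i j => hc i.castSucc j)
    -- the field generated by the first `g` values of `x`
    set M : IntermediateField K Ω := algCl K (t '' {k | k < Fin.last g}) with hM
    have htM : ∀ i : Fin g, t i.castSucc ∈ M := fun i =>
      Field.subset_algCl _ ⟨i.castSucc, Fin.castSucc_lt_last i, rfl⟩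
    have htlast : t (Fin.last g) ∉ M := Field.not_mem_algCl_of_algebraicIndependent hP.1 _
    have hcM : ∀ (i : Fin g) (j : J), c i.castSucc j ∈ M := fun i j =>
      val_mem_of_val_mem hF M (hP.2 i.castSucc) (htM i) (isRat_mono bot_le (hbrat j))
        (hc i.castSucc j)
    -- the products over the first `g` places, as elements of `M`
    set v : (Fin g → J) → M := fun ψ =>
      ⟨∏ i, c i.castSucc (ψ i), prod_mem fun i _ => hcM i (ψ i)⟩ with hv
    have hvind : LinearIndependent K v := by
      refine LinearIndependent.of_comp (M.val.toLinearMap) ?_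
      exact ih'
    -- the values at the last place are independent over `M`
    have hwind : LinearIndependent M (c (Fin.last g)) :=
      linearIndependent_val_of_not_mem hF M (hP.2 (Fin.last g)) htlast b hbrat hbind _
        (hc (Fin.last g))
    have hprod := linearIndependent_smul hvind hwind
    -- reindex
    have hinj : Function.Injective
        (fun φ : Fin (g + 1) → J => ((fun i : Fin g => φ i.castSucc, φ (Fin.last g)) :
          (Fin g → J) × J)) := by
      intro φ φ' h
      have h1 := congrArg Prod.fst h
      have h2 := congrArg Prod.snd h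
      funext i
      refine Fin.lastCases ?_ (fun i => ?_) i
      · exact h2
      · exact congrFun h1 i
    have hcomp := hprod.comp _ hinj
    convert hcomp using 1
    funext φ
    show ∏ i, c i (φ i) = v (fun i : Fin g => φ i.castSucc) • c (Fin.last g) (φ (Fin.last g))
    rw [Fin.prod_univ_castSucc, Algebra.smul_def, IntermediateField.algebraMap_apply]

end Fermat.Agent.S27P.Gen.JI
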