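/-
helper91 — S27 / (GEN), row (G9), second seat: `lift_key` (literal of (GEN) ruling #2).

A generic tuple `Q` with the same reduction as the generic tuple `P` is the image of `P` under an
automorphism of `Ω/K` which stabilises the valuation ring `V` and acts trivially on its residue
field.

Proof.  `hred` gives a permutation `π` with `r (Q (π i)) = r (P i)`; homogeneity gives
`σ₀ ∈ Aut(Ω/K)` with `σ₀ P_i = Q_(π i)`; by `hcong` it moves the values `c i j` of the model
basis at `P_i` by non-units of `V`, hence also the products `e_φ = ∏ i, c i (φ i)`; these span a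
`K`-algebra, generate a field over which `Ω` is algebraic, and are residually independent (`hJI`),
so (LIFT-VAL) `exists_algEquiv_adjust` gives an admissible `σ` agreeing with `σ₀` on `K(e)`.  The
value at `P_i` of every `K`-rational function lies in `K(e)` (`hbfrac` + (P5)), and `K`-rational
functions separate places, hence `σ P_i = σ₀ P_i`.
-/
import Mathlib
import Fermat.Agent.S27P.Gen.Homog
import Fermat.Agent.S27P.Val.AdjustB2
import Fermat.Agent.S27P.Val.GaussFam

set_option autoImplicit false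
set_option linter.unusedSectionVars false

open AlgebraicCurve

noncomputable section

namespace Fermat.Agent.S27P.Gen.LiftKey91

open Fermat.Agent.S27P.Gen Fermat.Agent.Lib.FF Fermat.Agent.S27P.Gen.Values

variable {K : Type*} {Ω : Type*} {FΩ : Type*} [Field K] [Field Ω] [Algebra K Ω] [Field FΩ]
  [Algebra Ω FΩ]

/-! ### Pure algebra: products of spans -/

/-- A product of elements of the spans of the families `c i` lies in the span of the products
`∏ i, c i (φ i)`. -/
theorem prod_mem_span_prod {g : ℕ} {J : Type*} (c : Fin g → J → Ω) (y : Fin g → Ω)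
    (hy : ∀ i, y i ∈ Submodule.span K (Set.range (c i))) :
    ∏ i, y i ∈ Submodule.span K (Set.range fun φ : Fin g → J => ∏ i, c i (φ i)) := by
  classical
  choose l hl using fun i => Finsupp.mem_span_range_iff_exists_finsupp.1 (hy i)
  have e1 : ∏ i, y i = ∑ p ∈ Fintype.piFinset (fun i => (l i).support),
      (∏ i, l i (p i)) • ∏ i, c i (p i) := by
    calc ∏ i, y i = ∏ i, ∑ j ∈ (l i).support, l i j • c i j := by
          refine Finset.prod_congr rfl fun i _ => ?_
          rw [← hl i, Finsupp.sum]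
      _ = ∑ p ∈ Fintype.piFinset (fun i => (l i).support), ∏ i, (l i (p i) • c i (p i)) :=
          Finset.prod_univ_sum _ _
      _ = _ := by
          refine Finset.sum_congr rfl fun p _ => ?_
          simp only [Algebra.smul_def]
          rw [Finset.prod_mul_distrib, map_prod]
  rw [e1]
  exact Submodule.sum_mem _ fun p _ => Submodule.smul_mem _ _ (Submodule.subset_span ⟨p, rfl⟩)

/-- An element of the span of one family `c i₀` lies in the span of the products (all the spans
contain `1`). -/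
theorem mem_span_prod_of_mem {g : ℕ} {J : Type*} (c : Fin g → J → Ω)
    (hc1 : ∀ i, (1 : Ω) ∈ Submodule.span K (Set.range (c i))) (i₀ : Fin g) {y : Ω}
    (hy : y ∈ Submodule.span K (Set.range (c i₀))) :
    y ∈ Submodule.span K (Set.range fun φ : Fin g → J => ∏ i, c i (φ i)) := by
  classical
  have h := prod_mem_span_prod c (fun i => if i = i₀ then y else 1) (fun i => by
    by_cases hi : i = i₀
    · subst hi
      rw [if_pos rfl]
      exact hy
    · rw [if_neg hi]
      exact hc1 i)
  rwa [Finset.prod_eq_single i₀ (fun b _ hb => if_neg hb)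
    (fun h => absurd (Finset.mem_univ _) h), if_pos rfl] at h

/-- The span of a set lies in the field it generates. -/
theorem mem_adjoin_of_mem_span {S : Set Ω} {y : Ω} (hy : y ∈ Submodule.span K S) :
    y ∈ IntermediateField.adjoin K S := by
  have h : Submodule.span K S ≤ (IntermediateField.adjoin K S).toSubalgebra.toSubmodule :=
    Submodule.span_le.2 (IntermediateField.subset_adjoin K S)
  exact h hy

/-- Algebraicity over an intermediate field passes to a larger one. -/
theorem isAlgebraic_of_le {L₁ L₂ : IntermediateField K Ω} (h : L₁ ≤ L₂) {y : Ω}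
    (hy : IsAlgebraic L₁ y) : IsAlgebraic L₂ y :=
  IsAlgebraic.tower_top_of_subalgebra_le (A := L₁.toSubalgebra) (B := L₂.toSubalgebra) h hy

/-- Products of elements of `V` which are termwise congruent modulo the non-units are
congruent. -/
theorem prod_sub_prod_mem_nonunits (V : ValuationSubring Ω) {ι : Type*} (s : Finset ι)
    (f f' : ι → Ω) (hf : ∀ i ∈ s, f i ∈ V) (hff' : ∀ i ∈ s, f' i - f i ∈ V.nonunits) :
    (∏ i ∈ s, f' i) - ∏ i ∈ s, f i ∈ V.nonunits ∧ ∏ i ∈ s, f' i ∈ V ∧ ∏ i ∈ s, f i ∈ V := by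
  classical
  induction s using Finset.induction_on with
  | empty =>
    refine ⟨?_, ?_, ?_⟩
    · rw [Finset.prod_empty, Finset.prod_empty, sub_self, ValuationSubring.mem_nonunits_iff,
        map_zero]
      exact zero_lt_one
    · rw [Finset.prod_empty]
      exact V.one_mem
    · rw [Finset.prod_empty]
      exact V.one_mem
  | insert a s ha ih =>
    obtain ⟨h1, h2, h3⟩ := ih (fun i hi => hf i (Finset.mem_insert_of_mem hi))
      (fun i hi => hff' i (Finset.mem_insert_of_mem hi))
    have hfa : V.valuation (f a) ≤ 1 :=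
      (V.valuation_le_one_iff _).2 (hf a (Finset.mem_insert_self a s))
    have hda : V.valuation (f' a - f a) < 1 :=
      (ValuationSubring.mem_nonunits_iff V).1 (hff' a (Finset.mem_insert_self a s))
    have hf'a : V.valuation (f' a) ≤ 1 := by
      have e : f' a = (f' a - f a) + f a := by ring
      rw [e]
      exact le_trans (V.valuation.map_add _ _) (max_le hda.le hfa)
    have hP' : V.valuation (∏ i ∈ s, f' i) ≤ 1 := (V.valuation_le_one_iff _).2 h2
    have hP : V.valuation (∏ i ∈ s, f i) ≤ 1 := (V.valuation_le_one_iff _).2 h3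
    have hd : V.valuation ((∏ i ∈ s, f' i) - ∏ i ∈ s, f i) < 1 :=
      (ValuationSubring.mem_nonunits_iff V).1 h1
    rw [Finset.prod_insert ha, Finset.prod_insert ha]
    refine ⟨?_, V.mul_mem _ _ ((V.valuation_le_one_iff _).1 hf'a) h2,
      V.mul_mem _ _ (hf a (Finset.mem_insert_self a s)) h3⟩
    rw [ValuationSubring.mem_nonunits_iff]
    have e : f' a * ∏ i ∈ s, f' i - f a * ∏ i ∈ s, f i =
        (f' a - f a) * ∏ i ∈ s, f' i + f a * ((∏ i ∈ s, f' i) - ∏ i ∈ s, f i) := by ring
    rw [e]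
    refine lt_of_le_of_lt (V.valuation.map_add _ _) (max_lt ?_ ?_)
    · rw [map_mul]
      exact mul_lt_one_of_nonneg_of_lt_one_left zero_le hda hP'
    · rw [map_mul]
      exact mul_lt_one_of_nonneg_of_lt_one_right hfa zero_le hd

/-! ### Values -/

theorem val_finset_sum {P : Place Ω FΩ} {ι : Type*} (s : Finset ι) (f : ι → FΩ) (a : ι → Ω)
    (h : ∀ i ∈ s, Val P (f i) (a i)) : Val P (∑ i ∈ s, f i) (∑ i ∈ s, a i) := by
  classical
  induction s using Finset.induction_on with
  | empty =>
    rw [Finset.sum_empty, Finset.sum_empty]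
    exact val_zero P
  | insert i s hi ih =>
    rw [Finset.sum_insert hi, Finset.sum_insert hi]
    exact val_add (h i (Finset.mem_insert_self i s))
      (ih fun j hj => h j (Finset.mem_insert_of_mem hj))

/-- Every automorphism of `Ω/K` fixes the bottom intermediate field. -/
theorem mem_bot_fixingSubgroup (σ : Ω ≃ₐ[K] Ω) :
    σ ∈ (⊥ : IntermediateField K Ω).fixingSubgroup := by
  rw [IntermediateField.mem_fixingSubgroup_iff]
  intro y hy
  obtain ⟨a, rfl⟩ := IntermediateField.mem_bot.1 hy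
  exact σ.commutes a

variable {x : FΩ} {rho : (Ω ≃ₐ[K] Ω) →* SemilinearAut Ω FΩ}

/-- The value at a `K`-generic place of a `K`-rational function lies in every intermediate field
containing the values of the functions `b j`, when every `K`-rational function is a quotient of
`K`-combinations of the `b j`. -/
theorem val_mem_of_frac [IsAlgClosed Ω] [IsAlgClosed K] (hF : Frame x rho)
    {P : Place Ω FΩ} {t : Ω} (hP : Val P x t) (ht : Transcendental K t)
    {J : Type*} (b : J → FΩ) (hbrat : ∀ j, IsRat rho ⊥ (b j))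
    (hbfrac : ∀ f : FΩ, IsRat rho ⊥ f → ∃ lam mu : J →₀ K,
      (mu.sum fun j a => algebraMap Ω FΩ (algebraMap K Ω a) * b j) ≠ 0 ∧
      f * (mu.sum fun j a => algebraMap Ω FΩ (algebraMap K Ω a) * b j) =
        lam.sum fun j a => algebraMap Ω FΩ (algebraMap K Ω a) * b j)
    (c : J → Ω) (hc : ∀ j, Val P (b j) (c j)) (L : IntermediateField K Ω)
    (hcL : ∀ j, c j ∈ L) {f : FΩ} (hf : IsRat rho ⊥ f) {d : Ω} (hd : Val P f d) : d ∈ L := by
  obtain ⟨lam, mu, hmu0, hfe⟩ := hbfrac f hf
  have hvalsum : ∀ l : J →₀ K,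
      Val P (l.sum fun j a => algebraMap Ω FΩ (algebraMap K Ω a) * b j)
        (l.sum fun j a => algebraMap K Ω a * c j) := fun l =>
    val_finset_sum _ _ _ fun j _ => val_mul (val_algebraMap P _) (hc j)
  have hsumL : ∀ l : J →₀ K, (l.sum fun j a => algebraMap K Ω a * c j) ∈ L := fun l =>
    sum_mem fun j _ => L.mul_mem (L.algebraMap_mem _) (hcL j)
  have hDrat : IsRat rho ⊥ (mu.sum fun j a => algebraMap Ω FΩ (algebraMap K Ω a) * b j) := by
    have h : (mu.sum fun j a => algebraMap Ω FΩ (algebraMap K Ω a) * b j) ∈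
        Conj60.ratField rho ⊥ :=
      sum_mem fun j _ => mul_mem
        (isRat_algebraMap hF ((⊥ : IntermediateField K Ω).algebraMap_mem _)) (hbrat j)
    exact h
  have htbot : t ∉ (⊥ : IntermediateField K Ω) := by
    intro h
    obtain ⟨a, rfl⟩ := IntermediateField.mem_bot.1 h
    exact ht (isAlgebraic_algebraMap a)
  have hordD := Conj60.ord_eq_zero_of_isRat hF ⊥ hP htbot hDrat hmu0
  have hm0 : (mu.sum fun j a => algebraMap K Ω a * c j) ≠ 0 := by
    intro h0
    have hv := hvalsum mu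
    rw [h0] at hv
    rcases val_zero_iff.1 hv with h | h
    · exact hmu0 h
    · omega
  have h1 := val_mul hd (hvalsum mu)
  rw [hfe] at h1
  have hdm := val_unique h1 (hvalsum lam)
  rw [eq_div_of_mul_eq hm0 hdm]
  exact L.div_mem (hsumL lam) (hsumL mu)

/-- **(G9) `lift_key`** (literal of (GEN) ruling #2; the conclusion is `Adm V σ ∧ …` with
`Adm V σ := (∀ a, a ∈ V ↔ σ a ∈ V) ∧ ∀ a, a ∈ V → σ a - a ∈ V.nonunits` written out). -/
theorem lift_key [IsAlgClosed Ω] [IsAlgClosed K] [CharZero K] (hF : Frame x rho)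
    {X : Type*} [AddCommGroup X] (ρΩ : Pic0 Ω FΩ →+ X)
    {g : ℕ} {P : Fin g → Place Ω FΩ} {t : Fin g → Ω} (hP : IsGeneric K x P t)
    (halg : ∀ y : Ω, IsAlgebraic (IntermediateField.adjoin K (Set.range t)) y)
    (V : ValuationSubring Ω) {Y : Type*} (r : Place Ω FΩ → Y)
    (hred : ∀ (Q : Fin g → Place Ω FΩ) (t' : Fin g → Ω), IsGeneric K x Q t' →
      (∀ D' : Divisor.degZero (K := Ω) (F := FΩ), (D' : Divisor Ω FΩ) = tsum Q - tsum P →
        ρΩ (Pic0.mk D') = 0) →
      ∃ π : Equiv.Perm (Fin g), ∀ i, r (Q (π i)) = r (P i))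
    {J : Type*} (b : J → FΩ) (hbrat : ∀ j, IsRat rho ⊥ (b j))
    (hbfrac : ∀ f : FΩ, IsRat rho ⊥ f → ∃ lam mu : J →₀ K,
      (mu.sum fun j a => algebraMap Ω FΩ (algebraMap K Ω a) * b j) ≠ 0 ∧
      f * (mu.sum fun j a => algebraMap Ω FΩ (algebraMap K Ω a) * b j) =
        lam.sum fun j a => algebraMap Ω FΩ (algebraMap K Ω a) * b j)
    (c : Fin g → J → Ω) (hc : ∀ i j, Val (P i) (b j) (c i j)) (hcV : ∀ i j, c i j ∈ V)
    (hc1 : ∀ i, (1 : Ω) ∈ Submodule.span K (Set.range (c i)))
    (hcmul : ∀ i j j', c i j * c i j' ∈ Submodule.span K (Set.range (c i)))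
    (hct : ∀ i, t i ∈ Submodule.span K (Set.range (c i)))
    (hJI : Fermat.Agent.S27P.Val.GaussFam.ResIndepFam (K := K) V
      (fun φ : Fin g → J => ∏ i, c i (φ i)))
    (hcong : ∀ (i : Fin g) (Q' : Place Ω FΩ) (t' : Ω), Val Q' x t' → Transcendental K t' →
      r Q' = r (P i) → ∀ (j : J) (c' : Ω), Val Q' (b j) c' → c' - c i j ∈ V.nonunits)
    (Q : Fin g → Place Ω FΩ) (t' : Fin g → Ω) (hQ : IsGeneric K x Q t')
    (hρ : ∀ D' : Divisor.degZero (K := Ω) (F := FΩ), (D' : Divisor Ω FΩ) = tsum Q - tsum P →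
      ρΩ (Pic0.mk D') = 0) :
    ∃ σ : Ω ≃ₐ[K] Ω, ((∀ a : Ω, a ∈ V ↔ σ a ∈ V) ∧ ∀ a : Ω, a ∈ V → σ a - a ∈ V.nonunits) ∧
      rho σ • tsum P = tsum Q := by
  classical
  obtain ⟨π, hπ⟩ := hred Q t' hQ hρ
  have hQπ : IsGeneric K x (fun i => Q (π i)) (fun i => t' (π i)) :=
    ⟨hQ.1.comp π π.injective, fun i => hQ.2 (π i)⟩
  obtain ⟨σ₀, hσ₀⟩ := Homog.exists_smul_eq_of_isGeneric hF hP hQπ
  -- `σ₀` moves the values of the model basis by non-units
  have hσ₀c : ∀ i j, σ₀ (c i j) - c i j ∈ V.nonunits := by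
    intro i j
    have h1 := val_smul_of_val hF σ₀ (hc i j)
    rw [hσ₀ i, rho_smul_of_isRat (hbrat j) (mem_bot_fixingSubgroup σ₀)] at h1
    exact hcong i (Q (π i)) (t' (π i)) (hQ.2 (π i)) (hQ.1.transcendental (π i)) (hπ i) j _ h1
  have he_V : ∀ φ : Fin g → J, (∏ i, c i (φ i)) ∈ V := fun φ =>
    prod_mem fun i _ => hcV i (φ i)
  have heσ : ∀ φ : Fin g → J, σ₀ (∏ i, c i (φ i)) - ∏ i, c i (φ i) ∈ V.nonunits := by
    intro φ
    rw [map_prod]
    exact (prod_sub_prod_mem_nonunits V Finset.univ (fun i => c i (φ i))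
      (fun i => σ₀ (c i (φ i))) (fun i _ => hcV i (φ i)) (fun i _ => hσ₀c i (φ i))).1
  have h1 : (1 : Ω) ∈ Submodule.span K (Set.range fun φ : Fin g → J => ∏ i, c i (φ i)) := by
    have h := prod_mem_span_prod c (fun _ => (1 : Ω)) hc1
    rwa [Finset.prod_const_one] at h
  have hmul : ∀ φ φ' : Fin g → J, (∏ i, c i (φ i)) * ∏ i, c i (φ' i) ∈
      Submodule.span K (Set.range fun φ : Fin g → J => ∏ i, c i (φ i)) := by
    intro φ φ'
    have h := prod_mem_span_prod c (fun i => c i (φ i) * c i (φ' i)) (fun i => hcmul i _ _)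
    rwa [Finset.prod_mul_distrib] at h
  have hcL : ∀ i j, c i j ∈
      IntermediateField.adjoin K (Set.range fun φ : Fin g → J => ∏ i, c i (φ i)) := fun i j =>
    mem_adjoin_of_mem_span (mem_span_prod_of_mem c hc1 i (Submodule.subset_span ⟨j, rfl⟩))
  have hle : IntermediateField.adjoin K (Set.range t) ≤
      IntermediateField.adjoin K (Set.range fun φ : Fin g → J => ∏ i, c i (φ i)) := by
    rw [IntermediateField.adjoin_le_iff]
    rintro _ ⟨i, rfl⟩
    exact mem_adjoin_of_mem_span (mem_span_prod_of_mem c hc1 i (hct i))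
  have halg' : ∀ y : Ω, IsAlgebraic
      (IntermediateField.adjoin K (Set.range fun φ : Fin g → J => ∏ i, c i (φ i))) y :=
    fun y => isAlgebraic_of_le hle (halg y)
  obtain ⟨σ, -, hσadj, hσV, hσres⟩ :=
    Fermat.Agent.S27P.Val.AdjustB.exists_algEquiv_adjust_adjoin V σ₀
      (fun φ : Fin g → J => ∏ i, c i (φ i)) h1 hmul halg' he_V heσ hJI
  refine ⟨σ, ⟨hσV, hσres⟩, ?_⟩
  have hσP : ∀ i, rho σ • P i = Q (π i) := by
    intro i
    rw [← hσ₀ i]
    by_contra hne
    obtain ⟨f, hfR, d₁, d₂, hd₁, hd₂, hdd⟩ := SepP.exists_isRat_separating hF hne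
    have e1 : Val (P i) f (σ.symm d₁) := by
      refine (val_smul hF σ).1 ?_
      rw [rho_smul_of_isRat hfR (mem_bot_fixingSubgroup σ), AlgEquiv.apply_symm_apply]
      exact hd₁
    have e2 : Val (P i) f (σ₀.symm d₂) := by
      refine (val_smul hF σ₀).1 ?_
      rw [rho_smul_of_isRat hfR (mem_bot_fixingSubgroup σ₀), AlgEquiv.apply_symm_apply]
      exact hd₂
    have hval : σ.symm d₁ = σ₀.symm d₂ := val_unique e1 e2
    have hmem := val_mem_of_frac hF (hP.2 i) (hP.1.transcendental i) b hbrat hbfrac (c i)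
      (hc i) _ (hcL i) hfR e1
    have h3 := hσadj _ hmem
    rw [AlgEquiv.apply_symm_apply, hval, AlgEquiv.apply_symm_apply] at h3
    exact hdd h3
  rw [rho_smul_tsum, funext hσP]
  unfold tsum
  exact Equiv.sum_comp π (fun i => Finsupp.single (Q i) (1 : ℤ))

end Fermat.Agent.S27P.Gen.LiftKey91
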