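/-
helper19 — S27 / (GEN): **(LIFT_Ω)**, the second final literal of the layer, in one statement:
`Lift.lift_core` (abstract core) composed with `LiftKey91.lift_key` (helper91; the key step).

Setting: the frame `(Ω ⊇ K, FΩ, x, rho)` in characteristic zero; `(P, t)` a generic tuple of
`g = genusFF Ω FΩ` places with `Ω` algebraic over `K(t)`; `V` a valuation subring of `Ω`;
`ρΩ : Pic0 Ω FΩ →+ X` an additive map (the reduction) invariant under the automorphisms of `Ω/K`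
which stabilise `V` and act trivially on its residue field (`hA`); `r` a reduction of places and
`b` a family of `K`-rational functions with values `c i j` at the `P i` satisfying the
hypotheses of `lift_key` (see `Gen/LiftKey91.lean`; ruling #2 of the layer).

Conclusion: every class of an `Aut(Ω/K)`-fixed divisor of degree zero which is killed by `ρΩ` is
`n` times a class killed by `ρΩ` — provided the `n`-torsion of `Pic0 Ω FΩ` is finite.
-/
import Mathlib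
import Fermat.Agent.S27P.Gen.Lift
import Fermat.Agent.S27P.Gen.LiftKey91

set_option autoImplicit false
set_option linter.unusedVariables false

open AlgebraicCurve

noncomputable section

namespace Fermat.Agent.S27P.Gen.LiftOmega

open Fermat.Agent.S27P.Gen Fermat.Agent.Lib.FF

variable {K : Type*} {Ω : Type*} {FΩ : Type*} [Field K] [Field Ω] [Algebra K Ω] [Field FΩ]
  [Algebra Ω FΩ]

variable {x : FΩ} {rho : (Ω ≃ₐ[K] Ω) →* SemilinearAut Ω FΩ}

/-- **(LIFT_Ω)** — final literal #2 of (GEN). -/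
theorem lift_Omega [IsAlgClosed Ω] [IsAlgClosed K] [CharZero K] (hF : Frame x rho)
    {X : Type*} [AddCommGroup X] (ρΩ : Pic0 Ω FΩ →+ X)
    {n : ℕ} (hn : 0 < n) (htor : {y : Pic0 Ω FΩ | n • y = 0}.Finite)
    {P : Fin (genusFF Ω FΩ) → Place Ω FΩ} {t : Fin (genusFF Ω FΩ) → Ω}
    (hP : IsGeneric K x P t)
    (halg : ∀ y : Ω, IsAlgebraic (IntermediateField.adjoin K (Set.range t)) y)
    (V : ValuationSubring Ω)
    (hA : ∀ σ : Ω ≃ₐ[K] Ω,
      ((∀ a : Ω, a ∈ V ↔ σ a ∈ V) ∧ ∀ a : Ω, a ∈ V → σ a - a ∈ V.nonunits) →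
      ∀ a : Pic0 Ω FΩ, ρΩ (rho σ • a) = ρΩ a)
    {Y : Type*} (r : Place Ω FΩ → Y)
    (hred : ∀ (Q : Fin (genusFF Ω FΩ) → Place Ω FΩ) (t' : Fin (genusFF Ω FΩ) → Ω),
      IsGeneric K x Q t' →
      (∀ D' : Divisor.degZero (K := Ω) (F := FΩ), (D' : Divisor Ω FΩ) = tsum Q - tsum P →
        ρΩ (Pic0.mk D') = 0) →
      ∃ π : Equiv.Perm (Fin (genusFF Ω FΩ)), ∀ i, r (Q (π i)) = r (P i))
    {J : Type*} (b : J → FΩ) (hbrat : ∀ j, IsRat rho ⊥ (b j))
    (hbfrac : ∀ f : FΩ, IsRat rho ⊥ f → ∃ lam mu : J →₀ K,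
      (mu.sum fun j a => algebraMap Ω FΩ (algebraMap K Ω a) * b j) ≠ 0 ∧
      f * (mu.sum fun j a => algebraMap Ω FΩ (algebraMap K Ω a) * b j) =
        lam.sum fun j a => algebraMap Ω FΩ (algebraMap K Ω a) * b j)
    (c : Fin (genusFF Ω FΩ) → J → Ω) (hc : ∀ i j, Val (P i) (b j) (c i j))
    (hcV : ∀ i j, c i j ∈ V)
    (hc1 : ∀ i, (1 : Ω) ∈ Submodule.span K (Set.range (c i)))
    (hcmul : ∀ i j j', c i j * c i j' ∈ Submodule.span K (Set.range (c i)))
    (hct : ∀ i, t i ∈ Submodule.span K (Set.range (c i)))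
    (hJI : Fermat.Agent.S27P.Val.GaussFam.ResIndepFam (K := K) V
      (fun φ : Fin (genusFF Ω FΩ) → J => ∏ i, c i (φ i)))
    (hcong : ∀ (i : Fin (genusFF Ω FΩ)) (Q' : Place Ω FΩ) (t' : Ω), Val Q' x t' →
      Transcendental K t' → r Q' = r (P i) →
      ∀ (j : J) (c' : Ω), Val Q' (b j) c' → c' - c i j ∈ V.nonunits)
    (D : Divisor.degZero (K := Ω) (F := FΩ))
    (hfix : ∀ σ : Ω ≃ₐ[K] Ω, rho σ • (D : Divisor Ω FΩ) = D)
    (hρ : ρΩ (Pic0.mk D) = 0) :
    ∃ a : Pic0 Ω FΩ, n • a = Pic0.mk D ∧ ρΩ a = 0 :=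
  Lift.lift_core hF ρΩ hn htor hP
    (fun σ => (∀ a : Ω, a ∈ V ↔ σ a ∈ V) ∧ ∀ a : Ω, a ∈ V → σ a - a ∈ V.nonunits) hA
    (fun Q t' hQ hρ' => LiftKey91.lift_key hF ρΩ hP halg V r hred b hbrat hbfrac c hc hcV hc1
      hcmul hct hJI hcong Q t' hQ hρ')
    D hfix hρ

end Fermat.Agent.S27P.Gen.LiftOmega
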