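import Mathlib
import Fermat.Agent.S27P.Val.IntClosure

/-!
# S27 (GEN), brick (G8): conjugacy of the extensions of a valuation ring, and the surjection of
the decomposition group onto the residue automorphisms

`L / K` a Galois extension of fields (algebraic, finite or not; e.g. `L` algebraically closed
and algebraic over `K` of characteristic zero), `B`, `B'` valuation subrings of `L`, of
arbitrary rank, `res K B = B.comap (algebraMap K L)` the restriction to `K`
(`Fermat.Agent.S27P.Val.res`, helper33's `Val/IntClosure.lean`, on which this file is built).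

* `exists_algEquiv_smul_eq` : **(V1), conjugacy** — two valuation subrings of `L` with the same
  restriction to `K` are conjugate under `Gal(L/K)`.
* `exists_algEquiv_red` : **(V2)** — for a reduction map `red : B →+* k` onto a ring `k` whose
  kernel is the set of non-units of `B`, every automorphism `θ` of `k` fixing the residues of
  `B ∩ K` is induced by a `σ ∈ Gal(L/K)` with `σ • B = B`.
* `exists_algEquiv_residue` : the same for `k = IsLocalRing.ResidueField B`.
-/

set_option autoImplicit false

noncomputable section

namespace Fermat.Agent.S27P.Gen.ValConj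

open Fermat.Agent.S27P.Val
open scoped Pointwise

variable {K L : Type*} [Field K] [Field L] [Algebra K L]

/-! ### The Galois action on the integral closure -/

section Action

variable (A : ValuationSubring K)

/-- The action of `Gal(L/K)` on the integral closure in `L` of a valuation subring `A` of `K`. -/
@[instance_reducible]
def galAction : MulSemiringAction (L ≃ₐ[K] L) (integralClosure A L) where
  smul g b := ⟨g b.1, b.2.map (g.toAlgHom.restrictScalars A)⟩
  one_smul _ := Subtype.ext rfl
  mul_smul _ _ _ := Subtype.ext rfl
  smul_zero g := Subtype.ext (map_zero g)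
  smul_add g a b := Subtype.ext (map_add g a.1 b.1)
  smul_one g := Subtype.ext (map_one g)
  smul_mul g a b := Subtype.ext (map_mul g a.1 b.1)

attribute [local instance] galAction

theorem galAction_coe (g : L ≃ₐ[K] L) (b : integralClosure A L) :
    ((g • b : integralClosure A L) : L) = g (b : L) := rfl

theorem galAction_smulCommClass : SMulCommClass (L ≃ₐ[K] L) A (integralClosure A L) :=
  ⟨fun g n b => Subtype.ext (by
    show g ((n • b : integralClosure A L) : L) = ((n • (g • b) : integralClosure A L) : L)
    have h1 : ∀ c : integralClosure A L,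
        ((n • c : integralClosure A L) : L) = algebraMap K L (n : K) * (c : L) := by
      intro c
      rw [Algebra.smul_def]
      rfl
    rw [h1, h1, map_mul, AlgEquiv.commutes]
    rfl)⟩

attribute [local instance] galAction_smulCommClass

theorem galAction_isInvariant [IsGalois K L] :
    Algebra.IsInvariant A (integralClosure A L) (L ≃ₐ[K] L) := by
  refine ⟨fun b hb => ?_⟩
  have h1 : (b : L) ∈ (⊥ : IntermediateField K L) := by
    rw [InfiniteGalois.mem_bot_iff_fixed]
    intro g
    exact congrArg Subtype.val (hb g)
  obtain ⟨q, hq⟩ := IntermediateField.mem_bot.mp h1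
  have h2 : IsIntegral A q := by
    have := b.2
    rw [← hq] at this
    exact (isIntegral_algebraMap_iff (algebraMap K L).injective).mp this
  obtain ⟨n, hn⟩ := IsIntegrallyClosed.algebraMap_eq_of_integral h2
  refine ⟨n, Subtype.ext ?_⟩
  rw [← hq, ← hn]
  rfl

attribute [local instance] galAction_isInvariant

/-- The discrete topology on the integral closure. -/
@[instance_reducible]
def intTopology : TopologicalSpace (integralClosure A L) := ⊥

attribute [local instance] intTopology

theorem intDiscrete : DiscreteTopology (integralClosure A L) := ⟨rfl⟩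

attribute [local instance] intDiscrete

theorem galAction_continuousSMul [IsGalois K L] :
    ContinuousSMul (L ≃ₐ[K] L) (integralClosure A L) := by
  rw [continuousSMul_iff_stabilizer_isOpen]
  intro b
  have := stabilizer_isOpen_of_isIntegral (K := K) (L := L) (b : L)
  convert this using 1
  ext g
  simp [MulAction.mem_stabilizer_iff, Subtype.ext_iff]

attribute [local instance] galAction_continuousSMul

/-! ### The centre of a valuation subring on the integral closure -/

variable {A}

theorem integralClosure_le {B : ValuationSubring L} (hB : res K B = A) :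
    (integralClosure A L).toSubring ≤ B.toSubring := by
  subst hB
  exact fun b hb => mem_of_isIntegral B hb

/-- The centre of `B` on the integral closure of `A = B ∩ K`: the prime ideal of the integral
elements which are non-units of `B`. -/
def centre (B : ValuationSubring L) (hB : res K B = A) : Ideal (integralClosure A L) :=
  (IsLocalRing.maximalIdeal B).comap (Subring.inclusion (integralClosure_le hB))

theorem mem_centre {B : ValuationSubring L} (hB : res K B = A) (b : integralClosure A L) :
    b ∈ centre B hB ↔ (b : L) ∈ B.nonunits := by
  show Subring.inclusion (integralClosure_le hB) b ∈ IsLocalRing.maximalIdeal B ↔ _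
  rw [ValuationSubring.mem_nonunits_iff, B.valuation_lt_one_iff]
  rfl

theorem centre_isPrime {B : ValuationSubring L} (hB : res K B = A) : (centre B hB).IsPrime :=
  Ideal.comap_isPrime _ _

theorem mem_under_centre {B : ValuationSubring L} (hB : res K B = A) (a : A) :
    a ∈ (centre B hB).under A ↔ (a : K) ∈ A.nonunits := by
  rw [Ideal.under_def, Ideal.mem_comap, mem_centre]
  subst hB
  exact mem_nonunits_res_iff.symm

theorem under_centre_eq {B B' : ValuationSubring L} (hB : res K B = A) (hB' : res K B' = A) :
    (centre B hB).under A = (centre B' hB').under A := by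
  ext a
  rw [mem_under_centre, mem_under_centre]

/-! ### Transport of a valuation subring by an automorphism -/

/-- `B`, `B'` valuation subrings of `L` with the same restriction to `K`, `g ∈ Gal(L/K)`: if
every integral `y` with `g y` a non-unit of `B'` is a non-unit of `B`, then `g` maps `B` into
`B'`. -/
theorem map_mem_of_forall_integral [Algebra.IsAlgebraic K L] {B B' : ValuationSubring L}
    (h : res K B = res K B') (g : L ≃ₐ[K] L)
    (hg : ∀ y : L, IsIntegral (res K B) y → g y ∈ B'.nonunits → y ∈ B.nonunits) {x : L}
    (hx : x ∈ B) : g x ∈ B' := by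
  obtain ⟨b, c, hb, hc, hvc, hxc⟩ := exists_integral_mul_eq (K := K) B hx
  have hgb : IsIntegral (res K B) (g b) := hb.map (g.toAlgHom.restrictScalars (res K B))
  have hgc : IsIntegral (res K B) (g c) := hc.map (g.toAlgHom.restrictScalars (res K B))
  have hgb' : g b ∈ B' := mem_of_isIntegral B' (h ▸ hgb)
  have hgc' : g c ∈ B' := mem_of_isIntegral B' (h ▸ hgc)
  have hc0 : c ≠ 0 := by
    intro h0
    rw [h0, map_zero] at hvc
    exact zero_ne_one hvc
  have hgc0 : g c ≠ 0 := fun h0 => hc0 (by simpa using h0)
  have hvc' : B'.valuation (g c) = 1 := by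
    refine le_antisymm ((B'.valuation_le_one_iff _).2 hgc') ?_
    by_contra h2
    rw [not_le] at h2
    have h3 : g c ∈ B'.nonunits := (B'.mem_nonunits_iff).2 h2
    have h4 := hg c hc h3
    rw [ValuationSubring.mem_nonunits_iff, hvc] at h4
    exact lt_irrefl _ h4
  have hcinv : (g c)⁻¹ ∈ B' := by
    rw [← B'.valuation_le_one_iff, map_inv₀, hvc', inv_one]
  have hx' : g x = g b * (g c)⁻¹ := by
    rw [← hxc, map_mul, mul_assoc, mul_inv_cancel₀ hgc0, mul_one]
  rw [hx']
  exact B'.mul_mem _ _ hgb' hcinv

theorem apply_inv_smul (g : L ≃ₐ[K] L) (x : L) : g (g⁻¹ • x) = x := by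
  show (g * g⁻¹) x = x
  rw [mul_inv_cancel]
  rfl

/-- An automorphism whose action on the integral closure maps the centre of `B` onto the centre
of `B'` maps `B` onto `B'`. -/
theorem smul_eq_of_centre_eq [IsGalois K L] {B B' : ValuationSubring L} (hB : res K B = A)
    (hB' : res K B' = A) (g : L ≃ₐ[K] L) (hg : centre B' hB' = g • centre B hB) :
    g • B = B' := by
  subst hB
  refine le_antisymm ?_ ?_
  · intro x hx
    rw [ValuationSubring.mem_pointwise_smul_iff_inv_smul_mem] at hx
    have h1 := map_mem_of_forall_integral (B := B) (B' := B') hB'.symm g (fun y hy hgy => by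
      have h3 : (g • (⟨y, hy⟩ : integralClosure (res K B) L)) ∈ centre B' hB' :=
        (mem_centre hB' _).2 hgy
      rw [hg, Ideal.smul_mem_pointwise_smul_iff] at h3
      exact (mem_centre rfl _).1 h3) hx
    rwa [apply_inv_smul] at h1
  · intro x hx
    rw [ValuationSubring.mem_pointwise_smul_iff_inv_smul_mem]
    refine map_mem_of_forall_integral (B := B') (B' := B) hB' g⁻¹ (fun y hy hgy => ?_) hx
    have hy' : IsIntegral (res K B) y := hB' ▸ hy
    have h3 : (g⁻¹ • (⟨y, hy'⟩ : integralClosure (res K B) L)) ∈ centre B rfl :=
      (mem_centre rfl _).2 hgy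
    rw [← Ideal.mem_pointwise_smul_iff_inv_smul_mem, ← hg] at h3
    exact (mem_centre hB' _).1 h3

end Action

/-! ### (V1) Conjugacy -/

section Conj

variable [IsGalois K L]

attribute [local instance] galAction galAction_smulCommClass galAction_isInvariant intTopology
  intDiscrete galAction_continuousSMul

/-- **(V1), conjugacy.** `L / K` Galois (algebraic, possibly infinite): two valuation subrings
of `L` with the same restriction to `K` are conjugate under `Gal(L/K)`. -/
theorem exists_algEquiv_smul_eq (B B' : ValuationSubring L) (h : res K B = res K B') :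
    ∃ σ : L ≃ₐ[K] L, σ • B = B' := by
  have := centre_isPrime (A := res K B) (B := B) rfl
  have := centre_isPrime (A := res K B) (B := B') h.symm
  obtain ⟨g, hg⟩ := Algebra.IsInvariant.exists_smul_of_under_eq_of_profinite (A := res K B)
    (G := L ≃ₐ[K] L) (centre B rfl) (centre B' h.symm) (under_centre_eq rfl h.symm)
  exact ⟨g, smul_eq_of_centre_eq rfl h.symm g hg⟩

/-- **(V1)**, membership form, with the hypothesis on elements of `K`. -/
theorem exists_algEquiv_mem_iff (B B' : ValuationSubring L)
    (h : ∀ a : K, algebraMap K L a ∈ B ↔ algebraMap K L a ∈ B') :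
    ∃ σ : L ≃ₐ[K] L, ∀ x : L, x ∈ B ↔ σ x ∈ B' := by
  have h' : res K B = res K B' := by
    ext a
    exact h a
  obtain ⟨σ, hσ⟩ := exists_algEquiv_smul_eq B B' h'
  refine ⟨σ, fun x => ?_⟩
  rw [← hσ, ValuationSubring.mem_pointwise_smul_iff_inv_smul_mem]
  have e : σ⁻¹ • σ x = x := by
    show (σ⁻¹ * σ) x = x
    rw [inv_mul_cancel]
    rfl
  rw [e]

end Conj

end Fermat.Agent.S27P.Gen.ValConj
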