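import Mathlib

/-!
# Gauss's lemma for a family (`(GAUSS-FAM)`, ruling #4098 of the S27 (GEN) layer)

`K ⊆ L` fields, `W` a valuation subring of `L`, `e : I → L` a family of elements of `W` whose
residues are linearly independent over the residue field of `W ∩ K` (stated without residue
fields, as `ResIndepFam`).  Then for every finitely supported `c : I →₀ K`

  `v (∑ c i • e i) = max_i v (c i)`,

hence `∑ c i • e i ∈ W ↔ ∀ i, c i ∈ W`, and a valuation subring of `L` all of whose elements are
fractions of `K`-combinations of the `e i` is determined by its trace on `K`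
(`eq_of_resIndepFam`).  This contains both the classical Gauss lemma (`e` = the monomials) and
the uniqueness of the extension when `f = n` (`e` = a basis with independent residues).

Mathlib only; arbitrary rank; universe-polymorphic.
-/

set_option autoImplicit false

namespace Fermat.Agent.S27P.Gen.ValExt

variable {K L : Type*} [Field K] [Field L] [Algebra K L]

/-- The residues of the family `e` are linearly independent over the residue field of the trace
of `W` on `K`, stated without residue fields: a `K`-combination of the `e i` with coefficients in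
`W` which is a non-unit of `W` has all its coefficients non-units. -/
def ResIndepFam (W : ValuationSubring L) {I : Type*} (e : I → L) : Prop :=
  ∀ c : I →₀ K, (∀ i, algebraMap K L (c i) ∈ W) →
    (c.sum fun i a => a • e i) ∈ W.nonunits → ∀ i, algebraMap K L (c i) ∈ W.nonunits

section Basic

variable {I : Type*}

/-- A combination with coefficients in `W` of elements of `W` lies in `W`. -/
theorem sum_mem_of_coeff_mem (e : I → L) (W : ValuationSubring L) (he : ∀ i, e i ∈ W)
    (c : I →₀ K) (hc : ∀ i, algebraMap K L (c i) ∈ W) :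
    (c.sum fun i a => a • e i) ∈ W := by
  refine sum_mem fun i _ => ?_
  show c i • e i ∈ W
  rw [Algebra.smul_def]
  exact W.mul_mem _ _ (hc i) (he i)

/-- A combination with non-unit coefficients of elements of `W` is a non-unit of `W`. -/
theorem sum_mem_nonunits_of_coeff_mem (e : I → L) (W : ValuationSubring L) (he : ∀ i, e i ∈ W)
    (c : I →₀ K) (hc : ∀ i, algebraMap K L (c i) ∈ W.nonunits) :
    (c.sum fun i a => a • e i) ∈ W.nonunits := by
  refine sum_mem fun i _ => ?_
  show c i • e i ∈ W.nonunits
  rw [Algebra.smul_def, ValuationSubring.mem_nonunits_iff, map_mul]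
  have h1 : W.valuation (algebraMap K L (c i)) < 1 := (W.mem_nonunits_iff).1 (hc i)
  have h2 : W.valuation (e i) ≤ 1 := (W.valuation_le_one_iff _).2 (he i)
  calc W.valuation (algebraMap K L (c i)) * W.valuation (e i)
      ≤ W.valuation (algebraMap K L (c i)) * 1 := mul_le_mul' le_rfl h2
    _ < 1 := by rwa [mul_one]

theorem sum_inv_smul (e : I → L) (a : K) (c : I →₀ K) :
    ((a⁻¹ • c).sum fun i b => b • e i) = (algebraMap K L a)⁻¹ * (c.sum fun i b => b • e i) := by
  rw [Finsupp.sum_smul_index' (fun i => zero_smul K (e i)), Finsupp.sum, Finsupp.sum,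
    Finset.mul_sum]
  refine Finset.sum_congr rfl fun i _ => ?_
  rw [smul_eq_mul, mul_smul, Algebra.smul_def a⁻¹, map_inv₀]

/-- **The valuation formula** (Gauss): the valuation of a combination of a residually independent
family is the maximum of the valuations of the coefficients. -/
theorem exists_valuation_sum_eq (e : I → L) (W : ValuationSubring L) (he : ∀ i, e i ∈ W)
    (hW : ResIndepFam (K := K) W e) (c : I →₀ K) (hc : c ≠ 0) :
    ∃ i₀, c i₀ ≠ 0 ∧
      W.valuation (c.sum fun i a => a • e i) = W.valuation (algebraMap K L (c i₀)) ∧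
      ∀ i, W.valuation (algebraMap K L (c i)) ≤ W.valuation (algebraMap K L (c i₀)) := by
  classical
  have hne : c.support.Nonempty := Finsupp.support_nonempty_iff.2 hc
  obtain ⟨i₀, hi₀, hmax⟩ := Finset.exists_max_image c.support
    (fun i => W.valuation (algebraMap K L (c i))) hne
  have h0 : c i₀ ≠ 0 := Finsupp.mem_support_iff.1 hi₀
  have hmax' : ∀ i, W.valuation (algebraMap K L (c i)) ≤ W.valuation (algebraMap K L (c i₀)) := by
    intro i
    by_cases hi : i ∈ c.support
    · exact hmax i hi
    · rw [Finsupp.notMem_support_iff.1 hi, map_zero, map_zero]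
      exact zero_le
  refine ⟨i₀, h0, ?_, hmax'⟩
  have hv0 : W.valuation (algebraMap K L (c i₀)) ≠ 0 :=
    (Valuation.ne_zero_iff _).2 ((map_ne_zero _).2 h0)
  have hcW : ∀ i, algebraMap K L (((c i₀)⁻¹ • c) i) ∈ W := by
    intro i
    rw [Finsupp.smul_apply, smul_eq_mul, ← ValuationSubring.valuation_le_one_iff, map_mul,
      map_mul, map_inv₀, map_inv₀]
    exact (inv_mul_le_one₀ (zero_lt_iff.2 hv0)).2 (hmax' i)
  have hmem := sum_mem_of_coeff_mem e W he _ hcW
  have hnon : (((c i₀)⁻¹ • c).sum fun i b => b • e i) ∉ W.nonunits := by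
    intro hcon
    have h1 := hW _ hcW hcon i₀
    rw [Finsupp.smul_apply, smul_eq_mul, inv_mul_cancel₀ h0, map_one,
      ValuationSubring.mem_nonunits_iff, map_one] at h1
    exact lt_irrefl _ h1
  have h1 : W.valuation (((c i₀)⁻¹ • c).sum fun i b => b • e i) = 1 := by
    refine le_antisymm ((W.valuation_le_one_iff _).2 hmem) ?_
    rw [ValuationSubring.mem_nonunits_iff, not_lt] at hnon
    exact hnon
  rw [sum_inv_smul, map_mul, map_inv₀] at h1
  exact ((inv_mul_eq_one₀ hv0).1 h1).symm

/-- The valuation formula, as an inequality for all coefficients. -/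
theorem valuation_coeff_le (e : I → L) (W : ValuationSubring L) (he : ∀ i, e i ∈ W)
    (hW : ResIndepFam (K := K) W e) (c : I →₀ K) (i : I) :
    W.valuation (algebraMap K L (c i)) ≤ W.valuation (c.sum fun i a => a • e i) := by
  by_cases hc : c = 0
  · rw [hc, Finsupp.zero_apply, map_zero, map_zero]
    exact zero_le
  · obtain ⟨i₀, -, h1, h2⟩ := exists_valuation_sum_eq e W he hW c hc
    rw [h1]
    exact h2 i

/-- **Gauss, membership form**: a combination of a residually independent family lies in `W` iff
all its coefficients do. -/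
theorem mem_iff_of_resIndepFam (e : I → L) (W : ValuationSubring L) (he : ∀ i, e i ∈ W)
    (hW : ResIndepFam (K := K) W e) (c : I →₀ K) :
    (c.sum fun i a => a • e i) ∈ W ↔ ∀ i, algebraMap K L (c i) ∈ W := by
  refine ⟨fun h i => ?_, sum_mem_of_coeff_mem e W he c⟩
  rw [← ValuationSubring.valuation_le_one_iff] at h ⊢
  exact (valuation_coeff_le e W he hW c i).trans h

/-- Non-unit twin of `mem_iff_of_resIndepFam`. -/
theorem mem_nonunits_iff_of_resIndepFam (e : I → L) (W : ValuationSubring L) (he : ∀ i, e i ∈ W)
    (hW : ResIndepFam (K := K) W e) (c : I →₀ K) :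
    (c.sum fun i a => a • e i) ∈ W.nonunits ↔ ∀ i, algebraMap K L (c i) ∈ W.nonunits := by
  refine ⟨fun h i => ?_, sum_mem_nonunits_of_coeff_mem e W he c⟩
  rw [ValuationSubring.mem_nonunits_iff] at h ⊢
  exact lt_of_le_of_lt (valuation_coeff_le e W he hW c i) h

/-- A residually independent family is `K`-linearly independent (in the `Finsupp` form). -/
theorem eq_zero_of_sum_eq_zero (e : I → L) (W : ValuationSubring L) (he : ∀ i, e i ∈ W)
    (hW : ResIndepFam (K := K) W e) (c : I →₀ K) (h : (c.sum fun i a => a • e i) = 0) :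
    c = 0 := by
  by_contra hc
  obtain ⟨i₀, h0, h1, -⟩ := exists_valuation_sum_eq e W he hW c hc
  rw [h, map_zero] at h1
  exact (Valuation.ne_zero_iff _).2 ((map_ne_zero _).2 h0) h1.symm

theorem linearIndependent_of_resIndepFam (e : I → L) (W : ValuationSubring L)
    (he : ∀ i, e i ∈ W) (hW : ResIndepFam (K := K) W e) : LinearIndependent K e := by
  rw [linearIndependent_iff]
  intro c hc
  refine eq_zero_of_sum_eq_zero e W he hW c ?_
  rw [← hc, Finsupp.linearCombination_apply]

/-- Pointwise form of `le_of_resIndepFam`: a fraction of two combinations of `e` which lies in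
`W` lies in `W'` (no generation hypothesis: `L` may be larger than the field generated by `e`). -/
theorem mem_of_mem_of_resIndepFam (e : I → L)
    (W W' : ValuationSubring L) (htr : ∀ a : K, algebraMap K L a ∈ W → algebraMap K L a ∈ W')
    (he : ∀ i, e i ∈ W) (he' : ∀ i, e i ∈ W')
    (hW : ResIndepFam (K := K) W e) (hW' : ResIndepFam (K := K) W' e) {y : L} (c d : I →₀ K)
    (hD : (d.sum fun i a => a • e i) ≠ 0)
    (hyD : y * (d.sum fun i a => a • e i) = c.sum fun i a => a • e i) (hy : y ∈ W) : y ∈ W' := by
  by_cases hc : c = 0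
  · have hy0 : y = 0 := by
      rw [hc, Finsupp.sum_zero_index] at hyD
      exact (mul_eq_zero.1 hyD).resolve_right hD
    rw [hy0]
    exact W'.zero_mem
  have hd : d ≠ 0 := by
    rintro rfl
    exact hD Finsupp.sum_zero_index
  obtain ⟨i₀, -, hC, -⟩ := exists_valuation_sum_eq e W he hW c hc
  obtain ⟨j₀, hj₀, hDv, -⟩ := exists_valuation_sum_eq e W he hW d hd
  obtain ⟨i₁, -, hC', -⟩ := exists_valuation_sum_eq e W' he' hW' c hc
  have hvd : W.valuation (algebraMap K L (d j₀)) ≠ 0 :=
    (Valuation.ne_zero_iff _).2 ((map_ne_zero _).2 hj₀)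
  have hvd' : W'.valuation (algebraMap K L (d j₀)) ≠ 0 :=
    (Valuation.ne_zero_iff _).2 ((map_ne_zero _).2 hj₀)
  -- in `W`: `v (c i₁) ≤ v C = v y * v D ≤ v D = v (d j₀)`
  have h1 : W.valuation (algebraMap K L (c i₁)) ≤ W.valuation (algebraMap K L (d j₀)) := by
    calc W.valuation (algebraMap K L (c i₁))
        ≤ W.valuation (c.sum fun i a => a • e i) := valuation_coeff_le e W he hW c i₁
      _ = W.valuation y * W.valuation (d.sum fun i a => a • e i) := by rw [← hyD, map_mul]
      _ ≤ 1 * W.valuation (d.sum fun i a => a • e i) :=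
          mul_le_mul' ((W.valuation_le_one_iff _).2 hy) le_rfl
      _ = W.valuation (algebraMap K L (d j₀)) := by rw [one_mul, hDv]
  have h2 : algebraMap K L (c i₁ / d j₀) ∈ W := by
    rw [← ValuationSubring.valuation_le_one_iff, map_div₀, map_div₀]
    exact (div_le_one₀ (zero_lt_iff.2 hvd)).2 h1
  have h3 : W'.valuation (algebraMap K L (c i₁)) ≤ W'.valuation (algebraMap K L (d j₀)) := by
    have := (W'.valuation_le_one_iff _).2 (htr _ h2)
    rw [map_div₀, map_div₀] at this
    exact (div_le_one₀ (zero_lt_iff.2 hvd')).1 this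
  have hD' : W'.valuation (d.sum fun i a => a • e i) ≠ 0 := (Valuation.ne_zero_iff _).2 hD
  have h4 : W'.valuation y * W'.valuation (d.sum fun i a => a • e i)
      ≤ 1 * W'.valuation (d.sum fun i a => a • e i) := by
    rw [← map_mul, hyD, hC', one_mul]
    exact h3.trans (valuation_coeff_le e W' he' hW' d j₀)
  rw [← ValuationSubring.valuation_le_one_iff]
  exact (mul_le_mul_iff_left₀ (zero_lt_iff.2 hD')).1 h4

/-- One inclusion of `eq_of_resIndepFam`. -/
theorem le_of_resIndepFam (e : I → L)
    (hgen : ∀ y : L, ∃ c d : I →₀ K, (d.sum fun i a => a • e i) ≠ 0 ∧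
      y * (d.sum fun i a => a • e i) = c.sum fun i a => a • e i)
    (W W' : ValuationSubring L) (htr : ∀ a : K, algebraMap K L a ∈ W → algebraMap K L a ∈ W')
    (he : ∀ i, e i ∈ W) (he' : ∀ i, e i ∈ W')
    (hW : ResIndepFam (K := K) W e) (hW' : ResIndepFam (K := K) W' e) : W ≤ W' := by
  intro y hy
  obtain ⟨c, d, hD, hyD⟩ := hgen y
  exact mem_of_mem_of_resIndepFam e W W' htr he he' hW hW' c d hD hyD hy

/-- **Gauss uniqueness for a family**: a valuation subring of `L`, all of whose elements are
fractions of `K`-combinations of a family `e` which is residually independent for `W` and `W'`,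
is determined by its trace on `K`. -/
theorem eq_of_resIndepFam (e : I → L)
    (hgen : ∀ y : L, ∃ c d : I →₀ K, (d.sum fun i a => a • e i) ≠ 0 ∧
      y * (d.sum fun i a => a • e i) = c.sum fun i a => a • e i)
    (W W' : ValuationSubring L) (htr : ∀ a : K, algebraMap K L a ∈ W ↔ algebraMap K L a ∈ W')
    (he : ∀ i, e i ∈ W) (he' : ∀ i, e i ∈ W')
    (hW : ResIndepFam (K := K) W e) (hW' : ResIndepFam (K := K) W' e) : W = W' :=
  le_antisymm (le_of_resIndepFam e hgen W W' (fun a => (htr a).1) he he' hW hW')
    (le_of_resIndepFam e hgen W' W (fun a => (htr a).2) he' he hW' hW)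

end Basic

end Fermat.Agent.S27P.Gen.ValExt
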