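import Fermat.Agent.S27P.Gen.ValExt

/-!
# Gauss's lemma for a family: perturbation, normal form, and maps congruent to the identity

Complements to `S27P/Gen/ValExt.lean` ((GAUSS-FAM)), in the shape step (i) of (LIFT-VAL)
(ruling #4098) consumes.  `W` is a valuation subring of `L ⊇ K`, `e : I → L` a family of elements
of `W`, residually independent over `K` (`ResIndepFam`).

* `resIndepFam_of_sub_mem_nonunits` : a family congruent to `e` modulo the maximal ideal of `W`
  is again residually independent;
* `valuation_sum_eq` : two residually independent families give the same valuation to the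
  combinations with the same coefficients;
* `exists_normalised` : an element of `W` which is a fraction `C / D` of combinations of `e` is
  such a fraction with coefficients in `W` and `D` a unit of `W`;
* for a ring endomorphism `φ` of `L` fixing `K` with `φ (e i) ≡ e i` modulo the maximal ideal:
  `valuation_map_eq` (`v (φ y) = v y`), `map_mem_iff` (`φ y ∈ W ↔ y ∈ W`) and
  `map_sub_mem_nonunits` (`y ∈ W → φ y - y ∈ 𝔪_W`) for every fraction `y` of combinations of `e`;
* `exists_fraction_of_mem_adjoin` : if the `K`-span of `e` contains `1` and the products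
  `e i * e j`, every element of `K(e)` is such a fraction; and the `_of_mem_adjoin` corollaries.

Mathlib only (through `ValExt`); arbitrary rank; universe-polymorphic.
-/

set_option autoImplicit false

namespace Fermat.Agent.S27P.Gen.ValExt.Adj

open Fermat.Agent.S27P.Gen.ValExt

variable {K L : Type*} [Field K] [Field L] [Algebra K L] {I : Type*}

/-! ### The maximal ideal -/

theorem mul_mem_nonunits (W : ValuationSubring L) {a b : L} (ha : a ∈ W)
    (hb : b ∈ W.nonunits) : a * b ∈ W.nonunits := by
  rw [ValuationSubring.mem_nonunits_iff] at hb ⊢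
  rw [map_mul]
  calc W.valuation a * W.valuation b
      ≤ 1 * W.valuation b := mul_le_mul' ((W.valuation_le_one_iff _).2 ha) le_rfl
    _ < 1 := by rwa [one_mul]

theorem mem_of_mem_nonunits (W : ValuationSubring L) {a : L} (ha : a ∈ W.nonunits) : a ∈ W :=
  (W.valuation_le_one_iff _).1 (le_of_lt (W.mem_nonunits_iff.1 ha))

theorem mem_of_sub_mem_nonunits (W : ValuationSubring L) {a b : L} (ha : a ∈ W)
    (h : b - a ∈ W.nonunits) : b ∈ W := by
  have h1 := W.add_mem _ _ ha (mem_of_mem_nonunits W h)
  rwa [add_sub_cancel] at h1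

/-- An element congruent to a unit modulo the maximal ideal has valuation `1`. -/
theorem valuation_eq_one_of_sub_mem_nonunits (W : ValuationSubring L) {a b : L}
    (ha : W.valuation a = 1) (h : b - a ∈ W.nonunits) : W.valuation b = 1 := by
  have h1 : b = a + (b - a) := by ring
  have h2 : W.valuation (b - a) < W.valuation a := by
    rw [ha]
    exact W.mem_nonunits_iff.1 h
  rw [h1, Valuation.map_add_eq_of_lt_left _ h2, ha]

/-! ### Perturbation of the family modulo the maximal ideal -/

/-- Two combinations with the same coefficients (in `W`) of families congruent modulo the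
maximal ideal are congruent modulo the maximal ideal. -/
theorem sum_sub_sum_mem_nonunits (e e' : I → L) (W : ValuationSubring L)
    (hsub : ∀ i, e' i - e i ∈ W.nonunits) (c : I →₀ K) (hc : ∀ i, algebraMap K L (c i) ∈ W) :
    (c.sum fun i a => a • e' i) - (c.sum fun i a => a • e i) ∈ W.nonunits := by
  rw [Finsupp.sum, Finsupp.sum, ← Finset.sum_sub_distrib]
  refine sum_mem fun i _ => ?_
  rw [← smul_sub, Algebra.smul_def]
  exact mul_mem_nonunits W (hc i) (hsub i)

/-- A family congruent to a residually independent family modulo the maximal ideal is residually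
independent. -/
theorem resIndepFam_of_sub_mem_nonunits (e e' : I → L) (W : ValuationSubring L)
    (hsub : ∀ i, e' i - e i ∈ W.nonunits) (hW : ResIndepFam (K := K) W e) :
    ResIndepFam (K := K) W e' := by
  intro c hc hsum
  refine hW c hc ?_
  have h1 := sum_sub_sum_mem_nonunits e e' W hsub c hc
  have h2 := sub_mem hsum h1
  rwa [sub_sub_cancel] at h2

/-- Two residually independent families give the same valuation to the combinations with the
same coefficients (both are the maximum of the valuations of the coefficients). -/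
theorem valuation_sum_eq (e e' : I → L) (W : ValuationSubring L) (he : ∀ i, e i ∈ W)
    (he' : ∀ i, e' i ∈ W) (hW : ResIndepFam (K := K) W e) (hW' : ResIndepFam (K := K) W e')
    (c : I →₀ K) :
    W.valuation (c.sum fun i a => a • e' i) = W.valuation (c.sum fun i a => a • e i) := by
  by_cases hc : c = 0
  · rw [hc, Finsupp.sum_zero_index, Finsupp.sum_zero_index]
  obtain ⟨i₀, -, h1, -⟩ := exists_valuation_sum_eq e W he hW c hc
  obtain ⟨i₁, -, h2, -⟩ := exists_valuation_sum_eq e' W he' hW' c hc
  refine le_antisymm ?_ ?_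
  · rw [h2]
    exact valuation_coeff_le e W he hW c i₁
  · rw [h1]
    exact valuation_coeff_le e' W he' hW' c i₀

/-! ### Normal form of the fractions lying in `W` -/

/-- An element of `W` which is a fraction of combinations of `e` is such a fraction with
coefficients in `W` and denominator a unit of `W`. -/
theorem exists_normalised (e : I → L) (W : ValuationSubring L) (he : ∀ i, e i ∈ W)
    (hW : ResIndepFam (K := K) W e) {y : L} (c d : I →₀ K)
    (hD : (d.sum fun i a => a • e i) ≠ 0)
    (hyD : y * (d.sum fun i a => a • e i) = c.sum fun i a => a • e i) (hy : y ∈ W) :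
    ∃ c' d' : I →₀ K, (∀ i, algebraMap K L (c' i) ∈ W) ∧ (∀ i, algebraMap K L (d' i) ∈ W) ∧
      W.valuation (d'.sum fun i a => a • e i) = 1 ∧
      y * (d'.sum fun i a => a • e i) = c'.sum fun i a => a • e i := by
  have hd : d ≠ 0 := by
    rintro rfl
    exact hD Finsupp.sum_zero_index
  obtain ⟨j₀, hj₀, hDv, -⟩ := exists_valuation_sum_eq e W he hW d hd
  have hv0 : W.valuation (algebraMap K L (d j₀)) ≠ 0 :=
    (Valuation.ne_zero_iff _).2 ((map_ne_zero _).2 hj₀)
  have hD1 : W.valuation (((d j₀)⁻¹ • d).sum fun i a => a • e i) = 1 := by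
    rw [sum_inv_smul, map_mul, map_inv₀, hDv, inv_mul_cancel₀ hv0]
  have hyD' : y * (((d j₀)⁻¹ • d).sum fun i a => a • e i)
      = ((d j₀)⁻¹ • c).sum fun i a => a • e i := by
    rw [sum_inv_smul, sum_inv_smul, ← hyD]
    ring
  have hDW : (((d j₀)⁻¹ • d).sum fun i a => a • e i) ∈ W :=
    (W.valuation_le_one_iff _).1 hD1.le
  refine ⟨(d j₀)⁻¹ • c, (d j₀)⁻¹ • d, ?_, ?_, hD1, hyD'⟩
  · rw [← mem_iff_of_resIndepFam e W he hW, ← hyD']
    exact W.mul_mem _ _ hy hDW
  · rw [← mem_iff_of_resIndepFam e W he hW]
    exact hDW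

/-! ### Ring endomorphisms congruent to the identity on the family -/

section Hom

variable (φ : L →+* L) (hφK : ∀ a : K, φ (algebraMap K L a) = algebraMap K L a)

include hφK

/-- A ring endomorphism fixing `K` commutes with `K`-combinations. -/
theorem ringHom_sum (e : I → L) (c : I →₀ K) :
    φ (c.sum fun i a => a • e i) = c.sum fun i a => a • φ (e i) := by
  rw [Finsupp.sum, map_sum]
  refine Finset.sum_congr rfl fun i _ => ?_
  rw [Algebra.smul_def, map_mul, hφK, ← Algebra.smul_def]

/-- **`v ∘ φ = v` on the fractions of combinations of `e`**, when `φ (e i) ≡ e i` modulo the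
maximal ideal of `W`. -/
theorem valuation_map_eq (e : I → L) (W : ValuationSubring L) (he : ∀ i, e i ∈ W)
    (hW : ResIndepFam (K := K) W e) (hφe : ∀ i, φ (e i) - e i ∈ W.nonunits) {y : L}
    (c d : I →₀ K) (hD : (d.sum fun i a => a • e i) ≠ 0)
    (hyD : y * (d.sum fun i a => a • e i) = c.sum fun i a => a • e i) :
    W.valuation (φ y) = W.valuation y := by
  have he' : ∀ i, φ (e i) ∈ W := fun i => mem_of_sub_mem_nonunits W (he i) (hφe i)
  have hW' : ResIndepFam (K := K) W (fun i => φ (e i)) :=
    resIndepFam_of_sub_mem_nonunits e _ W hφe hW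
  have hC := valuation_sum_eq e (fun i => φ (e i)) W he he' hW hW' c
  have hDv := valuation_sum_eq e (fun i => φ (e i)) W he he' hW hW' d
  rw [← ringHom_sum φ hφK] at hC hDv
  have hDv0 : W.valuation (d.sum fun i a => a • e i) ≠ 0 := (Valuation.ne_zero_iff _).2 hD
  have h1 : W.valuation (φ y) * W.valuation (φ (d.sum fun i a => a • e i))
      = W.valuation (φ (c.sum fun i a => a • e i)) := by
    rw [← map_mul, ← map_mul, hyD]
  have h2 : W.valuation y * W.valuation (d.sum fun i a => a • e i)
      = W.valuation (c.sum fun i a => a • e i) := by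
    rw [← map_mul, hyD]
  rw [hC, ← h2, hDv] at h1
  exact mul_right_cancel₀ hDv0 h1

/-- `φ y ∈ W ↔ y ∈ W` for the fractions of combinations of `e`. -/
theorem map_mem_iff (e : I → L) (W : ValuationSubring L) (he : ∀ i, e i ∈ W)
    (hW : ResIndepFam (K := K) W e) (hφe : ∀ i, φ (e i) - e i ∈ W.nonunits) {y : L}
    (c d : I →₀ K) (hD : (d.sum fun i a => a • e i) ≠ 0)
    (hyD : y * (d.sum fun i a => a • e i) = c.sum fun i a => a • e i) :
    φ y ∈ W ↔ y ∈ W := by
  rw [← ValuationSubring.valuation_le_one_iff, ← ValuationSubring.valuation_le_one_iff,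
    valuation_map_eq φ hφK e W he hW hφe c d hD hyD]

/-- `φ y ∈ 𝔪_W ↔ y ∈ 𝔪_W` for the fractions of combinations of `e`. -/
theorem map_mem_nonunits_iff (e : I → L) (W : ValuationSubring L) (he : ∀ i, e i ∈ W)
    (hW : ResIndepFam (K := K) W e) (hφe : ∀ i, φ (e i) - e i ∈ W.nonunits) {y : L}
    (c d : I →₀ K) (hD : (d.sum fun i a => a • e i) ≠ 0)
    (hyD : y * (d.sum fun i a => a • e i) = c.sum fun i a => a • e i) :
    φ y ∈ W.nonunits ↔ y ∈ W.nonunits := by
  rw [ValuationSubring.mem_nonunits_iff, ValuationSubring.mem_nonunits_iff,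
    valuation_map_eq φ hφK e W he hW hφe c d hD hyD]

/-- **`φ` is the identity on the residues of the fractions of combinations of `e`**:
`φ y - y ∈ 𝔪_W` for `y ∈ W`. -/
theorem map_sub_mem_nonunits (e : I → L) (W : ValuationSubring L) (he : ∀ i, e i ∈ W)
    (hW : ResIndepFam (K := K) W e) (hφe : ∀ i, φ (e i) - e i ∈ W.nonunits) {y : L}
    (c d : I →₀ K) (hD : (d.sum fun i a => a • e i) ≠ 0)
    (hyD : y * (d.sum fun i a => a • e i) = c.sum fun i a => a • e i) (hy : y ∈ W) :
    φ y - y ∈ W.nonunits := by
  obtain ⟨c', d', hc', hd', hD1, hyD'⟩ := exists_normalised e W he hW c d hD hyD hy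
  have hm1 : φ (d'.sum fun i a => a • e i) - (d'.sum fun i a => a • e i) ∈ W.nonunits := by
    rw [ringHom_sum φ hφK]
    exact sum_sub_sum_mem_nonunits e (fun i => φ (e i)) W hφe d' hd'
  have hm2 : φ (c'.sum fun i a => a • e i) - (c'.sum fun i a => a • e i) ∈ W.nonunits := by
    rw [ringHom_sum φ hφK]
    exact sum_sub_sum_mem_nonunits e (fun i => φ (e i)) W hφe c' hc'
  have hφD : W.valuation (φ (d'.sum fun i a => a • e i)) = 1 :=
    valuation_eq_one_of_sub_mem_nonunits W hD1 hm1
  have h3 : φ y * φ (d'.sum fun i a => a • e i) = φ (c'.sum fun i a => a • e i) := by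
    rw [← map_mul, hyD']
  have h4 : (φ y - y) * φ (d'.sum fun i a => a • e i)
      = (φ (c'.sum fun i a => a • e i) - (c'.sum fun i a => a • e i))
        - y * (φ (d'.sum fun i a => a • e i) - (d'.sum fun i a => a • e i)) := by
    rw [sub_mul, h3, mul_sub, hyD']
    ring
  have h5 : (φ y - y) * φ (d'.sum fun i a => a • e i) ∈ W.nonunits := by
    rw [h4]
    exact sub_mem hm2 (mul_mem_nonunits W hy hm1)
  rw [ValuationSubring.mem_nonunits_iff, map_mul, hφD, mul_one] at h5
  exact W.mem_nonunits_iff.2 h5

end Hom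

/-! ### The field generated by a family whose span is a subalgebra -/

theorem span_mul_mem (e : I → L)
    (hmul : ∀ i j, e i * e j ∈ Submodule.span K (Set.range e)) {x y : L}
    (hx : x ∈ Submodule.span K (Set.range e)) (hy : y ∈ Submodule.span K (Set.range e)) :
    x * y ∈ Submodule.span K (Set.range e) := by
  have h : Submodule.span K (Set.range e) * Submodule.span K (Set.range e)
      ≤ Submodule.span K (Set.range e) := by
    rw [Submodule.span_mul_span, Submodule.span_le]
    rintro _ ⟨_, ⟨i, rfl⟩, _, ⟨j, rfl⟩, rfl⟩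
    exact hmul i j
  exact h (Submodule.mul_mem_mul hx hy)

/-- If the `K`-span of `e` contains `1` and is stable under multiplication, every element of the
field `K(e)` is a fraction of two `K`-combinations of `e`. -/
theorem exists_fraction_of_mem_adjoin (e : I → L)
    (h1 : (1 : L) ∈ Submodule.span K (Set.range e))
    (hmul : ∀ i j, e i * e j ∈ Submodule.span K (Set.range e)) {y : L}
    (hy : y ∈ IntermediateField.adjoin K (Set.range e)) :
    ∃ c d : I →₀ K, (d.sum fun i a => a • e i) ≠ 0 ∧
      y * (d.sum fun i a => a • e i) = c.sum fun i a => a • e i := by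
  have hA : Algebra.adjoin K (Set.range e)
      ≤ (Submodule.span K (Set.range e)).toSubalgebra h1
          (fun x y hx hy => span_mul_mem e hmul hx hy) :=
    Algebra.adjoin_le fun x hx => Submodule.subset_span hx
  obtain ⟨r, hr, s, hs, rfl⟩ := IntermediateField.mem_adjoin_iff_div.1 hy
  have hr' : r ∈ Submodule.span K (Set.range e) := hA hr
  have hs' : s ∈ Submodule.span K (Set.range e) := hA hs
  by_cases hs0 : s = 0
  · obtain ⟨d, hd⟩ := Finsupp.mem_span_range_iff_exists_finsupp.1 h1
    refine ⟨0, d, ?_, ?_⟩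
    · rw [hd]
      exact one_ne_zero
    · rw [hs0, div_zero, zero_mul, Finsupp.sum_zero_index]
  · obtain ⟨c, hc⟩ := Finsupp.mem_span_range_iff_exists_finsupp.1 hr'
    obtain ⟨d, hd⟩ := Finsupp.mem_span_range_iff_exists_finsupp.1 hs'
    refine ⟨c, d, ?_, ?_⟩
    · rw [hd]
      exact hs0
    · rw [hc, hd, div_mul_cancel₀ _ hs0]

section Adjoin

variable (φ : L →+* L) (hφK : ∀ a : K, φ (algebraMap K L a) = algebraMap K L a)
  (e : I → L) (h1 : (1 : L) ∈ Submodule.span K (Set.range e))
  (hmul : ∀ i j, e i * e j ∈ Submodule.span K (Set.range e))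
  (W : ValuationSubring L) (he : ∀ i, e i ∈ W) (hW : ResIndepFam (K := K) W e)
  (hφe : ∀ i, φ (e i) - e i ∈ W.nonunits)

include hφK h1 hmul he hW hφe

/-- Step (i) of (LIFT-VAL): `v (φ y) = v y` on `K(e)`. -/
theorem valuation_map_eq_of_mem_adjoin {y : L}
    (hy : y ∈ IntermediateField.adjoin K (Set.range e)) :
    W.valuation (φ y) = W.valuation y := by
  obtain ⟨c, d, hD, hyD⟩ := exists_fraction_of_mem_adjoin e h1 hmul hy
  exact valuation_map_eq φ hφK e W he hW hφe c d hD hyD

/-- Step (i) of (LIFT-VAL): `φ y ∈ W ↔ y ∈ W` on `K(e)`. -/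
theorem map_mem_iff_of_mem_adjoin {y : L}
    (hy : y ∈ IntermediateField.adjoin K (Set.range e)) : φ y ∈ W ↔ y ∈ W := by
  obtain ⟨c, d, hD, hyD⟩ := exists_fraction_of_mem_adjoin e h1 hmul hy
  exact map_mem_iff φ hφK e W he hW hφe c d hD hyD

/-- Step (i) of (LIFT-VAL): `φ` is the identity on the residues of `K(e) ∩ W`. -/
theorem map_sub_mem_nonunits_of_mem_adjoin {y : L}
    (hy : y ∈ IntermediateField.adjoin K (Set.range e)) (hyW : y ∈ W) :
    φ y - y ∈ W.nonunits := by
  obtain ⟨c, d, hD, hyD⟩ := exists_fraction_of_mem_adjoin e h1 hmul hy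
  exact map_sub_mem_nonunits φ hφK e W he hW hφe c d hD hyD hyW

end Adjoin

end Fermat.Agent.S27P.Gen.ValExt.Adj
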